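import Fermat.Agent.DR.Abs.Basic

/-!
# S36 / Abs, file `Sep`: independence (`MultiRed.Sep`) of finitely many pairwise incomparable valuations of rank one.
-/

set_option autoImplicit false

namespace Fermat.Agent.S36.Abs

open AlgebraicCurve Fermat.Agent.Lib.RR Fermat.Agent.GAL.RED Fermat.Agent.DR.Abs

variable {K F k : Type*} [Field K] [Field F] [Algebra K F] [Field k] {ι : Type*}
  {Fb : ι → Type*} [∀ i, Field (Fb i)] [∀ i, Algebra k (Fb i)]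

/-- every nonzero function can be scaled to a unit of each of the valuation rings. -/
def HasScales (T : MultiRed K F k Fb) : Prop :=
  ∀ i, ∀ w : F, w ≠ 0 → ∃ a : K, a ≠ 0 ∧ (T.R i).red (a • w) ≠ 0

/-- the valuation of `K` has rank one. -/
def RankOne (T : MultiRed K F k Fb) : Prop :=
  ∀ a b : K, a ∈ T.A → a⁻¹ ∉ T.A → ∃ n : ℕ, a ^ n * b ∈ T.A

/-- an element outside a valuation ring has an inverse in the maximal ideal. -/
theorem Sep_inv_small {Fb₀ : Type*} [Field Fb₀] [Algebra k Fb₀] (R : RedData K F k Fb₀) {s : F}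
    (hs : s ∉ R.O) : s⁻¹ ∈ R.O ∧ R.red s⁻¹ = 0 := by
  refine ⟨(R.O.mem_or_inv_mem s).resolve_left hs, ?_⟩
  by_contra h
  have := (R.red_ne_zero_iff.1 h).2.2
  rw [inv_inv] at this
  exact hs this

/-- **(S1)** two incomparable valuation rings: `z` small at `i`, large at `j`.
PROOF. `t ∈ O_i \ O_j`, `s ∈ O_j \ O_i`; `z := t / s = t * s⁻¹`.  `s ∉ O_i ⟹ s⁻¹ ∈ O_i` and `s⁻¹` is not a unit of `O_i`
(`ValuationSubring.mem_or_inv_mem`), so `red_i s⁻¹ = 0` (`RedData.red_ne_zero_iff`), `red_i z = red_i t * 0 = 0`.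
Symmetrically `z⁻¹ = s * t⁻¹ ∈ O_j` with `red_j z⁻¹ = 0`. -/
theorem exists_small_large (T : MultiRed K F k Fb) {i j : ι}
    (hij : ∃ t ∈ (T.R i).O, t ∉ (T.R j).O) (hji : ∃ s ∈ (T.R j).O, s ∉ (T.R i).O) :
    ∃ z : F, z ≠ 0 ∧ z ∈ (T.R i).O ∧ (T.R i).red z = 0 ∧ z⁻¹ ∈ (T.R j).O ∧ (T.R j).red z⁻¹ = 0 := by
  obtain ⟨t, hti, htj⟩ := hij
  obtain ⟨s, hsj, hsi⟩ := hji
  have ht0 : t ≠ 0 := by rintro rfl; exact htj (T.R j).O.zero_mem
  have hs0 : s ≠ 0 := by rintro rfl; exact hsi (T.R i).O.zero_mem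
  obtain ⟨hsi', h1⟩ := Sep_inv_small (T.R i) hsi
  obtain ⟨htj', h2⟩ := Sep_inv_small (T.R j) htj
  refine ⟨t * s⁻¹, mul_ne_zero ht0 (inv_ne_zero hs0), (T.R i).O.mul_mem _ _ hti hsi', ?_, ?_, ?_⟩
  · rw [(T.R i).red_mul hti hsi', h1, mul_zero]
  · rw [mul_inv, inv_inv]; exact (T.R j).O.mul_mem _ _ htj' hsj
  · rw [mul_inv, inv_inv, (T.R j).red_mul htj' hsj, h2, zero_mul]

variable [Fintype ι] [Infinite k]

/-- **(S2)** `ε ∈ T.O` with `red_i ε = 1`, `red_j ε = 0`.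
PROOF. `z` from (S1).  For `l : ι` the set of `c : k` with `1 + c • red_l z = 0` has at most one element (if `c, c'` are two of them then
`(c - c') • red_l z = 0` and `red_l z ≠ 0`).  `k` is infinite: choose `c ≠ 0` outside all these sets (`Set.Finite.exists_notMem`/`Infinite.exists_notMem_finset`
applied to the union over `l` of the (sub)singletons and `{0}`), `μ ∈ A` with `redA μ = c` (`T.redA_surj`); `μ` is a unit of `A` (`T.redA_ne_zero_iff`).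
`ε := (1 + μ • z)⁻¹`.  At `l`: if `z ∈ O_l` then `1 + μ z ∈ O_l` has reduction `1 + c • red_l z ≠ 0`, so it is a unit and `ε ∈ O_l`;
if `z ∉ O_l` then `z⁻¹ ∈ O_l` with reduction `0`, `ε = z⁻¹ * (z⁻¹ + μ)⁻¹`, and `z⁻¹ + μ` has reduction `c ≠ 0`: `ε ∈ O_l`, `red_l ε = 0`.
At `i`: `red_i (1 + μ z) = 1`.  At `j`: the second case. -/
theorem exists_idem_pair (T : MultiRed K F k Fb) {i j : ι}
    (hij : ∃ t ∈ (T.R i).O, t ∉ (T.R j).O) (hji : ∃ s ∈ (T.R j).O, s ∉ (T.R i).O) :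
    ∃ ε ∈ T.O, (T.R i).red ε = 1 ∧ (T.R j).red ε = 0 := by
  obtain ⟨z, hz0, hzi, hzi0, hzj, hzj0⟩ := exists_small_large T hij hji
  -- the bad constants
  have hfin : ({0} ∪ ⋃ l : ι, {c : k | 1 + c • (T.R l).red z = 0}).Finite := by
    refine (Set.finite_singleton 0).union (Set.finite_iUnion fun l => Set.Subsingleton.finite ?_)
    intro c hc c' hc'
    simp only [Set.mem_ofPred_eq] at hc hc'
    have hr : (T.R l).red z ≠ 0 := by
      intro h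
      rw [h, smul_zero, add_zero] at hc
      exact one_ne_zero hc
    have h1 : (c - c') • (T.R l).red z = 0 := by
      rw [sub_smul, sub_eq_zero]
      exact add_left_cancel (hc.trans hc'.symm)
    exact sub_eq_zero.mp ((smul_eq_zero.mp h1).resolve_right hr)
  obtain ⟨c, hc⟩ := hfin.exists_notMem
  have hc0 : c ≠ 0 := fun h => hc (Or.inl h)
  have hcl : ∀ l, 1 + c • (T.R l).red z ≠ 0 := fun l h =>
    hc (Or.inr (Set.mem_iUnion.mpr ⟨l, h⟩))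
  obtain ⟨μ, hμA, hμ⟩ := T.redA_surj c
  have hμl : ∀ l, μ ∈ (T.R l).A := fun l => (T.mem_A_iff l).2 hμA
  have hμr : ∀ l, (T.R l).redA μ = c := fun l => (T.redA_eq l μ).trans hμ
  -- the first case
  have hA : ∀ l, z ∈ (T.R l).O →
      (T.R l).red (1 + μ • z) = 1 + c • (T.R l).red z := by
    intro l hzl
    rw [(T.R l).red_add (T.R l).O.one_mem ((T.R l).smul_mem (hμl l) hzl), (T.R l).red_one,
      (T.R l).red_smul (hμl l) hzl, hμr l]
  -- the second case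
  have hB : ∀ l, z⁻¹ ∈ (T.R l).O → (T.R l).red z⁻¹ = 0 →
      (1 + μ • z)⁻¹ ∈ (T.R l).O ∧ (T.R l).red (1 + μ • z)⁻¹ = 0 := by
    intro l hzl hzl0
    have hmem : algebraMap K F μ ∈ (T.R l).O := (T.R l).algebraMap_mem μ (hμl l)
    have h1 : (T.R l).red (z⁻¹ + algebraMap K F μ) ≠ 0 := by
      rw [(T.R l).red_add hzl hmem, hzl0, zero_add, (T.R l).red_algebraMap', hμr l]
      exact fun h => hc0 ((map_eq_zero _).mp h)
    have h2 : (1 + μ • z)⁻¹ = z⁻¹ * (z⁻¹ + algebraMap K F μ)⁻¹ := by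
      rw [← mul_inv, mul_add, mul_inv_cancel₀ hz0, Algebra.smul_def, mul_comm z]
    have h3 := (T.R l).inv_mem_of_red_ne_zero h1
    rw [h2]
    exact ⟨(T.R l).O.mul_mem _ _ hzl h3, by rw [(T.R l).red_mul hzl h3, hzl0, zero_mul]⟩
  refine ⟨(1 + μ • z)⁻¹, fun l => ?_, ?_, (hB j hzj hzj0).2⟩
  · by_cases hzl : z ∈ (T.R l).O
    · apply (T.R l).inv_mem_of_red_ne_zero
      rw [hA l hzl]
      exact hcl l
    · obtain ⟨h1, h2⟩ := Sep_inv_small (T.R l) hzl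
      exact (hB l h1 h2).1
  · rw [(T.R i).red_inv, hA i hzi, hzi0, smul_zero, add_zero, inv_one]

/-- **(S3)** `ε_i ∈ T.O` with `red ε_i = Pi.single i 1`  (product over `j ≠ i` of the elements of (S2); `RedData.red_mul`/`GRed.prod`). -/
theorem exists_idem [DecidableEq ι] (T : MultiRed K F k Fb)
    (hinc : ∀ i j, i ≠ j → ∃ t ∈ (T.R i).O, t ∉ (T.R j).O) (i : ι) :
    ∃ ε ∈ T.O, ∀ j, (T.R j).red ε = if j = i then 1 else 0 := by
  have h : ∀ j, ∃ ε ∈ T.O, (T.R i).red ε = 1 ∧ (j ≠ i → (T.R j).red ε = 0) := by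
    intro j
    by_cases hj : j = i
    · exact ⟨1, T.O.one_mem, (T.R i).red_one, fun h => absurd hj h⟩
    · obtain ⟨ε, hε, h1, h2⟩ := exists_idem_pair T (hinc i j (Ne.symm hj)) (hinc j i hj)
      exact ⟨ε, hε, h1, fun _ => h2⟩
  choose e heO he1 he0 using h
  refine ⟨∏ j, e j, T.O.prod_mem fun j _ => heO j, fun l => ?_⟩
  rw [(T.R l).red_prod Finset.univ e (fun j _ => heO j l)]
  split_ifs with hl
  · subst hl
    exact Finset.prod_eq_one fun j _ => he1 j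
  · exact Finset.prod_eq_zero (Finset.mem_univ l) (he0 l hl)

/-- **(S4)** an element with reduction `0` at `j` has powers which are arbitrarily small at `j`.
PROOF. If `ε = 0` take `n = 1`.  Otherwise scale: `a • ε` is a unit of `O_j` (`hsc`), so `a⁻¹ ∈ A` is not a unit of `A` (otherwise `ε` would be a unit of `O_j`),
`b • w` a unit of `O_j` (or `w = 0`).  `hr a⁻¹ b⁻¹` gives `n` with `a⁻¹ ^ n * b⁻¹ ∈ A`; then
`ε ^ (n + 1) * w = (a⁻¹ ^ n * b⁻¹) • a⁻¹ • ((a • ε) ^ (n + 1) * (b • w))` is (element of `A`) * (non unit of `A`) * (unit of `O_j`). -/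
theorem exists_pow_mul_small (T : MultiRed K F k Fb) (hsc : HasScales T) (hr : RankOne T) {j : ι} {ε : F}
    (hε : ε ∈ (T.R j).O) (h0 : (T.R j).red ε = 0) (w : F) :
    ∃ n₀ : ℕ, ∀ n : ℕ, n₀ ≤ n → ε ^ n * w ∈ (T.R j).O ∧ (T.R j).red (ε ^ n * w) = 0 := by
  by_cases hε0 : ε = 0
  · refine ⟨1, fun n hn => ?_⟩
    rw [hε0, zero_pow (by omega), zero_mul]
    exact ⟨(T.R j).O.zero_mem, (T.R j).red_zero⟩
  by_cases hw0 : w = 0
  · refine ⟨0, fun n _ => ?_⟩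
    rw [hw0, mul_zero]
    exact ⟨(T.R j).O.zero_mem, (T.R j).red_zero⟩
  obtain ⟨a, ha0, ha⟩ := hsc j ε hε0
  obtain ⟨b, hb0, hb⟩ := hsc j w hw0
  have haA : a ∉ T.A := by
    intro h
    rw [(T.R j).red_smul ((T.mem_A_iff j).2 h) hε, h0, smul_zero] at ha
    exact ha rfl
  have haA' : a⁻¹ ∈ T.A := (T.A.mem_or_inv_mem a).resolve_left haA
  obtain ⟨n₁, hn₁⟩ := hr a⁻¹ b⁻¹ haA' (by rwa [inv_inv])
  have hred0 : (T.R j).redA a⁻¹ = 0 := by
    by_contra h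
    have := ((T.R j).redA_ne_zero_iff.1 h).2.2
    rw [inv_inv] at this
    exact haA ((T.mem_A_iff j).1 this)
  refine ⟨n₁ + 1, fun n hn => ?_⟩
  obtain ⟨m, rfl⟩ := Nat.exists_eq_add_of_le hn
  have hy : (a • ε) ^ (n₁ + 1 + m) * (b • w) ∈ (T.R j).O :=
    (T.R j).O.mul_mem _ _ ((T.R j).O.pow_mem ((T.R j).mem_of_red_ne_zero ha) _)
      ((T.R j).mem_of_red_ne_zero hb)
  have hc1 : a⁻¹ ^ n₁ * b⁻¹ ∈ (T.R j).A := (T.mem_A_iff j).2 hn₁
  have hc2 : a⁻¹ ^ (m + 1) ∈ (T.R j).A := (T.R j).A.pow_mem ((T.mem_A_iff j).2 haA') _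
  have hcA : a⁻¹ ^ n₁ * b⁻¹ * a⁻¹ ^ (m + 1) ∈ (T.R j).A := (T.R j).A.mul_mem _ _ hc1 hc2
  have hc0 : (T.R j).redA (a⁻¹ ^ n₁ * b⁻¹ * a⁻¹ ^ (m + 1)) = 0 := by
    rw [(T.R j).redA_mul hc1 hc2, (T.R j).redA_pow, hred0, zero_pow (by omega), mul_zero]
  have hid : ε ^ (n₁ + 1 + m) * w =
      (a⁻¹ ^ n₁ * b⁻¹ * a⁻¹ ^ (m + 1)) • ((a • ε) ^ (n₁ + 1 + m) * (b • w)) := by
    rw [smul_pow, smul_mul_smul_comm, smul_smul]
    have : a⁻¹ ^ n₁ * b⁻¹ * a⁻¹ ^ (m + 1) * (a ^ (n₁ + 1 + m) * b) = 1 := by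
      have h1 : a⁻¹ ^ n₁ * b⁻¹ * a⁻¹ ^ (m + 1) * (a ^ (n₁ + 1 + m) * b) =
          (a⁻¹ * a) ^ (n₁ + 1 + m) * (b⁻¹ * b) := by
        rw [mul_pow]; ring
      rw [h1, inv_mul_cancel₀ ha0, inv_mul_cancel₀ hb0, one_pow, one_mul]
    rw [this, one_smul]
  rw [hid]
  exact ⟨(T.R j).smul_mem hcA hy, by rw [(T.R j).red_smul hcA hy, hc0, zero_smul]⟩

/-- **Independence.**
PROOF. Given `u`, `c`.  For each `i` choose `hᵢ` with `c i • hᵢ ∈ O_i`, `red_i (c i • hᵢ) = u i` (`RedData.exists_lift`, divide by `c i`), `ε_i` from (S3), and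
`n` larger than all the `n₀` of (S4) for the pairs `(j, i)`, `i ≠ j`, `w = c j • hᵢ`.  `h := ∑ᵢ ε_i ^ n * hᵢ`.  At `j`:
`c j • h = ε_j ^ n * (c j • h_j) + ∑_{i ≠ j} ε_i ^ n * (c j • hᵢ)`; the first term reduces to `1 ^ n * u j`, the others to `0`
(`RedData.red_add`, `GRed.sum`). -/
theorem sep_of_incomparable (T : MultiRed K F k Fb)
    (hinc : ∀ i j, i ≠ j → ∃ t ∈ (T.R i).O, t ∉ (T.R j).O) (hsc : HasScales T) (hr : RankOne T) :
    T.Sep := by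
  classical
  intro u c hc
  have hg : ∀ i, ∃ g : F, g ∈ (T.R i).O ∧ (T.R i).red g = u i := fun i => (T.R i).exists_lift (u i)
  choose g hgO hgu using hg
  have he : ∀ i, ∃ ε ∈ T.O, ∀ j, (T.R j).red ε = if j = i then 1 else 0 :=
    fun i => exists_idem T hinc i
  choose e heO he using he
  have hN : ∀ j i, ∃ n₀ : ℕ, i ≠ j → ∀ n : ℕ, n₀ ≤ n →
      e i ^ n * (c j • ((c i)⁻¹ • g i)) ∈ (T.R j).O ∧
        (T.R j).red (e i ^ n * (c j • ((c i)⁻¹ • g i))) = 0 := by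
    intro j i
    by_cases hij : i = j
    · exact ⟨0, fun h => absurd hij h⟩
    · obtain ⟨n₀, hn₀⟩ := exists_pow_mul_small T hsc hr (heO i j)
        (by rw [he i j, if_neg (Ne.symm hij)]) (c j • ((c i)⁻¹ • g i))
      exact ⟨n₀, fun _ => hn₀⟩
  choose N hN using hN
  let n : ℕ := ∑ j, ∑ i, N j i
  have hn : ∀ j i, N j i ≤ n := fun j i =>
    (Finset.single_le_sum (f := fun i => N j i) (fun _ _ => Nat.zero_le _) (Finset.mem_univ i)).trans
      (Finset.single_le_sum (f := fun j => ∑ i, N j i) (fun _ _ => Nat.zero_le _) (Finset.mem_univ j))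
  refine ⟨∑ i, e i ^ n * ((c i)⁻¹ • g i), fun j => ?_⟩
  have h1 : c j • ∑ i, e i ^ n * ((c i)⁻¹ • g i) = ∑ i, e i ^ n * (c j • ((c i)⁻¹ • g i)) := by
    rw [Finset.smul_sum]
    exact Finset.sum_congr rfl fun i _ => (mul_smul_comm _ _ _).symm
  have h2 : c j • ((c j)⁻¹ • g j) = g j := by
    rw [smul_smul, mul_inv_cancel₀ (hc j), one_smul]
  have hmem : ∀ i ∈ Finset.univ, e i ^ n * (c j • ((c i)⁻¹ • g i)) ∈ (T.R j).O := by
    intro i _
    by_cases hij : i = j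
    · subst hij
      rw [h2]
      exact (T.R i).O.mul_mem _ _ ((T.R i).O.pow_mem (heO i i) _) (hgO i)
    · exact (hN j i hij n (hn j i)).1
  rw [h1]
  refine ⟨(T.R j).O.sum_mem hmem, ?_⟩
  rw [(T.R j).red_sum Finset.univ _ hmem, Finset.sum_eq_single j
    (fun i _ hij => (hN j i hij n (hn j i)).2) (fun h => absurd (Finset.mem_univ j) h), h2,
    (T.R j).red_mul ((T.R j).O.pow_mem (heO j j) _) (hgO j), (T.R j).red_pow, he j j, if_pos rfl,
    one_pow, one_mul, hgu j]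

end Fermat.Agent.S36.Abs
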