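import Fermat.Agent.S36.Abs.Genus
import Fermat.Agent.S36.Abs.Sep
import Fermat.Agent.S19.Weil.Move

/-!
# S36 / Abs, file `Slopes`: (E4, weak form) orders of the reductions of a Kummer unit.

`h : IsPreNodal T x N a₀`, `f` a Kummer unit (`m ∣ div f`) all of whose reductions `ū i = red_i f` are nonzero. Then
* `dvd_ord_of_not_branch` : `m ∣ ord_P (ū i)` for every place `P` of `Fb i` which is not a branch of a node;
* `dvd_ord_branch_iff`    : at a node, `m ∣ ord` at one branch iff `m ∣ ord` at the other branch.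

PROOF (dimension count).  `div f = m D`.  `M(a) := redSub L(a (x)_∞ + D)` has dimension `a d + 1 - g = ∑ᵢ (a dᵢ + 1 - gᵢ) - #E`.
If `z = red y ∈ M(a)` then `z ^ m ū = red (y ^ m f)` is bounded by `m a` and glued.  So `z i ∈ L(a (x̄ᵢ)_∞ + ⌊div ū i / m⌋)`, a space of dimension
`a dᵢ + 1 - gᵢ - (1/m) ∑_P (ord_P ū i mod m)`, and every node at which at least one of the two orders is divisible by `m` imposes one more linear condition.  Hence
`∑_{i,P} (ord_P (ū i) mod m) ≤ m #NN`, `NN` = the nodes with both orders not divisible.  Adding this for `f` and `f⁻¹`: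
`#{(i,P) : m ∤ ord_P (ū i)} ≤ 2 #NN`; but the `2 #NN` branches of the nodes of `NN` belong to the left hand set.
-/

set_option autoImplicit false

namespace Fermat.Agent.S36.Abs

open AlgebraicCurve Fermat.Agent.Lib.RR Fermat.Agent.GAL.RED Fermat.Agent.DR.Abs

section one

variable {k Fb : Type*} [Field k] [Field Fb] [Algebra k Fb]

/-- `∑_P (ord_P u mod m) P`. -/
noncomputable def remDiv [HasPrincipalDivisors k Fb] (m : ℕ) (u : Fb) : Divisor k Fb :=
  (divOf (K := k) u).mapRange (fun n => n % (m : ℤ)) (by simp)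

/-- `∑_P ⌊ord_P u / m⌋ P`. -/
noncomputable def quoDiv [HasPrincipalDivisors k Fb] (m : ℕ) (u : Fb) : Divisor k Fb :=
  (divOf (K := k) u).mapRange (fun n => n / (m : ℤ)) (by simp)

variable [IsFF k Fb] [IsAlgClosed k]

@[simp] theorem remDiv_apply (m : ℕ) (u : Fb) (P : Place k Fb) :
    remDiv (k := k) m u P = P.ord u % (m : ℤ) := by
  simp [remDiv]

@[simp] theorem quoDiv_apply (m : ℕ) (u : Fb) (P : Place k Fb) :
    quoDiv (k := k) m u P = P.ord u / (m : ℤ) := by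
  simp [quoDiv]

/-- **(SL0a)** `m deg ⌊div u / m⌋ + deg (div u mod m) = 0`  (`divOf u = m • quoDiv + remDiv` by `Int.mul_ediv_add_emod`, `degree_divOf`). -/
theorem degree_quoDiv_add (m : ℕ) (u : Fb) :
    (m : ℤ) * Divisor.degree (quoDiv (k := k) m u) + Divisor.degree (remDiv (k := k) m u) = 0 := by
  have h : divOf (K := k) u = m • quoDiv (k := k) m u + remDiv (k := k) m u := by
    ext P
    rw [Finsupp.add_apply, Finsupp.smul_apply, divOf_apply, quoDiv_apply, remDiv_apply,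
      nsmul_eq_mul]
    exact (Int.mul_ediv_add_emod _ _).symm
  have h2 := congrArg Divisor.degree h
  rw [degree_divOf, map_add, map_nsmul, nsmul_eq_mul] at h2
  exact h2.symm

/-- **(SL0b)** invariance under `m`-th powers. -/
theorem remDiv_mul_pow (m : ℕ) {u v : Fb} (hu : u ≠ 0) (hv : v ≠ 0) :
    remDiv (k := k) m (u * v ^ m) = remDiv (k := k) m u := by
  ext P
  rw [remDiv_apply, remDiv_apply, P.ord_mul hu (pow_ne_zero m hv), ord_pow,
    Int.add_mul_emod_self_left]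

/-- `n % m + (-n) % m = m` if `m ∤ n`. -/
theorem Slopes_emod_add_neg_emod {m : ℤ} (hm : 0 < m) {n : ℤ} (h : ¬ m ∣ n) :
    n % m + (-n) % m = m := by
  have h1 := Int.emod_nonneg n hm.ne'
  have h2 := Int.emod_lt_of_pos n hm
  have h3 : n % m ≠ 0 := fun h0 => h (Int.dvd_of_emod_eq_zero h0)
  have e : -n = (m - n % m) + m * (-(n / m) - 1) := by
    have := Int.mul_ediv_add_emod n m
    linear_combination this
  have e2 : (-n) % m = m - n % m := by
    rw [e, Int.add_mul_emod_self_left, Int.emod_eq_of_lt (by omega) (by omega)]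
  rw [e2]
  ring

/-- **(SL0c)** `deg (div u mod m) + deg (div u⁻¹ mod m) = m #{P : m ∤ ord_P u}`.
(all places have degree one: `deg_eq_one`; `Basic_degree_eq_sum`; the set is contained in the support of `divOf u`;
`(-n) % m + n % m = m` if `m ∤ n`, `= 0` otherwise: `Int.emod_emod_of_dvd`, `Int.neg_emod`...) -/
theorem degree_remDiv_add_inv {m : ℕ} (hm : 0 < m) (u : Fb) :
    Divisor.degree (remDiv (k := k) m u) + Divisor.degree (remDiv (k := k) m u⁻¹) =
      m * (Nat.card {P : Place k Fb // ¬ (m : ℤ) ∣ P.ord u} : ℤ) := by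
  classical
  have hm' : (0 : ℤ) < m := by exact_mod_cast hm
  set D : Divisor k Fb := remDiv (k := k) m u + remDiv (k := k) m u⁻¹ with hD
  have hval : ∀ P : Place k Fb, D P = if (m : ℤ) ∣ P.ord u then 0 else (m : ℤ) := by
    intro P
    rw [hD, Finsupp.add_apply, remDiv_apply, remDiv_apply, P.ord_inv]
    split_ifs with h
    · rw [Int.emod_eq_zero_of_dvd h, Int.emod_eq_zero_of_dvd ((dvd_neg).2 h), add_zero]
    · exact Slopes_emod_add_neg_emod hm' h
  have hsupp : ∀ P : Place k Fb, ¬ (m : ℤ) ∣ P.ord u ↔ P ∈ D.support := by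
    intro P
    rw [Finsupp.mem_support_iff, hval P]
    split_ifs with h
    · simp [h]
    · simp only [h, not_false_eq_true, true_iff]
      exact hm'.ne'
  have hcard : Nat.card {P : Place k Fb // ¬ (m : ℤ) ∣ P.ord u} = D.support.card := by
    rw [Nat.card_congr (Equiv.subtypeEquivRight hsupp), Nat.card_eq_fintype_card, Fintype.card_coe]
  rw [← map_add, ← hD, degree_eq_sum, Finsupp.sum, hcard]
  rw [Finset.sum_congr rfl (fun P hP => by
    rw [hval P, if_neg ((hsupp P).2 hP)] : ∀ P ∈ D.support, D P = (m : ℤ))]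
  rw [Finset.sum_const, nsmul_eq_mul]
  ring

theorem finite_not_dvd_ord (m : ℕ) (u : Fb) : Finite {P : Place k Fb // ¬ (m : ℤ) ∣ P.ord u} := by
  have hsub : {P : Place k Fb | ¬ (m : ℤ) ∣ P.ord u} ⊆ ((divOf (K := k) u).support : Set _) := by
    intro P hP
    rw [Finset.mem_coe, Finsupp.mem_support_iff, divOf_apply]
    intro h0
    exact hP (by rw [h0]; exact dvd_zero _)
  exact ((divOf (K := k) u).support.finite_toSet.subset hsub).to_subtype

/-- **(SL0d)** `z ^ m u ∈ L(m • D₀) ⟹ z ∈ L(D₀ + ⌊div u / m⌋)`.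
(`m ord z + ord u ≥ - m D₀ P ⟹ ord z ≥ - D₀ P - ⌊ord u / m⌋`: `Int.le_ediv_iff_mul_le`/`Int.ediv_le_ediv`, or `omega`-style after `Int.emod_nonneg`, `Int.emod_lt_of_pos`,
`Int.mul_ediv_add_emod`.) -/
theorem mem_L_quoDiv_of_pow_mul_mem {m : ℕ} (hm : 0 < m) {u z : Fb} (hu : u ≠ 0) {D₀ : Divisor k Fb}
    (h : z ^ m * u ∈ riemannRochSpace (m • D₀)) :
    z ∈ riemannRochSpace (D₀ + quoDiv (k := k) m u) := by
  have hm' : (0 : ℤ) < m := by exact_mod_cast hm
  rw [mem_L_iff]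
  by_cases hz : z = 0
  · exact Or.inl hz
  right
  rcases mem_L_iff.1 h with h0 | h0
  · exact absurd h0 (mul_ne_zero (pow_ne_zero m hz) hu)
  intro P
  have hP := h0 P
  rw [Finsupp.zero_apply, Finsupp.add_apply, Finsupp.smul_apply, divOf_apply, nsmul_eq_mul,
    P.ord_mul (pow_ne_zero m hz) hu, ord_pow] at hP
  rw [Finsupp.zero_apply, Finsupp.add_apply, Finsupp.add_apply, divOf_apply, quoDiv_apply]
  have h1 : -(P.ord z + D₀ P) ≤ P.ord u / (m : ℤ) := by
    rw [Int.le_ediv_iff_mul_le hm']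
    nlinarith
  linarith

end one

variable {K F k : Type*} [Field K] [Field F] [Algebra K F] [Field k] {ι : Type*}
  {Fb : ι → Type*} [∀ i, Field (Fb i)] [∀ i, Algebra k (Fb i)] {E : Type*}

/-- the nodes at which both orders are not divisible by `m`. -/
def NN (N : NodeData k Fb E) (m : ℕ) (u : ∀ i, Fb i) : Set E :=
  {e | ¬ (m : ℤ) ∣ (N.p₁ e).ord (u (N.i₁ e)) ∧ ¬ (m : ℤ) ∣ (N.p₂ e).ord (u (N.i₂ e))}

variable [∀ i, IsFF k (Fb i)] [IsAlgClosed k] [Fintype ι] [Fintype E]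

/-- interpolation at all the branches, on the product of the components. -/
theorem Slopes_exists_interp (N : NodeData k Fb E) (hinj : Function.Injective N.branch)
    (D : ∀ i, Divisor k (Fb i))
    (hD₁ : ∀ e, D (N.i₁ e) (N.p₁ e) = 0) (hD₂ : ∀ e, D (N.i₂ e) (N.p₂ e) = 0)
    (hdeg : ∀ i, 2 * (genusFF k (Fb i) : ℤ) - 2 + 2 * Fintype.card E < Divisor.degree (D i))
    (w : E ⊕ E → k) :
    ∃ z : ∀ i, Fb i, (∀ i, z i ∈ riemannRochSpace (D i)) ∧
      ∀ b : E ⊕ E, ev (N.branch b).2 (z (N.branch b).1) = w b := by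
  classical
  have hDb : ∀ b : E ⊕ E, D (N.branch b).1 (N.branch b).2 = 0 := by
    rintro (e | e)
    · exact hD₁ e
    · exact hD₂ e
  have hmk : ∀ i, Function.Injective
      (fun P : Place k (Fb i) => (⟨i, P⟩ : Σ i, Place k (Fb i))) := by
    intro i P Q hPQ
    exact eq_of_heq (Sigma.mk.inj_iff.mp hPQ).2
  let S : ∀ i, Finset (Place k (Fb i)) := fun i =>
    (Finset.univ.image N.branch).preimage
      (fun P : Place k (Fb i) => (⟨i, P⟩ : Σ i, Place k (Fb i))) (hmk i).injOn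
  have hS : ∀ i P, P ∈ S i ↔ ∃ b, N.branch b = ⟨i, P⟩ := by
    intro i P
    simp only [S, Finset.mem_preimage, Finset.mem_image, Finset.mem_univ, true_and]
  have hcard : ∀ i, ((S i).card : ℤ) ≤ 2 * Fintype.card E := by
    intro i
    have h1 : (S i).card ≤ (Finset.univ.image N.branch).card :=
      Finset.card_le_card_of_injOn (fun P : Place k (Fb i) => (⟨i, P⟩ : Σ i, Place k (Fb i)))
        (fun P hP => Finset.mem_preimage.mp hP) (hmk i).injOn
    have h2 : (Finset.univ.image N.branch).card ≤ Fintype.card (E ⊕ E) := Finset.card_image_le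
    rw [Fintype.card_sum] at h2
    have h3 : (S i).card ≤ 2 * Fintype.card E := by omega
    exact_mod_cast h3
  let val : ∀ i, Place k (Fb i) → k := fun i P =>
    if h : ∃ b, N.branch b = ⟨i, P⟩ then w h.choose else 0
  have hz : ∀ i, ∃ u ∈ riemannRochSpace (D i), ∀ P ∈ S i, ev P u = val i P := by
    intro i
    refine exists_interp (D i) (S i) (fun P hP => ?_) (by have := hcard i; have := hdeg i; omega)
      (val i)
    obtain ⟨b, hb⟩ := (hS i P).1 hP
    have := hDb b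
    rw [hb] at this
    exact this
  choose z hzL hzv using hz
  refine ⟨z, hzL, fun b => ?_⟩
  have hex : ∃ b', N.branch b' = ⟨(N.branch b).1, (N.branch b).2⟩ := ⟨b, rfl⟩
  rw [hzv _ _ ((hS _ _).2 hex)]
  show (if h : ∃ b', N.branch b' = ⟨(N.branch b).1, (N.branch b).2⟩ then w h.choose else 0) = w b
  rw [dif_pos hex]
  exact congrArg w (hinj hex.choose_spec)

/-- **(SL1) Dimension bound on the special fibre.**  A space `M` of families with pole bounds `D i` (of large degree, zero at the branches), satisfying at every node the linear condition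
`α e z(p₁ e) = β e z(p₂ e)`, has dimension `≤ ∑ᵢ (deg D i + 1 - gᵢ) - #{e : (α e, β e) ≠ 0}`.
PROOF. `V := {z | ∀ i, z i ∈ L(D i)}` (`Submodule.pi Set.univ _`), of dimension `∑ᵢ ℓ(D i) = ∑ᵢ (deg D i + 1 - gᵢ)` (`ell_eq_of_lt_degree'`, `Module.finrank_pi_fintype`-type
lemma through the linear equivalence `V ≃ ∀ i, L(D i)`).  `E' := {e // α e ≠ 0 ∨ β e ≠ 0}`.  `Λ : V → (E' → k)`, `Λ z e = α e z(p₁ e) - β e z(p₂ e)` is linear (`ev_add`, `ev_smul`,
`ord_nonneg_of_mem_L`) and ONTO: by `exists_interp` on each component (the set of the branches lying on the component `i` has at most `2 #E` elements) there are families in `V` with arbitrary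
values at all the branches, which are pairwise distinct (`hinj`).  `M ≤ ker Λ`, rank-nullity. -/
theorem finrank_le_of_conditions (N : NodeData k Fb E) (hinj : Function.Injective N.branch)
    (D : ∀ i, Divisor k (Fb i))
    (hD₁ : ∀ e, D (N.i₁ e) (N.p₁ e) = 0) (hD₂ : ∀ e, D (N.i₂ e) (N.p₂ e) = 0)
    (hdeg : ∀ i, 2 * (genusFF k (Fb i) : ℤ) - 2 + 2 * Fintype.card E < Divisor.degree (D i))
    (α β : E → k) (M : Submodule k (∀ i, Fb i))
    (hM : ∀ z ∈ M, ∀ i, z i ∈ riemannRochSpace (D i))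
    (hcond : ∀ z ∈ M, ∀ e, α e * ev (N.p₁ e) (z (N.i₁ e)) = β e * ev (N.p₂ e) (z (N.i₂ e))) :
    (Module.finrank k M : ℤ) + (Nat.card {e : E // α e ≠ 0 ∨ β e ≠ 0} : ℤ) ≤
      ∑ i, (Divisor.degree (D i) + 1 - genusFF k (Fb i)) := by
  classical
  let V : Submodule k (∀ i, Fb i) := Submodule.pi Set.univ (fun i => riemannRochSpace (D i))
  have hV : ∀ z, z ∈ V ↔ ∀ i, z i ∈ riemannRochSpace (D i) := by
    intro z
    simp only [V, Submodule.mem_pi, Set.mem_univ, true_imp_iff]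
  let eV : V ≃ₗ[k] (∀ i, riemannRochSpace (D i)) :=
    { toFun := fun z i => ⟨z.1 i, (hV z.1).1 z.2 i⟩
      invFun := fun w => ⟨fun i => (w i).1, (hV _).2 fun i => (w i).2⟩
      map_add' := fun _ _ => rfl
      map_smul' := fun _ _ => rfl
      left_inv := fun _ => rfl
      right_inv := fun _ => rfl }
  have hfinV : Module.Finite k V := Module.Finite.equiv eV.symm
  have hrankV : (Module.finrank k V : ℤ) = ∑ i, (Divisor.degree (D i) + 1 - genusFF k (Fb i)) := by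
    rw [eV.finrank_eq, Module.finrank_pi_fintype, Nat.cast_sum]
    refine Finset.sum_congr rfl fun i _ => ?_
    exact ell_eq_of_lt_degree' (by have := hdeg i; omega)
  have hr₁ : ∀ z ∈ V, ∀ e, 0 ≤ (N.p₁ e).ord (z (N.i₁ e)) := fun z hz e =>
    ord_nonneg_of_mem_L ((hV z).1 hz _) (hD₁ e).le
  have hr₂ : ∀ z ∈ V, ∀ e, 0 ≤ (N.p₂ e).ord (z (N.i₂ e)) := fun z hz e =>
    ord_nonneg_of_mem_L ((hV z).1 hz _) (hD₂ e).le
  let Λ : V →ₗ[k] ({e : E // α e ≠ 0 ∨ β e ≠ 0} → k) :=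
    { toFun := fun z e => α e * ev (N.p₁ e) (z.1 (N.i₁ e)) - β e * ev (N.p₂ e) (z.1 (N.i₂ e))
      map_add' := by
        intro y z
        funext e
        show α e * ev (N.p₁ e) (y.1 (N.i₁ e) + z.1 (N.i₁ e)) -
            β e * ev (N.p₂ e) (y.1 (N.i₂ e) + z.1 (N.i₂ e)) =
          (α e * ev (N.p₁ e) (y.1 (N.i₁ e)) - β e * ev (N.p₂ e) (y.1 (N.i₂ e))) +
          (α e * ev (N.p₁ e) (z.1 (N.i₁ e)) - β e * ev (N.p₂ e) (z.1 (N.i₂ e)))
        rw [ev_add _ (hr₁ _ y.2 e) (hr₁ _ z.2 e), ev_add _ (hr₂ _ y.2 e) (hr₂ _ z.2 e)]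
        ring
      map_smul' := by
        intro c z
        funext e
        show α e * ev (N.p₁ e) (c • z.1 (N.i₁ e)) - β e * ev (N.p₂ e) (c • z.1 (N.i₂ e)) =
          c * (α e * ev (N.p₁ e) (z.1 (N.i₁ e)) - β e * ev (N.p₂ e) (z.1 (N.i₂ e)))
        rw [ev_smul _ c (hr₁ _ z.2 e), ev_smul _ c (hr₂ _ z.2 e)]
        ring }
  have hΛ : ∀ (z : V) (e : {e : E // α e ≠ 0 ∨ β e ≠ 0}), Λ z e =
      α e * ev (N.p₁ e) (z.1 (N.i₁ e)) - β e * ev (N.p₂ e) (z.1 (N.i₂ e)) := fun _ _ => rfl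
  have hsurj : Function.Surjective Λ := by
    intro t
    let t' : E → k := fun e => if h : α e ≠ 0 ∨ β e ≠ 0 then t ⟨e, h⟩ else 0
    let w : E ⊕ E → k := Sum.elim (fun e => if α e ≠ 0 then t' e / α e else 0)
      (fun e => if α e ≠ 0 then 0 else - t' e / β e)
    obtain ⟨z, hzL, hzw⟩ := Slopes_exists_interp N hinj D hD₁ hD₂ hdeg w
    refine ⟨⟨z, (hV z).2 hzL⟩, ?_⟩
    funext e
    obtain ⟨e, he⟩ := e
    rw [hΛ]
    have h1 : ev (N.p₁ e) (z (N.i₁ e)) = if α e ≠ 0 then t' e / α e else 0 := hzw (Sum.inl e)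
    have h2 : ev (N.p₂ e) (z (N.i₂ e)) = if α e ≠ 0 then 0 else - t' e / β e := hzw (Sum.inr e)
    have h3 : t' e = t ⟨e, he⟩ := dif_pos he
    show α e * ev (N.p₁ e) (z (N.i₁ e)) - β e * ev (N.p₂ e) (z (N.i₂ e)) = t ⟨e, he⟩
    rw [h1, h2, h3]
    by_cases hα : α e ≠ 0
    · rw [if_pos hα, if_pos hα, mul_zero, sub_zero, mul_div_cancel₀ _ hα]
    · have hβ : β e ≠ 0 := he.resolve_left hα
      rw [if_neg hα, if_neg hα, mul_zero, zero_sub, mul_div_cancel₀ _ hβ, neg_neg]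
  have hMV : M ≤ V := fun z hz => (hV z).2 (hM z hz)
  have hle : Module.finrank k M ≤ Module.finrank k (LinearMap.ker Λ) := by
    rw [← (Submodule.comapSubtypeEquivOfLe hMV).finrank_eq]
    apply Submodule.finrank_mono
    intro z hz
    rw [LinearMap.mem_ker]
    funext e
    rw [hΛ, hcond z.1 hz e, sub_self]
    rfl
  have hrn := LinearMap.finrank_range_add_finrank_ker Λ
  rw [LinearMap.range_eq_top.mpr hsurj, finrank_top, Module.finrank_fintype_fun_eq_card] at hrn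
  rw [← hrankV, Nat.card_eq_fintype_card, ← hrn]
  push_cast
  have : (Module.finrank k M : ℤ) ≤ Module.finrank k (LinearMap.ker Λ) := by exact_mod_cast hle
  linarith

variable [IsFF K F] [IsAlgClosed K]

/-- **(SL2) The linear conditions at the nodes.**  `M` a subspace of families, regular at the branches, such that `z ^ m * u` is glued for all `z ∈ M`; `u` regular at the branches.
Then there are `α, β` with `(α e, β e) = 0` only if `u` vanishes at both branches of `e`.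
PROOF. Fix `e`; `s := ev (p₁ e) (u _)`, `t := ev (p₂ e) (u _)`; for `z ∈ M`: `z(p₁) ^ m s = z(p₂) ^ m t` (`ev_mul`, `ev_pow`).
* `s ≠ 0, t ≠ 0`: choose `s₁ ^ m = s`, `t₁ ^ m = t` (`IsAlgClosed.exists_pow_nat_eq`); the image `V` of `M` under the linear map `z ↦ (s₁ z(p₁), t₁ z(p₂))` satisfies the hypothesis of
  `exists_line_of_pow_eq`: `α e = s₁`, `β e = δ t₁`.
* `s ≠ 0, t = 0`: `z(p₁) = 0`: `α e = 1`, `β e = 0`.   * `s = 0, t ≠ 0`: `α e = 0`, `β e = 1`.   * `s = t = 0`: `α e = β e = 0`. -/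
theorem exists_conditions (N : NodeData k Fb E) {m : ℕ} (hm : (m : k) ≠ 0) (u : ∀ i, Fb i)
    (hu₁ : ∀ e, 0 ≤ (N.p₁ e).ord (u (N.i₁ e))) (hu₂ : ∀ e, 0 ≤ (N.p₂ e).ord (u (N.i₂ e)))
    (M : Submodule k (∀ i, Fb i))
    (hM₁ : ∀ z ∈ M, ∀ e, 0 ≤ (N.p₁ e).ord (z (N.i₁ e)))
    (hM₂ : ∀ z ∈ M, ∀ e, 0 ≤ (N.p₂ e).ord (z (N.i₂ e)))
    (hgl : ∀ z ∈ M, N.Glued 1 (z ^ m * u)) :
    ∃ α β : E → k,
      (∀ e, ev (N.p₁ e) (u (N.i₁ e)) ≠ 0 ∨ ev (N.p₂ e) (u (N.i₂ e)) ≠ 0 → α e ≠ 0 ∨ β e ≠ 0) ∧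
      ∀ z ∈ M, ∀ e, α e * ev (N.p₁ e) (z (N.i₁ e)) = β e * ev (N.p₂ e) (z (N.i₂ e)) := by
  have hm0 : 0 < m := Nat.pos_of_ne_zero (by rintro rfl; simp at hm)
  have key : ∀ e, ∃ a b : k,
      (ev (N.p₁ e) (u (N.i₁ e)) ≠ 0 ∨ ev (N.p₂ e) (u (N.i₂ e)) ≠ 0 → a ≠ 0 ∨ b ≠ 0) ∧
      ∀ z ∈ M, a * ev (N.p₁ e) (z (N.i₁ e)) = b * ev (N.p₂ e) (z (N.i₂ e)) := by
    intro e
    have hrel : ∀ z ∈ M, ev (N.p₁ e) (z (N.i₁ e)) ^ m * ev (N.p₁ e) (u (N.i₁ e))
        = ev (N.p₂ e) (z (N.i₂ e)) ^ m * ev (N.p₂ e) (u (N.i₂ e)) := by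
      intro z hz
      have h1 := hgl z hz e
      have hp₁ : 0 ≤ (N.p₁ e).ord (z (N.i₁ e) ^ m) := by
        rw [ord_pow]; exact mul_nonneg (Nat.cast_nonneg m) (hM₁ z hz e)
      have hp₂ : 0 ≤ (N.p₂ e).ord (z (N.i₂ e) ^ m) := by
        rw [ord_pow]; exact mul_nonneg (Nat.cast_nonneg m) (hM₂ z hz e)
      rw [Pi.mul_apply, Pi.mul_apply, Pi.pow_apply, Pi.pow_apply, Pi.one_apply, one_mul,
        ev_mul _ hp₁ (hu₁ e), ev_mul _ hp₂ (hu₂ e), ev_pow _ (hM₁ z hz e),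
        ev_pow _ (hM₂ z hz e)] at h1
      exact h1
    generalize ev (N.p₁ e) (u (N.i₁ e)) = s at hrel ⊢
    generalize ev (N.p₂ e) (u (N.i₂ e)) = t at hrel ⊢
    by_cases hs : s = 0
    · by_cases ht : t = 0
      · exact ⟨0, 0, fun h => by rcases h with h | h <;> contradiction, fun z _ => by simp⟩
      · refine ⟨0, 1, fun _ => Or.inr one_ne_zero, fun z hz => ?_⟩
        have h1 := hrel z hz
        rw [hs, mul_zero] at h1
        have h2 := (mul_eq_zero.1 h1.symm).resolve_right ht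
        rw [zero_mul, one_mul, (pow_eq_zero_iff hm0.ne').1 h2]
    · by_cases ht : t = 0
      · refine ⟨1, 0, fun _ => Or.inl one_ne_zero, fun z hz => ?_⟩
        have h1 := hrel z hz
        rw [ht, mul_zero] at h1
        have h2 := (mul_eq_zero.1 h1).resolve_right hs
        rw [zero_mul, one_mul, (pow_eq_zero_iff hm0.ne').1 h2]
      · obtain ⟨s₁, hs₁⟩ := IsAlgClosed.exists_pow_nat_eq s hm0
        obtain ⟨t₁, ht₁⟩ := IsAlgClosed.exists_pow_nat_eq t hm0
        have hs₁0 : s₁ ≠ 0 := by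
          rintro rfl
          rw [zero_pow hm0.ne'] at hs₁
          exact hs hs₁.symm
        let V : Submodule k (k × k) :=
          { carrier := {v | ∃ z ∈ M, v = (s₁ * ev (N.p₁ e) (z (N.i₁ e)),
              t₁ * ev (N.p₂ e) (z (N.i₂ e)))}
            zero_mem' := ⟨0, M.zero_mem, by simp only [Pi.zero_apply, ev_zero, mul_zero]; rfl⟩
            add_mem' := by
              rintro _ _ ⟨z, hz, rfl⟩ ⟨z', hz', rfl⟩
              refine ⟨z + z', M.add_mem hz hz', ?_⟩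
              rw [Pi.add_apply, Pi.add_apply, ev_add _ (hM₁ z hz e) (hM₁ z' hz' e),
                ev_add _ (hM₂ z hz e) (hM₂ z' hz' e), Prod.mk_add_mk, mul_add, mul_add]
            smul_mem' := by
              rintro c _ ⟨z, hz, rfl⟩
              refine ⟨c • z, M.smul_mem c hz, ?_⟩
              rw [Pi.smul_apply, Pi.smul_apply, ev_smul _ c (hM₁ z hz e),
                ev_smul _ c (hM₂ z hz e), Prod.smul_mk, smul_eq_mul, smul_eq_mul]
              congr 1 <;> ring }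
        obtain ⟨δ, -, hδ⟩ := exists_line_of_pow_eq hm V (by
          rintro _ ⟨z, hz, rfl⟩
          show (s₁ * ev (N.p₁ e) (z (N.i₁ e))) ^ m = (t₁ * ev (N.p₂ e) (z (N.i₂ e))) ^ m
          rw [mul_pow, mul_pow, hs₁, ht₁, mul_comm, hrel z hz, mul_comm])
        refine ⟨s₁, δ * t₁, fun _ => Or.inl hs₁0, fun z hz => ?_⟩
        have h1 := hδ _ ⟨z, hz, rfl⟩
        rw [mul_assoc]
        exact h1
  choose α β h1 h2 using key
  exact ⟨α, β, h1, fun z hz e => h2 e z hz⟩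

/-- **(SL3) The key inequality, normalised case** (`0 ≤ ord < m` at the branches).
PROOF. `D` from `exists_divisor_of_dvd`; `u := T.red f`; `f ∈ T.O` (`T.mem_of_red_ne_zero`).  Choose `a` large.  `M := T.redSub (L(bipole K x a 0 + D))`,
`dim M = ℓ(bipole + D) = a d + 1 - g` (`h.cart`, `ell_bipole_add`).  For `z = red y ∈ M`: `y ^ m * f ∈ L(m • bipole K x a 0) = L(bipole K x (m a) 0)` (`mem_L_add_iff_pow_mul_mem`, `bipole_smul`), integral,
with reduction `z ^ m * u`; by `h.mem_iff` (`m a ≥ a₀`) it is bounded and glued.  `Dᵢ := bipole k (red_i x) a 0 + quoDiv m (u i)`: `z i ∈ L(Dᵢ)` by (SL0d); `Dᵢ = 0` at the branches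
(`bipole_apply`, `h.unit₁/₂`, `Int.ediv_eq_zero_of_lt`), so `z` is regular there (`ord_nonneg_of_mem_L`).  (SL2) gives `α, β`; `ev (u) ≠ 0 ↔ ord = 0 ↔ m ∣ ord` (as `0 ≤ ord < m`), so
`{e | α e ≠ 0 ∨ β e ≠ 0} ⊇ (NN)ᶜ`.  (SL1): `a d + 1 - g + #E - #NN ≤ ∑ᵢ (a dᵢ + deg quoDiv + 1 - gᵢ)`.  With `h.degree_eq`, `h.genus_eq`: `- ∑ deg quoDiv ≤ #NN`; multiply by `m`, (SL0a). -/
theorem slope_ineq_normalised {T : MultiRed K F k Fb} {x : F} {N : NodeData k Fb E} {a₀ : ℕ}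
    (h : IsPreNodal T x N a₀) {m : ℕ} (hm : (m : k) ≠ 0) {f : F}
    (hdiv : ∀ P : Place K F, (m : ℤ) ∣ P.ord f) (hf : ∀ i, T.red f i ≠ 0)
    (hn₁ : ∀ e, 0 ≤ (N.p₁ e).ord (T.red f (N.i₁ e)) ∧ (N.p₁ e).ord (T.red f (N.i₁ e)) < m)
    (hn₂ : ∀ e, 0 ≤ (N.p₂ e).ord (T.red f (N.i₂ e)) ∧ (N.p₂ e).ord (T.red f (N.i₂ e)) < m) :
    ∑ i, Divisor.degree (remDiv (k := k) m (T.red f i)) ≤ m * (Nat.card (NN N m (T.red f)) : ℤ) := by
  classical
  have hC := h.cart
  obtain ⟨i₀⟩ := hC.nonempty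
  have hm0 : 0 < m := by
    rcases Nat.eq_zero_or_pos m with rfl | h0
    · exact absurd Nat.cast_zero hm
    · exact h0
  obtain ⟨D, hD, hDdeg⟩ := exists_divisor_of_dvd hm0 f hdiv
  set u : ∀ i, Fb i := T.red f with hu
  have hfO : f ∈ T.O := T.mem_of_red_ne_zero hf
  have hf0 : f ≠ 0 := by
    rintro rfl
    apply hf i₀
    rw [hu, T.red_zero]
    rfl
  have hxb : ∀ i, (T.R i).red x ≠ 0 := by
    intro i h0
    exact h.nonconst i ⟨0, by rw [h0, map_zero]⟩
  have hx0 : x ≠ 0 := by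
    rintro rfl
    apply hxb i₀
    have := congrFun T.red_zero i₀
    exact this
  set d : ℤ := Divisor.degree (poleDiv (K := K) x) with hd
  set db : ι → ℤ := fun i => Divisor.degree (poleDiv (K := k) ((T.R i).red x)) with hdb
  set q : ι → ℤ := fun i => Divisor.degree (quoDiv (k := k) m (u i)) with hq
  have hdeq : d = ∑ i, db i := IsPreNodal.degree_eq h
  have hgeq := IsPreNodal.genus_eq h
  have hdbpos : ∀ i, 0 < db i := fun i => degree_poleDiv_pos (h.nonconst i)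
  have hdpos : 0 < d := by
    rw [hdeq]
    exact Finset.sum_pos (fun i _ => hdbpos i) ⟨i₀, Finset.mem_univ _⟩
  -- the choice of `a`
  set c : ι → ℤ := fun i => 2 * (genusFF k (Fb i) : ℤ) - 2 + 2 * Fintype.card E - q i with hc
  obtain ⟨S, hS⟩ : ∃ S : ℕ, S = ∑ i, (c i).toNat := ⟨_, rfl⟩
  obtain ⟨a, ha⟩ : ∃ a : ℕ, a = a₀ + 2 * genusFF K F + S + 1 := ⟨_, rfl⟩
  have ha1 : 2 * (genusFF K F : ℤ) - 2 < ((a : ℤ) + (0 : ℕ)) * d := by
    have h1 : (2 * (genusFF K F : ℤ) + 1) ≤ a := by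
      rw [ha]; push_cast; omega
    push_cast
    nlinarith
  have ha2 : a₀ ≤ m * a + 0 := by
    have : a₀ ≤ a := by rw [ha]; omega
    nlinarith
  have ha3 : ∀ i, c i < a * db i := by
    intro i
    have h1 : (c i).toNat ≤ S := hS ▸
      Finset.single_le_sum (f := fun i => (c i).toNat) (fun _ _ => Nat.zero_le _) (Finset.mem_univ i)
    have h2 : c i ≤ (c i).toNat := Int.self_le_toNat _
    have h3 : c i + 1 ≤ a := by
      rw [ha]; push_cast; omega
    have := hdbpos i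
    nlinarith
  -- the space `M`
  set M := T.redSub (riemannRochSpace (bipole K x a 0 + D)) with hM
  have hMdim : (Module.finrank k M : ℤ) = a * d + 1 - genusFF K F := by
    have h1 := hC (riemannRochSpace (bipole K x a 0 + D)) inferInstance
    have h2 := ell_bipole_add hx0 D hDdeg a 0 ha1
    rw [hM, h1]
    unfold ell at h2
    rw [h2]
    push_cast
    ring
  set Db : ∀ i, Divisor k (Fb i) :=
    fun i => bipole k ((T.R i).red x) a 0 + quoDiv (k := k) m (u i) with hDb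
  have hMprop : ∀ z ∈ M, (∀ i, z i ∈ riemannRochSpace (Db i)) ∧ N.Glued 1 (z ^ m * u) := by
    rintro z ⟨y, hyL, hyO, rfl⟩
    have h1 : y ^ m * f ∈ riemannRochSpace (bipole K x (m * a) 0) := by
      have := (mem_L_add_iff_pow_mul_mem hm0 hf0 hD (bipole K x a 0) y).1 hyL
      rw [← bipole_smul, mul_zero] at this
      exact this
    have h2 : y ^ m * f ∈ T.O := T.O.mul_mem (T.O.pow_mem hyO m) hfO
    have h3 : T.red (y ^ m * f) = T.red y ^ m * u := by
      rw [T.red_mul (T.O.pow_mem hyO m) hfO, T.red_pow]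
    have h4 := (h.mem_iff (m * a) 0 ha2 (T.red y ^ m * u)).1 ⟨_, h1, h2, h3⟩
    refine ⟨fun i => ?_, h4.2⟩
    have h5 := h4.1 i
    rw [← mul_zero m, bipole_smul] at h5
    exact mem_L_quoDiv_of_pow_mul_mem hm0 (hf i) h5
  have hD₁ : ∀ e, Db (N.i₁ e) (N.p₁ e) = 0 := by
    intro e
    rw [hDb]
    simp only [Finsupp.add_apply, bipole_apply, quoDiv_apply]
    rw [h.unit₁ e, Int.ediv_eq_zero_of_lt (hn₁ e).1 (hn₁ e).2]
    simp
  have hD₂ : ∀ e, Db (N.i₂ e) (N.p₂ e) = 0 := by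
    intro e
    rw [hDb]
    simp only [Finsupp.add_apply, bipole_apply, quoDiv_apply]
    rw [h.unit₂ e, Int.ediv_eq_zero_of_lt (hn₂ e).1 (hn₂ e).2]
    simp
  have hDdegb : ∀ i, Divisor.degree (Db i) = a * db i + q i := by
    intro i
    rw [hDb]
    simp only [map_add]
    rw [degree_bipole (hxb i)]
    push_cast
    ring
  have hdeg : ∀ i, 2 * (genusFF k (Fb i) : ℤ) - 2 + 2 * Fintype.card E < Divisor.degree (Db i) := by
    intro i
    rw [hDdegb]
    have := ha3 i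
    rw [hc] at this
    simp only at this
    linarith
  obtain ⟨α, β, hαβ, hcond⟩ := exists_conditions N hm u (fun e => (hn₁ e).1) (fun e => (hn₂ e).1) M
    (fun z hz e => ord_nonneg_of_mem_L ((hMprop z hz).1 _) (hD₁ e).le)
    (fun z hz e => ord_nonneg_of_mem_L ((hMprop z hz).1 _) (hD₂ e).le)
    (fun z hz => (hMprop z hz).2)
  have hmain := finrank_le_of_conditions N h.inj Db hD₁ hD₂ hdeg α β M
    (fun z hz => (hMprop z hz).1) hcond
  -- counting the nodes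
  have hcard : (Fintype.card E : ℤ) ≤ (Nat.card {e : E // α e ≠ 0 ∨ β e ≠ 0} : ℤ) +
      (Nat.card (NN N m u) : ℤ) := by
    have h1 : Nat.card {e : E // α e ≠ 0 ∨ β e ≠ 0} =
        (Finset.univ.filter fun e => α e ≠ 0 ∨ β e ≠ 0).card := by
      rw [Nat.card_eq_fintype_card, Fintype.card_subtype]
    have h2 : Nat.card (NN N m u) = (Finset.univ.filter fun e => e ∈ NN N m u).card := by
      rw [Nat.card_eq_fintype_card, Fintype.card_subtype]
    rw [h1, h2]
    have h3 : (Finset.univ : Finset E) ⊆ (Finset.univ.filter fun e => α e ≠ 0 ∨ β e ≠ 0) ∪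
        (Finset.univ.filter fun e => e ∈ NN N m u) := by
      intro e _
      rw [Finset.mem_union, Finset.mem_filter, Finset.mem_filter]
      by_cases he : e ∈ NN N m u
      · exact Or.inr ⟨Finset.mem_univ _, he⟩
      · refine Or.inl ⟨Finset.mem_univ _, hαβ e ?_⟩
        have he' : (m : ℤ) ∣ (N.p₁ e).ord (u (N.i₁ e)) ∨ (m : ℤ) ∣ (N.p₂ e).ord (u (N.i₂ e)) := by
          by_contra hcon
          push Not at hcon
          exact he hcon
        rcases he' with h5 | h5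
        · left
          rw [ev_ne_zero_iff _ (hn₁ e).1]
          exact ⟨hf _, Int.eq_zero_of_dvd_of_nonneg_of_lt (hn₁ e).1 (hn₁ e).2 h5⟩
        · right
          rw [ev_ne_zero_iff _ (hn₂ e).1]
          exact ⟨hf _, Int.eq_zero_of_dvd_of_nonneg_of_lt (hn₂ e).1 (hn₂ e).2 h5⟩
    have h4 := (Finset.card_le_card h3).trans (Finset.card_union_le _ _)
    rw [Finset.card_univ] at h4
    exact_mod_cast h4
  -- arithmetic
  have hsum : ∑ i, (Divisor.degree (Db i) + 1 - (genusFF k (Fb i) : ℤ)) =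
      a * d + ∑ i, q i - ∑ i, ((genusFF k (Fb i) : ℤ) - 1) := by
    rw [hdeq, Finset.mul_sum, ← Finset.sum_add_distrib, ← Finset.sum_sub_distrib]
    apply Finset.sum_congr rfl
    intro i _
    rw [hDdegb]
    ring
  have hrem : ∑ i, Divisor.degree (remDiv (k := k) m (u i)) = -(m * ∑ i, q i) := by
    rw [Finset.mul_sum, ← Finset.sum_neg_distrib]
    apply Finset.sum_congr rfl
    intro i _
    have := degree_quoDiv_add (k := k) m (u i)
    linarith
  rw [hrem]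
  rw [hsum, hMdim] at hmain
  have hfin : -(Nat.card (NN N m u) : ℤ) ≤ ∑ i, q i := by linarith
  have hmz : (0 : ℤ) < m := by exact_mod_cast hm0
  nlinarith

/-- **(SL4) Normalisation at the branches.**
PROOF. On each component `S19.Weil.exists_ord_eq` gives `v i ≠ 0` with `ord_P (v i) = - ⌊ord_P (red_i f) / m⌋` at the branches lying on `i`; lift `v` to `g ∈ T.O` (`h.sep`, `Sep.exists_lift`);
`red (f g ^ m) = red f * v ^ m`; `ord = ord (red f) - m ⌊ord (red f) / m⌋ = ord % m`. -/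
theorem exists_normalise_branches {T : MultiRed K F k Fb} {x : F} {N : NodeData k Fb E} {a₀ : ℕ}
    (h : IsPreNodal T x N a₀) {m : ℕ} (hm : 0 < m) {f : F} (hf : ∀ i, T.red f i ≠ 0) :
    ∃ g : F, (∀ i, T.red g i ≠ 0) ∧
      (∀ e, 0 ≤ (N.p₁ e).ord (T.red (f * g ^ m) (N.i₁ e)) ∧
        (N.p₁ e).ord (T.red (f * g ^ m) (N.i₁ e)) < m) ∧
      ∀ e, 0 ≤ (N.p₂ e).ord (T.red (f * g ^ m) (N.i₂ e)) ∧
        (N.p₂ e).ord (T.red (f * g ^ m) (N.i₂ e)) < m := by
  classical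
  have hfin : ∀ i, {P : Place k (Fb i) |
      (⟨i, P⟩ : Σ i, Place k (Fb i)) ∈ Set.range N.branch}.Finite := fun i =>
    (Set.finite_range N.branch).preimage (sigma_mk_injective.injOn)
  have hex : ∀ i, ∃ v : Fb i, v ≠ 0 ∧ ∀ P ∈ (hfin i).toFinset,
      P.ord v = -(P.ord (T.red f i) / (m : ℤ)) := fun i =>
    Fermat.Agent.S19.Weil.exists_ord_eq (hfin i).toFinset
      (fun P => -(P.ord (T.red f i) / (m : ℤ)))
  choose v hv0 hv using hex
  obtain ⟨g, hgO, hg⟩ := h.sep.exists_lift v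
  have hfO : f ∈ T.O := T.mem_of_red_ne_zero hf
  have hred : T.red (f * g ^ m) = T.red f * v ^ m := by
    rw [T.red_mul hfO (T.O.pow_mem hgO m), T.red_pow, hg]
  have hm0 : (m : ℤ) ≠ 0 := by exact_mod_cast hm.ne'
  have hmpos : (0 : ℤ) < m := by exact_mod_cast hm
  have key : ∀ (i : ι) (P : Place k (Fb i)),
      (⟨i, P⟩ : Σ i, Place k (Fb i)) ∈ Set.range N.branch →
      P.ord (T.red (f * g ^ m) i) = P.ord (T.red f i) % (m : ℤ) := by
    intro i P hP
    rw [hred, Pi.mul_apply, Pi.pow_apply, P.ord_mul (hf i) (pow_ne_zero _ (hv0 i)),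
      Fermat.Agent.GAL.RED.ord_pow, hv i P ((hfin i).mem_toFinset.2 hP), Int.emod_def]
    ring
  refine ⟨g, fun i => by rw [hg]; exact hv0 i, fun e => ?_, fun e => ?_⟩
  · rw [key (N.i₁ e) (N.p₁ e) ⟨Sum.inl e, rfl⟩]
    exact ⟨Int.emod_nonneg _ hm0, Int.emod_lt_of_pos _ hmpos⟩
  · rw [key (N.i₂ e) (N.p₂ e) ⟨Sum.inr e, rfl⟩]
    exact ⟨Int.emod_nonneg _ hm0, Int.emod_lt_of_pos _ hmpos⟩

/-- **(SL5) The key inequality.**  ((SL4), (SL3) for `f g ^ m`; `remDiv_mul_pow`; `NN` does not change: `ord (u v ^ m) = ord u + m ord v`.) -/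
theorem slope_ineq {T : MultiRed K F k Fb} {x : F} {N : NodeData k Fb E} {a₀ : ℕ}
    (h : IsPreNodal T x N a₀) {m : ℕ} (hm : (m : k) ≠ 0) {f : F}
    (hdiv : ∀ P : Place K F, (m : ℤ) ∣ P.ord f) (hf : ∀ i, T.red f i ≠ 0) :
    ∑ i, Divisor.degree (remDiv (k := k) m (T.red f i)) ≤ m * (Nat.card (NN N m (T.red f)) : ℤ) := by
  have hm0 : 0 < m := by
    rcases Nat.eq_zero_or_pos m with rfl | h0
    · exact absurd Nat.cast_zero hm
    · exact h0
  obtain ⟨g, hg, hn₁, hn₂⟩ := exists_normalise_branches h hm0 hf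
  obtain ⟨i₀⟩ := h.cart.nonempty
  have hf0 : f ≠ 0 := by
    rintro rfl
    exact hf i₀ (by rw [T.red_zero]; rfl)
  have hg0 : g ≠ 0 := by
    rintro rfl
    exact hg i₀ (by rw [T.red_zero]; rfl)
  have hfO : f ∈ T.O := T.mem_of_red_ne_zero hf
  have hgO : g ∈ T.O := T.mem_of_red_ne_zero hg
  have hred : T.red (f * g ^ m) = T.red f * T.red g ^ m := by
    rw [T.red_mul hfO (T.O.pow_mem hgO m), T.red_pow]
  have hdiv' : ∀ P : Place K F, (m : ℤ) ∣ P.ord (f * g ^ m) := by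
    intro P
    rw [P.ord_mul hf0 (pow_ne_zero _ hg0), Fermat.Agent.GAL.RED.ord_pow]
    exact dvd_add (hdiv P) (dvd_mul_right _ _)
  have hf' : ∀ i, T.red (f * g ^ m) i ≠ 0 := by
    intro i
    rw [hred]
    exact mul_ne_zero (hf i) (pow_ne_zero _ (hg i))
  have main := slope_ineq_normalised h hm hdiv' hf' hn₁ hn₂
  have hNN : NN N m (T.red (f * g ^ m)) = NN N m (T.red f) := by
    have hord : ∀ (i : ι) (P : Place k (Fb i)),
        ((m : ℤ) ∣ P.ord (T.red (f * g ^ m) i) ↔ (m : ℤ) ∣ P.ord (T.red f i)) := by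
      intro i P
      rw [hred, Pi.mul_apply, Pi.pow_apply, P.ord_mul (hf i) (pow_ne_zero _ (hg i)),
        Fermat.Agent.GAL.RED.ord_pow]
      exact (Int.dvd_add_left (dvd_mul_right _ _))
    ext e
    simp only [NN, Set.mem_setOf_eq, hord]
  have hrem : ∀ i, remDiv (k := k) m (T.red (f * g ^ m) i) = remDiv (k := k) m (T.red f i) := by
    intro i
    rw [hred]
    exact remDiv_mul_pow m (hf i) (hg i)
  rw [hNN] at main
  simpa only [hrem] using main

/-- **(SL6) Every point with a non divisible order is a branch of a node of `NN`.**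
PROOF. (SL5) for `f` and `f⁻¹` (`T.red_inv`, `NN N m u⁻¹ = NN N m u` by `Place.ord_inv`, `dvd_neg`), (SL0c): `∑ᵢ #{P : m ∤ ord_P (u i)} ≤ 2 #NN`.  The left hand side is the cardinality of
`B := {s : Σ i, Place k (Fb i) // m ∤ s.2.ord (u s.1)}` (`Nat.card_sigma`-type lemma; finite by `finite_not_dvd_ord`).  `NN ⊕ NN → B`, `inl e ↦ N.branch (inl e)`, `inr e ↦ N.branch (inr e)` is injective
(`h.inj`), between finite sets with `#B ≤ #(NN ⊕ NN)`, hence onto (`Function.Injective.surjective_of_finite`-type: `Finite.injective_iff_surjective_of_equiv` or a cardinality argument). -/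
theorem exists_branch_of_not_dvd {T : MultiRed K F k Fb} {x : F} {N : NodeData k Fb E} {a₀ : ℕ}
    (h : IsPreNodal T x N a₀) {m : ℕ} (hm : (m : k) ≠ 0) {f : F}
    (hdiv : ∀ P : Place K F, (m : ℤ) ∣ P.ord f) (hf : ∀ i, T.red f i ≠ 0) (i : ι)
    (P : Place k (Fb i)) (hP : ¬ (m : ℤ) ∣ P.ord (T.red f i)) :
    ∃ e ∈ NN N m (T.red f), (⟨i, P⟩ : Σ i, Place k (Fb i)) = N.branch (Sum.inl e) ∨
      (⟨i, P⟩ : Σ i, Place k (Fb i)) = N.branch (Sum.inr e) := by
  classical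
  have hm0 : 0 < m := Nat.pos_of_ne_zero (by rintro rfl; simp at hm)
  set u := T.red f with hu
  have h1 := slope_ineq h hm hdiv hf
  have hdiv' : ∀ P : Place K F, (m : ℤ) ∣ P.ord f⁻¹ := fun P => by
    rw [P.ord_inv]
    exact (dvd_neg).mpr (hdiv P)
  have hred' : T.red f⁻¹ = u⁻¹ := T.red_inv f
  have hf' : ∀ i, T.red f⁻¹ i ≠ 0 := fun i => by
    rw [hred']
    exact inv_ne_zero (hf i)
  have h2 := slope_ineq h hm hdiv' hf'
  have hNN : NN N m (T.red f⁻¹) = NN N m u := by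
    rw [hred']
    ext e
    simp only [NN, Set.mem_ofPred_eq, Pi.inv_apply, Place.ord_inv, dvd_neg]
  rw [hNN, hred'] at h2
  rw [← hu] at h1
  have hfin : ∀ i, Finite {P : Place k (Fb i) // ¬ (m : ℤ) ∣ P.ord (u i)} := fun i =>
    finite_not_dvd_ord m (u i)
  have h3 : ∑ i, (Nat.card {P : Place k (Fb i) // ¬ (m : ℤ) ∣ P.ord (u i)} : ℤ) ≤
      2 * (Nat.card (NN N m u) : ℤ) := by
    have h4 : (m : ℤ) * ∑ i, (Nat.card {P : Place k (Fb i) // ¬ (m : ℤ) ∣ P.ord (u i)} : ℤ) ≤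
        (m : ℤ) * (2 * (Nat.card (NN N m u) : ℤ)) := by
      rw [Finset.mul_sum]
      calc ∑ i, (m : ℤ) * (Nat.card {P : Place k (Fb i) // ¬ (m : ℤ) ∣ P.ord (u i)} : ℤ)
          = ∑ i, (Divisor.degree (remDiv (k := k) m (u i)) +
              Divisor.degree (remDiv (k := k) m (u⁻¹ i))) :=
            Finset.sum_congr rfl fun i _ => (degree_remDiv_add_inv hm0 (u i)).symm
        _ = ∑ i, Divisor.degree (remDiv (k := k) m (u i)) +
              ∑ i, Divisor.degree (remDiv (k := k) m (u⁻¹ i)) := Finset.sum_add_distrib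
        _ ≤ (m : ℤ) * (2 * (Nat.card (NN N m u) : ℤ)) := by linarith
    exact le_of_mul_le_mul_left h4 (by exact_mod_cast hm0)
  have hcardB : Nat.card (Σ i, {P : Place k (Fb i) // ¬ (m : ℤ) ∣ P.ord (u i)}) ≤
      Nat.card (NN N m u ⊕ NN N m u) := by
    rw [Nat.card_sigma, Nat.card_sum]
    have : ((∑ i, Nat.card {P : Place k (Fb i) // ¬ (m : ℤ) ∣ P.ord (u i)} : ℕ) : ℤ) ≤
        ((Nat.card (NN N m u) + Nat.card (NN N m u) : ℕ) : ℤ) := by
      push_cast
      linarith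
    exact_mod_cast this
  let φ : NN N m u ⊕ NN N m u → Σ i, {P : Place k (Fb i) // ¬ (m : ℤ) ∣ P.ord (u i)} :=
    Sum.elim (fun e => ⟨N.i₁ e.1, ⟨N.p₁ e.1, e.2.1⟩⟩) (fun e => ⟨N.i₂ e.1, ⟨N.p₂ e.1, e.2.2⟩⟩)
  let ψ : (Σ i, {P : Place k (Fb i) // ¬ (m : ℤ) ∣ P.ord (u i)}) → Σ i, Place k (Fb i) :=
    fun s => ⟨s.1, s.2.1⟩
  have hψφ : ∀ s, ψ (φ s) = N.branch (Sum.map Subtype.val Subtype.val s) := by
    rintro (e | e) <;> rfl
  have hinj : Function.Injective φ := by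
    intro s t hst
    have h5 : N.branch (Sum.map Subtype.val Subtype.val s) =
        N.branch (Sum.map Subtype.val Subtype.val t) := by
      rw [← hψφ, ← hψφ, hst]
    exact Sum.map_injective.2 ⟨Subtype.val_injective, Subtype.val_injective⟩ (h.inj h5)
  have hbij := hinj.bijective_of_nat_card_le hcardB
  obtain ⟨s, hs⟩ := hbij.2 ⟨i, ⟨P, hP⟩⟩
  have h6 : N.branch (Sum.map Subtype.val Subtype.val s) = ⟨i, P⟩ := by
    rw [← hψφ, hs]
  rcases s with e | e
  · exact ⟨e.1, e.2, Or.inl h6.symm⟩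
  · exact ⟨e.1, e.2, Or.inr h6.symm⟩

/-- **(E4a)** -/
theorem dvd_ord_of_not_branch {T : MultiRed K F k Fb} {x : F} {N : NodeData k Fb E} {a₀ : ℕ}
    (h : IsPreNodal T x N a₀) {m : ℕ} (hm : (m : k) ≠ 0) {f : F}
    (hdiv : ∀ P : Place K F, (m : ℤ) ∣ P.ord f) (hf : ∀ i, T.red f i ≠ 0) (i : ι)
    (P : Place k (Fb i)) (hP : (⟨i, P⟩ : Σ i, Place k (Fb i)) ∉ Set.range N.branch) :
    (m : ℤ) ∣ P.ord (T.red f i) := by
  by_contra hnd
  obtain ⟨e, -, he | he⟩ := exists_branch_of_not_dvd h hm hdiv hf i P hnd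
  · exact hP ⟨_, he.symm⟩
  · exact hP ⟨_, he.symm⟩

/-- **(E4b)**  (if `m ∤ ord` at `p₁ e` then `⟨i₁ e, p₁ e⟩` is a branch of some `e' ∈ NN`; by `h.inj`, `e' = e` and it is the first branch.) -/
theorem dvd_ord_branch_iff {T : MultiRed K F k Fb} {x : F} {N : NodeData k Fb E} {a₀ : ℕ}
    (h : IsPreNodal T x N a₀) {m : ℕ} (hm : (m : k) ≠ 0) {f : F}
    (hdiv : ∀ P : Place K F, (m : ℤ) ∣ P.ord f) (hf : ∀ i, T.red f i ≠ 0) (e : E) :
    (m : ℤ) ∣ (N.p₁ e).ord (T.red f (N.i₁ e)) ↔ (m : ℤ) ∣ (N.p₂ e).ord (T.red f (N.i₂ e)) := by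
  constructor
  · intro h1
    by_contra h2
    obtain ⟨e', he', h3 | h3⟩ := exists_branch_of_not_dvd h hm hdiv hf (N.i₂ e) (N.p₂ e) h2
    · have h4 : N.branch (Sum.inr e) = N.branch (Sum.inl e') := h3
      exact absurd (h.inj h4) (by simp)
    · have h4 : N.branch (Sum.inr e) = N.branch (Sum.inr e') := h3
      have h5 : e = e' := Sum.inr_injective (h.inj h4)
      subst h5
      exact he'.1 h1
  · intro h1
    by_contra h2
    obtain ⟨e', he', h3 | h3⟩ := exists_branch_of_not_dvd h hm hdiv hf (N.i₁ e) (N.p₁ e) h2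
    · have h4 : N.branch (Sum.inl e) = N.branch (Sum.inl e') := h3
      have h5 : e = e' := Sum.inl_injective (h.inj h4)
      subst h5
      exact he'.2 h1
    · have h4 : N.branch (Sum.inl e) = N.branch (Sum.inr e') := h3
      exact absurd (h.inj h4) (by simp)

/-- **Representatives which are units at all the valuations.**
PROOF. `cᵢ` scaling `f` at `i` (`hsc`), `eᵢ ^ m = cᵢ` (`IsAlgClosed.exists_pow_nat_eq`), `g` from `hS` with `red_i (eᵢ⁻¹ • g) = 1`; then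
`f g ^ m = (cᵢ • f) * (eᵢ⁻¹ • g) ^ m`. -/
theorem exists_unit_rep {T : MultiRed K F k Fb} (hS : T.Sep) (hsc : HasScales T) {m : ℕ} (hm : 0 < m)
    {f : F} (hf : f ≠ 0) : ∃ g : F, g ≠ 0 ∧ ∀ i, T.red (f * g ^ m) i ≠ 0 := by
  rcases isEmpty_or_nonempty ι with hι | ⟨⟨i₀⟩⟩
  · exact ⟨1, one_ne_zero, fun i => hι.elim i⟩
  choose c hc0 hc using fun i => hsc i f hf
  choose e he using fun i => IsAlgClosed.exists_pow_nat_eq (c i) hm
  have he0 : ∀ i, e i ≠ 0 := by
    intro i h0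
    apply hc0 i
    rw [← he i, h0, zero_pow hm.ne']
  obtain ⟨g, hg⟩ := hS 1 (fun i => (e i)⁻¹) (fun i => inv_ne_zero (he0 i))
  have hg0 : g ≠ 0 := by
    rintro rfl
    have := (hg i₀).2
    rw [smul_zero, (T.R i₀).red_zero] at this
    exact zero_ne_one this
  refine ⟨g, hg0, fun i => ?_⟩
  have hid : f * g ^ m = (c i • f) * ((e i)⁻¹ • g) ^ m := by
    rw [smul_pow, smul_mul_smul_comm, inv_pow, he i, mul_inv_cancel₀ (hc0 i), one_smul]
  rw [MultiRed.red_apply, hid, (T.R i).red_mul ((T.R i).mem_of_red_ne_zero (hc i))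
    ((T.R i).O.pow_mem (hg i).1 m), (T.R i).red_pow, (hg i).2]
  simpa using hc i

end Fermat.Agent.S36.Abs
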