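import Fermat.Agent.DR.Abs.Final
import Fermat.Agent.DR.Abs.Cartesian
import Fermat.Agent.DR.Abs.PoleBound

/-!
# S36 / Abs, file `Genus`: the genus inequality (E2) and "equality ⟹ nodal reduction" (E3).

`T` a finite family of reductions of `F`, `x : F` with `deg (x)_∞ = ∑ᵢ deg (x̄ᵢ)_∞`, `N` a family of pairs of points of the curves
`Fb i` which are GLUED (`NodesGlued`): all integral functions regular outside the poles of `x` take the same value at the two points.
* `card_nodes_le`           : `#E + ∑ᵢ (gᵢ - 1) ≤ g - 1`;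
* `isPreNodal_of_genus_eq`  : in case of equality, `IsPreNodal T x N a₀` for some `a₀`;
* `IsPreNodal.genus_eq`     : conversely.
-/

set_option autoImplicit false

namespace Fermat.Agent.S36.Abs

open AlgebraicCurve Fermat.Agent.Lib.RR Fermat.Agent.GAL.RED Fermat.Agent.DR.Abs

variable {K F k : Type*} [Field K] [Field F] [Algebra K F] [Field k] {ι : Type*}
  {Fb : ι → Type*} [∀ i, Field (Fb i)] [∀ i, Algebra k (Fb i)] {E : Type*}

/-- The pairs of points of `N` are glued by all the integral functions which are regular outside the poles of `x`. -/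
def NodesGlued [HasPrincipalDivisors K F] (T : MultiRed K F k Fb) (x : F) (N : NodeData k Fb E) : Prop :=
  ∀ y ∈ T.O, (∃ a : ℕ, y ∈ riemannRochSpace (a • poleDiv (K := K) x)) → N.Glued 1 (T.red y)

variable [IsFF K F] [IsAlgClosed K] [∀ i, IsFF k (Fb i)] [IsAlgClosed k] [Fintype ι] [Fintype E]

/-- translation by a constant does not change the polar divisor. -/
theorem genus_poleDiv_sub_const {κ L : Type*} [Field κ] [Field L] [Algebra κ L] [IsFF κ L]
    [IsAlgClosed κ] (u : L) (c : κ) :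
    poleDiv (K := κ) (u - algebraMap κ L c) = poleDiv (K := κ) u := by
  ext P
  rw [poleDiv_apply, poleDiv_apply]
  rcases lt_or_ge (P.ord u) 0 with h | h
  · have hu : u ≠ 0 := by
      rintro rfl
      rw [P.ord_zero] at h
      exact lt_irrefl _ h
    rcases eq_or_ne c 0 with rfl | hc
    · rw [map_zero, sub_zero]
    · have h1 : P.ord (u - algebraMap κ L c) = P.ord u := by
        rw [sub_eq_add_neg]
        apply ord_add_eq_of_lt P hu (neg_ne_zero.2 (by simpa using hc))
        rw [ord_neg, ord_algebraMap]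
        exact h
      rw [h1]
  · have h2 : 0 ≤ P.ord (u - algebraMap κ L c) := by
      rw [sub_eq_add_neg]
      exact ord_add_nonneg P h (by rw [ord_neg, ord_algebraMap])
    rw [max_eq_right (by omega), max_eq_right (by omega)]

/-- **(G0)** translation of the coordinate: the nodes only have to be different from the poles of the `x̄ᵢ`.
PROOF. The values `ev P (red x)` at the finitely many branches form a finite subset of `k`; choose `cb : k` outside it, `c ∈ A` with `redA c = cb`.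
`x' = x - c`: `red_i x' = red_i x - cb` (`RedData.red_sub`, `red_algebraMap`), not constant; `ord_P (red x') = 0` at a branch since
`ev P (red x') = ev P (red x) - cb ≠ 0` (`ev_sub`, `ev_ne_zero_iff`).  Poles: `ord_P (u - c) = ord_P u` if `ord_P u < 0`, and `≥ 0` otherwise
(`GAL.RED.ord_add_eq_of_lt`, `ord_algebraMap`). -/
theorem exists_translate (T : MultiRed K F k Fb) (x : F) (N : NodeData k Fb E)
    (hinj : Function.Injective N.branch)
    (hx : ∀ i, (T.R i).red x ∉ Set.range (algebraMap k (Fb i)))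
    (h₁ : ∀ e, 0 ≤ (N.p₁ e).ord ((T.R (N.i₁ e)).red x))
    (h₂ : ∀ e, 0 ≤ (N.p₂ e).ord ((T.R (N.i₂ e)).red x)) :
    ∃ c ∈ T.A, N.Adapted (T.red (x - algebraMap K F c)) ∧
      poleDiv (K := K) (x - algebraMap K F c) = poleDiv (K := K) x ∧
      ∀ i, poleDiv (K := k) ((T.R i).red (x - algebraMap K F c)) = poleDiv (K := k) ((T.R i).red x) := by
  classical
  let B : Finset k := (Finset.univ.image fun e => ev (N.p₁ e) ((T.R (N.i₁ e)).red x)) ∪
    (Finset.univ.image fun e => ev (N.p₂ e) ((T.R (N.i₂ e)).red x))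
  obtain ⟨cb, hcb⟩ := Infinite.exists_notMem_finset B
  obtain ⟨c, hcA, hc⟩ := T.redA_surj cb
  have hxO : x ∈ T.O := fun i =>
    (T.R i).mem_of_red_ne_zero (fun h => hx i ⟨0, by rw [h, map_zero]⟩)
  have hred : ∀ i, (T.R i).red (x - algebraMap K F c) =
      (T.R i).red x - algebraMap k (Fb i) cb := by
    intro i
    rw [(T.R i).red_sub (hxO i) (((T.R i).algebraMap_mem_iff c).2 ((T.mem_A_iff i).2 hcA)),
      (T.R i).red_algebraMap', T.redA_eq, hc]
  refine ⟨c, hcA, ⟨hinj, ?_, ?_, ?_⟩, genus_poleDiv_sub_const x c, fun i => by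
    rw [hred]; exact genus_poleDiv_sub_const _ _⟩
  · rintro i ⟨d, hd⟩
    apply hx i
    refine ⟨d + cb, ?_⟩
    rw [map_add, hd, T.red_apply, hred]
    ring
  · intro e
    rw [T.red_apply, hred]
    have hc0 : 0 ≤ (N.p₁ e).ord (algebraMap k (Fb (N.i₁ e)) cb) := by rw [ord_algebraMap]
    have h0 : 0 ≤ (N.p₁ e).ord ((T.R (N.i₁ e)).red x - algebraMap k (Fb (N.i₁ e)) cb) := by
      rw [sub_eq_add_neg]
      exact ord_add_nonneg _ (h₁ e) (by rw [ord_neg]; exact hc0)
    have hne : ev (N.p₁ e) ((T.R (N.i₁ e)).red x - algebraMap k (Fb (N.i₁ e)) cb) ≠ 0 := by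
      rw [ev_sub _ (h₁ e) hc0, ev_algebraMap]
      intro h
      apply hcb
      rw [← sub_eq_zero.1 h]
      exact Finset.mem_union_left _ (Finset.mem_image_of_mem _ (Finset.mem_univ e))
    exact ((ev_ne_zero_iff _ h0).1 hne).2
  · intro e
    rw [T.red_apply, hred]
    have hc0 : 0 ≤ (N.p₂ e).ord (algebraMap k (Fb (N.i₂ e)) cb) := by rw [ord_algebraMap]
    have h0 : 0 ≤ (N.p₂ e).ord ((T.R (N.i₂ e)).red x - algebraMap k (Fb (N.i₂ e)) cb) := by
      rw [sub_eq_add_neg]
      exact ord_add_nonneg _ (h₂ e) (by rw [ord_neg]; exact hc0)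
    have hne : ev (N.p₂ e) ((T.R (N.i₂ e)).red x - algebraMap k (Fb (N.i₂ e)) cb) ≠ 0 := by
      rw [ev_sub _ (h₂ e) hc0, ev_algebraMap]
      intro h
      apply hcb
      rw [← sub_eq_zero.1 h]
      exact Finset.mem_union_right _ (Finset.mem_image_of_mem _ (Finset.mem_univ e))
    exact ((ev_ne_zero_iff _ h0).1 hne).2

/-- **(G1)** `redSub L(a (x)_∞) ≤ gluedSub 1 a 0`  (`MultiRed.red_mem_L_of_mem_L`, `bipole_zero_right`, `hgl`). -/
theorem redSub_le_gluedSub {T : MultiRed K F k Fb} (hS : T.Sep) {x : F} {N : NodeData k Fb E}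
    (hN : N.Adapted (T.red x))
    (hdeg : Divisor.degree (poleDiv (K := K) x) =
      ∑ i, Divisor.degree (poleDiv (K := k) ((T.R i).red x)))
    (hgl : NodesGlued T x N) (a : ℕ) :
    T.redSub (riemannRochSpace (bipole K x a 0)) ≤ gluedSub N (T.red x) hN 1 a 0 := by
  rintro z ⟨y, hyL, hyO, rfl⟩
  rw [bipole_zero_right] at hyL
  refine mem_gluedSub.2 ⟨fun i => ?_, hgl y hyO ⟨a, hyL⟩⟩
  rw [bipole_zero_right]
  exact T.red_mem_L_of_mem_L hS x hN.nonconst hdeg a y hyL hyO i

/-- the dimension of the reduction of `L(a (x)_∞)`, `a` large. -/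
theorem genus_finrank_redSub {T : MultiRed K F k Fb} (hC : T.IsCartesian) {x : F} (hx0 : x ≠ 0)
    (hd : 0 < Divisor.degree (poleDiv (K := K) x)) (a : ℕ) (ha : 2 * genusFF K F ≤ a) :
    (Module.finrank k (T.redSub (riemannRochSpace (bipole K x a 0))) : ℤ) =
      a * Divisor.degree (poleDiv (K := K) x) + 1 - genusFF K F := by
  rw [hC _ inferInstance]
  have h := ell_bipole_add hx0 (0 : Divisor K F) (map_zero _) a 0 (by
    have h2 : ((2 * genusFF K F : ℕ) : ℤ) ≤ (a : ℤ) := by exact_mod_cast ha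
    push_cast at h2 ⊢
    nlinarith)
  rw [add_zero] at h
  have h' : (Module.finrank K (riemannRochSpace (bipole K x a 0)) : ℤ) =
      ((a : ℤ) + (0 : ℕ)) * Divisor.degree (poleDiv (K := K) x) + 1 - genusFF K F := h
  rw [h']
  push_cast
  ring

omit [Fintype E] [IsFF K F] [IsAlgClosed K] [IsAlgClosed k] in
theorem genus_sum_eq (a : ℕ) (xb : ∀ i, Fb i) :
    ∑ i, (((a : ℤ) + (0 : ℕ)) * Divisor.degree (poleDiv (K := k) (xb i)) + 1 - genusFF k (Fb i)) =
      a * ∑ i, Divisor.degree (poleDiv (K := k) (xb i)) - ∑ i, ((genusFF k (Fb i) : ℤ) - 1) := by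
  rw [Finset.mul_sum, ← Finset.sum_sub_distrib]
  refine Finset.sum_congr rfl fun i _ => ?_
  push_cast
  ring

omit [Fintype E] [IsFF K F] [IsAlgClosed K] in
theorem genus_sum_degree_pos [Nonempty ι] {xb : ∀ i, Fb i}
    (hx : ∀ i, xb i ∉ Set.range (algebraMap k (Fb i))) :
    0 < ∑ i, Divisor.degree (poleDiv (K := k) (xb i)) :=
  Finset.sum_pos (fun i _ => degree_poleDiv_pos (hx i)) Finset.univ_nonempty

omit [IsFF K F] [IsAlgClosed K] [∀ i, IsFF k (Fb i)] [IsAlgClosed k] [Fintype ι] [Fintype E] in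
theorem genus_ne_zero [Nonempty ι] {T : MultiRed K F k Fb} {x : F}
    (hx : ∀ i, (T.R i).red x ∉ Set.range (algebraMap k (Fb i))) : x ≠ 0 := by
  rintro rfl
  exact hx (Classical.arbitrary ι) ⟨0, by rw [RedData.red_zero, map_zero]⟩

/-- **(E2) the genus inequality.**
PROOF. `hC : T.IsCartesian := isCartesian_of_degree_le hS x hN.nonconst hdeg.le` (`Nonempty ι`: if `ι` is empty then `deg (x)_∞ = 0`... simply note that
`hdeg` and `degree_poleDiv_pos` force `ι` nonempty once `x` is not constant; if `x` is constant... avoid this: `Nonempty ι` is an hypothesis).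
For `a` large: `a d + 1 - g = ℓ(a (x)_∞) = dim redSub ≤ dim gluedSub = ∑ᵢ (a dᵢ + 1 - gᵢ) - #E`
(`ell_bipole_add` with `D = 0` on `F`, `hC`, (G1), `Submodule.finrank_mono`, `finrank_gluedSub`), and `d = ∑ dᵢ`. -/
theorem card_nodes_le [Nonempty ι] {T : MultiRed K F k Fb} (hS : T.Sep) {x : F} {N : NodeData k Fb E}
    (hN : N.Adapted (T.red x))
    (hdeg : Divisor.degree (poleDiv (K := K) x) =
      ∑ i, Divisor.degree (poleDiv (K := k) ((T.R i).red x)))
    (hgl : NodesGlued T x N) :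
    (Fintype.card E : ℤ) + ∑ i, ((genusFF k (Fb i) : ℤ) - 1) ≤ (genusFF K F : ℤ) - 1 := by
  have hC : T.IsCartesian := MultiRed.isCartesian_of_degree_le hS x hN.nonconst hdeg.le
  have hx0 : x ≠ 0 := genus_ne_zero (T := T) hN.nonconst
  have hd : 0 < Divisor.degree (poleDiv (K := K) x) := by
    rw [hdeg]
    exact genus_sum_degree_pos (xb := T.red x) hN.nonconst
  obtain ⟨a₂, h₂⟩ := finrank_gluedSub N (T.red x) hN
  obtain ⟨hfin, hdim⟩ := h₂ 1 (a₂ + 2 * genusFF K F) 0 (by omega)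
  have h1 := genus_finrank_redSub hC hx0 hd (a₂ + 2 * genusFF K F) (by omega)
  have h3 : (Module.finrank k (T.redSub (riemannRochSpace (bipole K x (a₂ + 2 * genusFF K F) 0))) : ℤ)
      ≤ Module.finrank k (gluedSub N (T.red x) hN 1 (a₂ + 2 * genusFF K F) 0) := by
    exact_mod_cast Submodule.finrank_mono (redSub_le_gluedSub hS hN hdeg hgl _)
  rw [h1, hdim, genus_sum_eq, hdeg] at h3
  simp only [MultiRed.red_apply] at h3
  linarith

/-- **(G2)** in case of equality, `redSub L(a (x)_∞) = gluedSub 1 a 0` for `a` large (`IsCartesian.redSub_eq`, same computation). -/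
theorem exists_redSub_eq_gluedSub [Nonempty ι] {T : MultiRed K F k Fb} (hS : T.Sep) {x : F}
    {N : NodeData k Fb E} (hN : N.Adapted (T.red x))
    (hdeg : Divisor.degree (poleDiv (K := K) x) =
      ∑ i, Divisor.degree (poleDiv (K := k) ((T.R i).red x)))
    (hgl : NodesGlued T x N)
    (hEQ : (Fintype.card E : ℤ) + ∑ i, ((genusFF k (Fb i) : ℤ) - 1) = (genusFF K F : ℤ) - 1) :
    ∃ a₀ : ℕ, ∀ a : ℕ, a₀ ≤ a →
      T.redSub (riemannRochSpace (bipole K x a 0)) = gluedSub N (T.red x) hN 1 a 0 := by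
  have hC : T.IsCartesian := MultiRed.isCartesian_of_degree_le hS x hN.nonconst hdeg.le
  have hx0 : x ≠ 0 := genus_ne_zero (T := T) hN.nonconst
  have hd : 0 < Divisor.degree (poleDiv (K := K) x) := by
    rw [hdeg]
    exact genus_sum_degree_pos (xb := T.red x) hN.nonconst
  obtain ⟨a₂, h₂⟩ := finrank_gluedSub N (T.red x) hN
  refine ⟨a₂ + 2 * genusFF K F, fun a ha => ?_⟩
  obtain ⟨hfin, hdim⟩ := h₂ 1 a 0 (by omega)
  have h1 := genus_finrank_redSub hC hx0 hd a (by omega)
  refine Submodule.eq_of_le_of_finrank_le (redSub_le_gluedSub hS hN hdeg hgl a) ?_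
  have h3 : (Module.finrank k (gluedSub N (T.red x) hN 1 a 0) : ℤ) ≤
      Module.finrank k (T.redSub (riemannRochSpace (bipole K x a 0))) := by
    rw [h1, hdim, genus_sum_eq, hdeg]
    simp only [MultiRed.red_apply]
    linarith
  exact_mod_cast h3

omit [IsFF K F] [IsAlgClosed K] [Fintype ι] [Fintype E] in
/-- multiplication by a power of the coordinate. -/
theorem genus_pow_mul_mem_gluedSub_iff {N : NodeData k Fb E} {xb : ∀ i, Fb i} (hN : N.Adapted xb)
    (hx : N.Glued 1 xb) {δ : E → k} (b : ℕ) : ∀ (a : ℕ) (z : ∀ i, Fb i),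
    xb ^ b * z ∈ gluedSub N xb hN δ (a + b) 0 ↔ z ∈ gluedSub N xb hN δ a b := by
  induction b with
  | zero => intro a z; rw [pow_zero, one_mul, add_zero]
  | succ b ih =>
    intro a z
    rw [pow_succ, mul_assoc, show a + (b + 1) = (a + 1) + b by ring, ih (a + 1) (xb * z),
      mul_coord_mem_gluedSub_iff N xb hN hx]

/-- **(E3) equality ⟹ nodal reduction.**
PROOF. `a₀` from (G2).  `x` is a unit of `T.O` (`T.mem_of_red_ne_zero`, `T.inv_mem_of_red_ne_zero`; `red_i x ≠ 0` as it is not constant) and `red x` is glued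
(`hgl x`, `x ∈ L(1 • (x)_∞)`: `pow_mem_L_poleDiv x 1`).  For `a + b ≥ a₀`:
`z ∈ redSub L(a,b) ↔ (red x) ^ b * z ∈ redSub L(a + b, 0)` (multiply / divide the lift by `x ^ b`: `pow_mul_mem_L_iff`, `T.red_mul`, `T.red_pow`)
`↔ (red x) ^ b * z ∈ gluedSub 1 (a + b) 0 ↔ z ∈ gluedSub 1 a b` (induction on `b` with `mul_coord_mem_gluedSub_iff`). -/
theorem isPreNodal_of_genus_eq [Nonempty ι] {T : MultiRed K F k Fb} (hS : T.Sep) {x : F}
    {N : NodeData k Fb E} (hN : N.Adapted (T.red x))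
    (hdeg : Divisor.degree (poleDiv (K := K) x) =
      ∑ i, Divisor.degree (poleDiv (K := k) ((T.R i).red x)))
    (hgl : NodesGlued T x N)
    (hEQ : (Fintype.card E : ℤ) + ∑ i, ((genusFF k (Fb i) : ℤ) - 1) = (genusFF K F : ℤ) - 1) :
    ∃ a₀ : ℕ, IsPreNodal T x N a₀ := by
  have hC : T.IsCartesian := MultiRed.isCartesian_of_degree_le hS x hN.nonconst hdeg.le
  have hx0 : x ≠ 0 := genus_ne_zero (T := T) hN.nonconst
  have hr0 : ∀ i, T.red x i ≠ 0 := fun i h => hN.nonconst i ⟨0, by rw [h, map_zero]⟩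
  have hxO : x ∈ T.O := T.mem_of_red_ne_zero hr0
  have hxiO : x⁻¹ ∈ T.O := T.inv_mem_of_red_ne_zero hr0
  have hxgl : N.Glued 1 (T.red x) := hgl x hxO ⟨1, by simpa using pow_mem_L_poleDiv (k := K) x 1⟩
  obtain ⟨a₀, ha₀⟩ := exists_redSub_eq_gluedSub hS hN hdeg hgl hEQ
  refine ⟨a₀, hC, hS, hN.inj, hN.nonconst, hN.unit₁, hN.unit₂, fun a b hab z => ?_⟩
  have key : z ∈ T.redSub (riemannRochSpace (bipole K x a b)) ↔
      T.red x ^ b * z ∈ T.redSub (riemannRochSpace (bipole K x (a + b) 0)) := by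
    constructor
    · rintro ⟨y, hyL, hyO, rfl⟩
      refine ⟨x ^ b * y, (pow_mul_mem_L_iff hx0 a b y).2 hyL,
        T.O.mul_mem (T.O.pow_mem hxO b) hyO, ?_⟩
      rw [T.red_mul (T.O.pow_mem hxO b) hyO, T.red_pow]
    · rintro ⟨y', hyL, hyO, hy⟩
      refine ⟨x⁻¹ ^ b * y', ?_, T.O.mul_mem (T.O.pow_mem hxiO b) hyO, ?_⟩
      · rw [← pow_mul_mem_L_iff hx0 a b, ← mul_assoc, ← mul_pow, mul_inv_cancel₀ hx0, one_pow,
          one_mul]
        exact hyL
      · rw [T.red_mul (T.O.pow_mem hxiO b) hyO, T.red_pow, hy, T.red_inv, ← mul_assoc, ← mul_pow]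
        funext i
        simp only [Pi.mul_apply, Pi.pow_apply, Pi.inv_apply]
        rw [inv_mul_cancel₀ (hr0 i), one_pow, one_mul]
  rw [key, ha₀ (a + b) hab, genus_pow_mul_mem_gluedSub_iff hN hxgl]
  exact Iff.rfl

/-- comparison of the dimensions for a nodal reduction. -/
theorem IsPreNodal.genus_aux {T : MultiRed K F k Fb} {x : F} {N : NodeData k Fb E} {a₀ : ℕ}
    (h : IsPreNodal T x N a₀) : ∃ a₁ : ℕ, ∀ a : ℕ, a₁ ≤ a →
      (a : ℤ) * Divisor.degree (poleDiv (K := K) x) + 1 - genusFF K F =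
        a * ∑ i, Divisor.degree (poleDiv (K := k) ((T.R i).red x)) -
          ∑ i, ((genusFF k (Fb i) : ℤ) - 1) - Fintype.card E := by
  have hN : N.Adapted (T.red x) := ⟨h.inj, h.nonconst, h.unit₁, h.unit₂⟩
  have := h.cart.nonempty
  have hx0 : x ≠ 0 := genus_ne_zero (T := T) h.nonconst
  have hd : 0 < Divisor.degree (poleDiv (K := K) x) :=
    lt_of_lt_of_le (genus_sum_degree_pos (xb := T.red x) h.nonconst)
      (T.sum_degree_poleDiv_red_le h.sep x h.nonconst)
  obtain ⟨a₂, h₂⟩ := finrank_gluedSub N (T.red x) hN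
  refine ⟨a₀ + a₂ + 2 * genusFF K F, fun a ha => ?_⟩
  obtain ⟨-, hdim⟩ := h₂ 1 a 0 (by omega)
  have h1 := genus_finrank_redSub h.cart hx0 hd a (by omega)
  have heq : T.redSub (riemannRochSpace (bipole K x a 0)) = gluedSub N (T.red x) hN 1 a 0 := by
    ext z
    exact h.mem_iff a 0 (by omega) z
  rw [heq, hdim, genus_sum_eq] at h1
  simp only [MultiRed.red_apply] at h1
  linarith

/-- the degree formula for a nodal reduction.
PROOF. `≥`: `MultiRed.sum_degree_poleDiv_red_le`.  `≤`: compare the growth in `a` of `dim redSub L(a,0) = a d + 1 - g` and of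
`dim gluedSub 1 a 0 = ∑ (a dᵢ + 1 - gᵢ) - #E` (equal for all large `a`: take the difference of two consecutive values). -/
theorem IsPreNodal.degree_eq {T : MultiRed K F k Fb} {x : F} {N : NodeData k Fb E} {a₀ : ℕ}
    (h : IsPreNodal T x N a₀) :
    Divisor.degree (poleDiv (K := K) x) = ∑ i, Divisor.degree (poleDiv (K := k) ((T.R i).red x)) := by
  obtain ⟨a₁, h₁⟩ := IsPreNodal.genus_aux h
  have e1 := h₁ a₁ le_rfl
  have e2 := h₁ (a₁ + 1) (Nat.le_succ _)
  push_cast at e2
  linarith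

/-- the genus formula for a nodal reduction (same computation). -/
theorem IsPreNodal.genus_eq {T : MultiRed K F k Fb} {x : F} {N : NodeData k Fb E} {a₀ : ℕ}
    (h : IsPreNodal T x N a₀) :
    (Fintype.card E : ℤ) + ∑ i, ((genusFF k (Fb i) : ℤ) - 1) = (genusFF K F : ℤ) - 1 := by
  obtain ⟨a₁, h₁⟩ := IsPreNodal.genus_aux h
  have e1 := h₁ a₁ le_rfl
  rw [IsPreNodal.degree_eq h] at e1
  linarith

end Fermat.Agent.S36.Abs
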