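import Fermat.Agent.S36.Abs.Genus
import Fermat.Agent.S36.Abs.LyingOver.Defs

/-!
# S36 / Abs, file `Cluster`: the genus inequality for clusters of glued points, and the case of equality

`T` a finite independent family of reductions of `F`, `x` a coordinate with `deg (x)_∞ = ∑ᵢ deg (x̄ᵢ)_∞`.
`b : Br → Σ i, Place k (Fb i)` a finite injective family of branches (points of the components, not poles of the `x̄ᵢ`), `c : Br → Cl` a surjection whose fibres (the *clusters*)
consist of points which are glued to each other (`GluedAt`).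

* `card_cluster_le` : `(#Br - #Cl) + ∑ᵢ (gᵢ - 1) ≤ g - 1`;
* `exists_pairs` : (combinatorics) if every cluster contains a point of the first kind and a point of the second kind, and `#Br ≤ 2 #Cl`, then every cluster is a pair;
* `nodeOf b p₁ p₂` : the corresponding `NodeData`;
* `exists_isPreNodal_of_cluster` : if moreover `2 (g - 1) ≤ #Br + 2 ∑ᵢ (gᵢ - 1)`, then the clusters are pairs and the reduction is nodal.
-/

set_option autoImplicit false

namespace Fermat.Agent.S36.Abs

open AlgebraicCurve Fermat.Agent.Lib.RR Fermat.Agent.GAL.RED Fermat.Agent.DR.Abs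

variable {K F k : Type*} [Field K] [Field F] [Algebra K F] [Field k] {ι : Type*}
  {Fb : ι → Type*} [∀ i, Field (Fb i)] [∀ i, Algebra k (Fb i)]

/-! ### combinatorics -/

/-- if every cluster contains a point of the first kind and a point of the second kind, and `#Br ≤ 2 #Cl`, then every cluster is a pair. -/
theorem exists_pairs {Br Cl : Type*} [Fintype Br] [Fintype Cl] (c : Br → Cl)
    (hc : Function.Surjective c) (first : Br → Prop)
    (h12 : ∀ t, ∃ t', c t' = c t ∧ (first t' ↔ ¬ first t))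
    (hle : Fintype.card Br ≤ 2 * Fintype.card Cl) :
    ∃ p₁ p₂ : Cl → Br, (∀ l, c (p₁ l) = l ∧ first (p₁ l)) ∧ (∀ l, c (p₂ l) = l ∧ ¬ first (p₂ l)) ∧
      ∀ t, t = p₁ (c t) ∨ t = p₂ (c t) := by
  classical
  have h1 : ∀ l, ∃ t, c t = l ∧ first t := by
    intro l
    obtain ⟨t, rfl⟩ := hc l
    by_cases ht : first t
    · exact ⟨t, rfl, ht⟩
    · obtain ⟨t', h1, h2⟩ := h12 t
      exact ⟨t', h1, h2.2 ht⟩
  have h2 : ∀ l, ∃ t, c t = l ∧ ¬ first t := by
    intro l
    obtain ⟨t, rfl⟩ := hc l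
    by_cases ht : first t
    · obtain ⟨t', h1, h2⟩ := h12 t
      exact ⟨t', h1, fun h => (h2.1 h) ht⟩
    · exact ⟨t, rfl, ht⟩
  choose p₁ hp₁ using h1
  choose p₂ hp₂ using h2
  refine ⟨p₁, p₂, hp₁, hp₂, ?_⟩
  let φ : Cl ⊕ Cl → Br := Sum.elim p₁ p₂
  have hinj : Function.Injective φ := by
    rintro (l | l) (l' | l') h
    · have : c (p₁ l) = c (p₁ l') := congrArg c h
      rw [(hp₁ l).1, (hp₁ l').1] at this
      rw [this]
    · exact absurd ((show p₁ l = p₂ l' from h) ▸ (hp₁ l).2) (hp₂ l').2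
    · exact absurd ((show p₂ l = p₁ l' from h) ▸ (hp₁ l').2) (hp₂ l).2
    · have : c (p₂ l) = c (p₂ l') := congrArg c h
      rw [(hp₂ l).1, (hp₂ l').1] at this
      rw [this]
  have hbij : Function.Bijective φ := by
    rw [Fintype.bijective_iff_injective_and_card]
    refine ⟨hinj, le_antisymm (Fintype.card_le_of_injective φ hinj) ?_⟩
    rw [Fintype.card_sum]
    omega
  intro t
  obtain ⟨(l | l), rfl⟩ := hbij.2 t
  · left
    show p₁ l = p₁ (c (p₁ l))
    rw [(hp₁ l).1]
  · right
    show p₂ l = p₂ (c (p₂ l))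
    rw [(hp₂ l).1]

/-- every cluster has at least two elements. -/
theorem two_mul_card_le {Br Cl : Type*} [Fintype Br] [Fintype Cl] (c : Br → Cl)
    (hc : Function.Surjective c) (first : Br → Prop)
    (h12 : ∀ t, ∃ t', c t' = c t ∧ (first t' ↔ ¬ first t)) :
    2 * Fintype.card Cl ≤ Fintype.card Br := by
  classical
  have h1 : ∀ l, ∃ t, c t = l ∧ first t := by
    intro l
    obtain ⟨t, rfl⟩ := hc l
    by_cases ht : first t
    · exact ⟨t, rfl, ht⟩
    · obtain ⟨t', h1, h2⟩ := h12 t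
      exact ⟨t', h1, h2.2 ht⟩
  have h2 : ∀ l, ∃ t, c t = l ∧ ¬ first t := by
    intro l
    obtain ⟨t, rfl⟩ := hc l
    by_cases ht : first t
    · obtain ⟨t', h1, h2⟩ := h12 t
      exact ⟨t', h1, fun h => (h2.1 h) ht⟩
    · exact ⟨t, rfl, ht⟩
  choose p₁ hp₁ using h1
  choose p₂ hp₂ using h2
  let φ : Cl ⊕ Cl → Br := Sum.elim p₁ p₂
  have hinj : Function.Injective φ := by
    rintro (l | l) (l' | l') h
    · have : c (p₁ l) = c (p₁ l') := congrArg c h
      rw [(hp₁ l).1, (hp₁ l').1] at this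
      rw [this]
    · exact absurd ((show p₁ l = p₂ l' from h) ▸ (hp₁ l).2) (hp₂ l').2
    · exact absurd ((show p₂ l = p₁ l' from h) ▸ (hp₁ l').2) (hp₂ l).2
    · have : c (p₂ l) = c (p₂ l') := congrArg c h
      rw [(hp₂ l).1, (hp₂ l').1] at this
      rw [this]
  have := Fintype.card_le_of_injective φ hinj
  rw [Fintype.card_sum] at this
  omega

/-- The node data attached to a family of pairs of branches. -/
def nodeOf {Br Cl : Type*} (b : Br → Σ i, Place k (Fb i)) (p₁ p₂ : Cl → Br) : NodeData k Fb Cl where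
  i₁ l := (b (p₁ l)).1
  i₂ l := (b (p₂ l)).1
  p₁ l := (b (p₁ l)).2
  p₂ l := (b (p₂ l)).2

theorem nodeOf_branch {Br Cl : Type*} (b : Br → Σ i, Place k (Fb i)) (p₁ p₂ : Cl → Br) :
    (nodeOf b p₁ p₂).branch = b ∘ Sum.elim p₁ p₂ := by
  funext t
  rcases t with l | l <;> rfl

variable [IsFF K F] [IsAlgClosed K] [∀ i, IsFF k (Fb i)] [IsAlgClosed k] [Fintype ι]

/-! ### the genus inequality -/

section count

variable {Br Cl : Type*} [Fintype Br] [Fintype Cl]

/-- the evaluation map `∏ᵢ L(a (x̄ᵢ)_∞) → k^Br`. -/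
noncomputable def clusterEv (xb : ∀ i, Fb i) (b : Br → Σ i, Place k (Fb i))
    (hreg : ∀ t, 0 ≤ (b t).2.ord (xb (b t).1)) (a : ℕ) :
    (∀ i, riemannRochSpace (bipole k (xb i) a 0)) →ₗ[k] (Br → k) where
  toFun z t := ev (b t).2 (z (b t).1 : Fb (b t).1)
  map_add' z w := by
    funext t
    have hb0 : bipole k (xb (b t).1) a 0 (b t).2 ≤ 0 := by
      rw [bipole_apply, max_eq_right (by have := hreg t; omega)]
      simp
    exact ev_add (b t).2 (ord_nonneg_of_mem_L (z (b t).1).2 hb0)
      (ord_nonneg_of_mem_L (w (b t).1).2 hb0)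
  map_smul' r z := by
    funext t
    have hb0 : bipole k (xb (b t).1) a 0 (b t).2 ≤ 0 := by
      rw [bipole_apply, max_eq_right (by have := hreg t; omega)]
      simp
    exact ev_smul (b t).2 r (ord_nonneg_of_mem_L (z (b t).1).2 hb0)

/-- PROOF. `exists_bounded_values' xb hx S hS` with `S i :=` the (finite) set of the `P` with `⟨i, P⟩ ∈ Set.range b`
(`(Set.finite_range b).preimage (sigma_mk_injective.injOn)`, `.toFinset`), and `val i P := ∑ t, if b t = ⟨i, P⟩ then v t else 0` (`hb`: only one term). -/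
theorem clusterEv_surjective (xb : ∀ i, Fb i) (hx : ∀ i, xb i ∉ Set.range (algebraMap k (Fb i)))
    (b : Br → Σ i, Place k (Fb i)) (hb : Function.Injective b)
    (hreg : ∀ t, 0 ≤ (b t).2.ord (xb (b t).1)) :
    ∃ a₂ : ℕ, ∀ a : ℕ, a₂ ≤ a → Function.Surjective (clusterEv xb b hreg a) := by
  classical
  have hfin : ∀ i, {P : Place k (Fb i) | (⟨i, P⟩ : Σ i, Place k (Fb i)) ∈ Set.range b}.Finite :=
    fun i => (Set.finite_range b).preimage (sigma_mk_injective.injOn)
  obtain ⟨a₂, h₂⟩ := exists_bounded_values' xb hx (fun i => (hfin i).toFinset) (by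
    intro i P hP
    rw [Set.Finite.mem_toFinset] at hP
    obtain ⟨t, ht⟩ := hP
    have := hreg t
    rw [ht] at this
    exact this)
  refine ⟨a₂, fun a ha v => ?_⟩
  obtain ⟨z, hz, hv⟩ := h₂ a ha (fun i P => ∑ t, if b t = (⟨i, P⟩ : Σ i, Place k (Fb i)) then v t else 0)
  refine ⟨fun i => ⟨z i, hz i⟩, ?_⟩
  funext t
  show ev (b t).2 (z (b t).1) = v t
  rw [hv (b t).1 (b t).2 (by rw [Set.Finite.mem_toFinset]; exact ⟨t, rfl⟩), Finset.sum_eq_single t]
  · exact if_pos rfl
  · intro t' _ hne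
    exact if_neg fun h => hne (hb h)
  · intro h
    exact absurd (Finset.mem_univ t) h

/-- the functions on `Br` which are constant on the clusters. -/
noncomputable def clusterConst (k : Type*) [Field k] (c : Br → Cl) : Submodule k (Br → k) :=
  LinearMap.range (LinearMap.funLeft k k c)

omit [Fintype Br] in
theorem finrank_clusterConst (c : Br → Cl) (hc : Function.Surjective c) :
    Module.finrank k (clusterConst k c) = Fintype.card Cl := by
  unfold clusterConst
  rw [LinearMap.finrank_range_of_inj (LinearMap.funLeft_injective_of_surjective k k c hc),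
    Module.finrank_fintype_fun_eq_card]

/-- the space of the bounded families which are constant on the clusters. -/
noncomputable def clusterSub (xb : ∀ i, Fb i) (b : Br → Σ i, Place k (Fb i))
    (hreg : ∀ t, 0 ≤ (b t).2.ord (xb (b t).1)) (c : Br → Cl) (a : ℕ) :
    Submodule k (∀ i, riemannRochSpace (bipole k (xb i) a 0)) :=
  LinearMap.ker ((clusterConst k c).mkQ.comp (clusterEv xb b hreg a))

/-- rank-nullity. -/
theorem finrank_clusterSub (xb : ∀ i, Fb i) (b : Br → Σ i, Place k (Fb i))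
    (hreg : ∀ t, 0 ≤ (b t).2.ord (xb (b t).1)) (c : Br → Cl) (hc : Function.Surjective c) (a : ℕ)
    (hsurj : Function.Surjective (clusterEv xb b hreg a)) :
    (Module.finrank k (clusterSub xb b hreg c a) : ℤ) =
      ∑ i, (Module.finrank k (riemannRochSpace (bipole k (xb i) a 0)) : ℤ) -
        ((Fintype.card Br : ℤ) - Fintype.card Cl) := by
  have h1 := LinearMap.finrank_range_add_finrank_ker
    ((clusterConst k c).mkQ.comp (clusterEv xb b hreg a))
  have h2 : LinearMap.range ((clusterConst k c).mkQ.comp (clusterEv xb b hreg a)) = ⊤ := by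
    rw [LinearMap.range_eq_top]
    exact (Submodule.mkQ_surjective _).comp hsurj
  rw [h2, finrank_top, Module.finrank_pi_fintype] at h1
  have h3 := Submodule.finrank_quotient_add_finrank (clusterConst k c)
  rw [finrank_clusterConst c hc, Module.finrank_fintype_fun_eq_card] at h3
  have h1' : (Module.finrank k ((Br → k) ⧸ clusterConst k c) : ℤ) +
      (Module.finrank k (clusterSub xb b hreg c a) : ℤ) =
      ∑ i, (Module.finrank k (riemannRochSpace (bipole k (xb i) a 0)) : ℤ) := by
    exact_mod_cast h1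
  have h3' : (Module.finrank k ((Br → k) ⧸ clusterConst k c) : ℤ) + (Fintype.card Cl : ℤ) =
      Fintype.card Br := by exact_mod_cast h3
  linarith

end count

/-- **The genus inequality for clusters.** -/
theorem card_cluster_le [Nonempty ι] {T : MultiRed K F k Fb} (hS : T.Sep) {x : F}
    (hx : ∀ i, (T.R i).red x ∉ Set.range (algebraMap k (Fb i)))
    (hdeg : Divisor.degree (poleDiv (K := K) x) =
      ∑ i, Divisor.degree (poleDiv (K := k) ((T.R i).red x)))
    {Br Cl : Type*} [Fintype Br] [Fintype Cl] (b : Br → Σ i, Place k (Fb i))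
    (hb : Function.Injective b) (hreg : ∀ t, 0 ≤ (b t).2.ord ((T.R (b t).1).red x))
    (c : Br → Cl) (hc : Function.Surjective c)
    (hgl : ∀ t t', c t = c t' → GluedAt T x (b t).2 (b t').2) :
    ((Fintype.card Br : ℤ) - Fintype.card Cl) + ∑ i, ((genusFF k (Fb i) : ℤ) - 1) ≤
      (genusFF K F : ℤ) - 1 := by
  have hC : T.IsCartesian := MultiRed.isCartesian_of_degree_le hS x hx hdeg.le
  have hx0 : x ≠ 0 := genus_ne_zero (T := T) hx
  have hd : 0 < Divisor.degree (poleDiv (K := K) x) := by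
    rw [hdeg]
    exact genus_sum_degree_pos (xb := T.red x) hx
  obtain ⟨a₂, h₂⟩ := clusterEv_surjective (T.red x) hx b hb hreg
  set a : ℕ := a₂ + 2 * genusFF K F + ∑ i, 2 * genusFF k (Fb i) with ha
  have hsurj := h₂ a (by omega)
  have h1 := genus_finrank_redSub hC hx0 hd a (by omega)
  have hdim := finrank_clusterSub (T.red x) b hreg c hc a hsurj
  -- the reduction is contained in the cluster space
  have hle : T.redSub (riemannRochSpace (bipole K x a 0)) ≤
      (clusterSub (T.red x) b hreg c a).map (Glued_incl (T.red x) a 0) := by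
    rintro z ⟨y, hyL, hyO, rfl⟩
    rw [bipole_zero_right] at hyL
    have hbd : ∀ i, T.red y i ∈ riemannRochSpace (bipole k (T.red x i) a 0) := fun i => by
      rw [bipole_zero_right]
      exact T.red_mem_L_of_mem_L hS x hx hdeg a y hyL hyO i
    refine ⟨fun i => ⟨T.red y i, hbd i⟩, ?_, rfl⟩
    show _ ∈ LinearMap.ker _
    rw [LinearMap.mem_ker, LinearMap.comp_apply, Submodule.mkQ_apply, Submodule.Quotient.mk_eq_zero]
    refine ⟨fun l => ev (b (Function.surjInv hc l)).2 (T.red y (b (Function.surjInv hc l)).1), ?_⟩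
    funext t
    show ev (b (Function.surjInv hc (c t))).2 (T.red y (b (Function.surjInv hc (c t))).1) =
      ev (b t).2 (T.red y (b t).1)
    exact hgl _ _ (Function.surjInv_eq hc (c t)) y ⟨hyO, a, hyL⟩
  have h3 : (Module.finrank k (T.redSub (riemannRochSpace (bipole K x a 0))) : ℤ) ≤
      Module.finrank k (clusterSub (T.red x) b hreg c a) := by
    have h4 := Submodule.finrank_mono hle
    rw [← (Submodule.equivMapOfInjective _ (Glued_incl_injective (T.red x) a 0) _).finrank_eq] at h4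
    exact_mod_cast h4
  have h4 : ∀ i, (Module.finrank k (riemannRochSpace (bipole k (T.red x i) a 0)) : ℤ) =
      ((a : ℤ) + (0 : ℕ)) * Divisor.degree (poleDiv (K := k) (T.red x i)) + 1 - genusFF k (Fb i) := by
    intro i
    have hxi0 : T.red x i ≠ 0 := fun h => hx i ⟨0, by rw [← T.red_apply, h, map_zero]⟩
    have h5 := ell_bipole_add hxi0 (0 : Divisor k (Fb i)) (map_zero _) a 0 (by
      have hpos := degree_poleDiv_pos (hx i)
      have h1 : 2 * genusFF k (Fb i) ≤ ∑ i, 2 * genusFF k (Fb i) :=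
        Finset.single_le_sum (f := fun i => 2 * genusFF k (Fb i))
          (fun _ _ => Nat.zero_le _) (Finset.mem_univ i)
      have h2 : ((2 * genusFF k (Fb i) : ℕ) : ℤ) ≤ ((a + 0 : ℕ) : ℤ) := by
        exact_mod_cast (by omega : 2 * genusFF k (Fb i) ≤ a + 0)
      push_cast at h2
      have h3 : (0 : ℤ) ≤ (a : ℤ) + (0 : ℕ) := by positivity
      rw [T.red_apply]
      push_cast at h3 ⊢
      nlinarith)
    rw [add_zero] at h5
    exact h5
  rw [h1, hdim, Finset.sum_congr rfl fun i _ => h4 i, genus_sum_eq, hdeg] at h3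
  simp only [MultiRed.red_apply] at h3
  linarith

/-- **Equality: the clusters are pairs and the reduction is nodal.** -/
theorem exists_isPreNodal_of_cluster [Nonempty ι] {T : MultiRed K F k Fb} (hS : T.Sep) {x : F}
    (hx : ∀ i, (T.R i).red x ∉ Set.range (algebraMap k (Fb i)))
    (hdeg : Divisor.degree (poleDiv (K := K) x) =
      ∑ i, Divisor.degree (poleDiv (K := k) ((T.R i).red x)))
    {Br Cl : Type*} [Fintype Br] [Fintype Cl] (b : Br → Σ i, Place k (Fb i))
    (hb : Function.Injective b) (hreg : ∀ t, 0 ≤ (b t).2.ord ((T.R (b t).1).red x))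
    (c : Br → Cl) (hc : Function.Surjective c)
    (hgl : ∀ t t', c t = c t' → GluedAt T x (b t).2 (b t').2)
    (first : Br → Prop) (h12 : ∀ t, ∃ t', c t' = c t ∧ (first t' ↔ ¬ first t))
    (hnum : 2 * ((genusFF K F : ℤ) - 1) ≤
      (Fintype.card Br : ℤ) + 2 * ∑ i, ((genusFF k (Fb i) : ℤ) - 1)) :
    Fintype.card Br = 2 * Fintype.card Cl ∧
    (Fintype.card Cl : ℤ) + ∑ i, ((genusFF k (Fb i) : ℤ) - 1) = (genusFF K F : ℤ) - 1 ∧
    ∃ p₁ p₂ : Cl → Br, (∀ l, c (p₁ l) = l ∧ first (p₁ l)) ∧ (∀ l, c (p₂ l) = l ∧ ¬ first (p₂ l)) ∧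
      (∀ t, t = p₁ (c t) ∨ t = p₂ (c t)) ∧
      ∃ c₀ ∈ T.A, ∃ a₀ : ℕ, IsPreNodal T (x - algebraMap K F c₀) (nodeOf b p₁ p₂) a₀ := by
  have hGI := card_cluster_le hS hx hdeg b hb hreg c hc hgl
  have h2 := two_mul_card_le c hc first h12
  have h2' : 2 * (Fintype.card Cl : ℤ) ≤ Fintype.card Br := by exact_mod_cast h2
  have hcard : Fintype.card Br = 2 * Fintype.card Cl := by
    have : (Fintype.card Br : ℤ) ≤ 2 * Fintype.card Cl := by linarith
    have : Fintype.card Br ≤ 2 * Fintype.card Cl := by exact_mod_cast this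
    omega
  have hcard' : (Fintype.card Br : ℤ) = 2 * Fintype.card Cl := by exact_mod_cast hcard
  have hEQ : (Fintype.card Cl : ℤ) + ∑ i, ((genusFF k (Fb i) : ℤ) - 1) = (genusFF K F : ℤ) - 1 := by
    linarith
  obtain ⟨p₁, p₂, hp₁, hp₂, hall⟩ := exists_pairs c hc first h12 hcard.le
  refine ⟨hcard, hEQ, p₁, p₂, hp₁, hp₂, hall, ?_⟩
  have hinj : Function.Injective (nodeOf b p₁ p₂).branch := by
    rw [nodeOf_branch]
    refine hb.comp ?_
    rintro (l | l) (l' | l') h
    · have : c (p₁ l) = c (p₁ l') := congrArg c h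
      rw [(hp₁ l).1, (hp₁ l').1] at this
      rw [this]
    · exact absurd ((show p₁ l = p₂ l' from h) ▸ (hp₁ l).2) (hp₂ l').2
    · exact absurd ((show p₂ l = p₁ l' from h) ▸ (hp₁ l').2) (hp₂ l).2
    · have : c (p₂ l) = c (p₂ l') := congrArg c h
      rw [(hp₂ l).1, (hp₂ l').1] at this
      rw [this]
  obtain ⟨c₀, hc₀, hN, hpole, hpoleb⟩ := exists_translate T x (nodeOf b p₁ p₂) hinj hx
    (fun l => hreg (p₁ l)) (fun l => hreg (p₂ l))
  refine ⟨c₀, hc₀, ?_⟩
  refine isPreNodal_of_genus_eq hS hN ?_ ?_ hEQ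
  · rw [hpole, hdeg]
    exact Finset.sum_congr rfl fun i _ => by rw [hpoleb i]
  · intro y hyO hyL l
    rw [hpole] at hyL
    rw [Pi.one_apply, one_mul]
    exact hgl (p₁ l) (p₂ l) (by rw [(hp₁ l).1, (hp₂ l).1]) y ⟨hyO, hyL⟩

end Fermat.Agent.S36.Abs
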