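import Fermat.Agent.DR.Abs.Final
import Fermat.Agent.GAL.Model

/-!
# S36 / Abs, file `Delta`: the gluing cochain `δ` of a class of `K_all` (interface (E5) of the S36 plan)

Built on `DR/Abs` (helper77): `T : MultiRed K F k Fb` a finite family of reductions of `F`, `N : NodeData k Fb E`,
`h : IsPreNodal T x N a₀`.

* `SecGlued T x N m f δ` : all integral sections `y` of `⋃ₐ L(a (x)_∞ + D)`, `div f = m D`, have a reduction which is
  glued along the nodes with the multipliers `δ : E → k`.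
* `Kall T m`             : the classes of `V_m(F) = KV K F m` having a representative `f` with `red_i f = 1` for all `i`.
* `IsDelta T x N m κ δ`  : `δ` is a gluing cochain of `κ`.  RELATIONAL interface: no quotient group `H¹(Γ, μ_m)` is needed by
  the consumers; `δ` is well defined up to the coboundaries `e ↦ c (i₁ e) / c (i₂ e)`, `c i ^ m = 1`.
-/

set_option autoImplicit false

namespace Fermat.Agent.S36.Abs

open AlgebraicCurve Fermat.Agent.Lib.RR Fermat.Agent.GAL Fermat.Agent.GAL.RED Fermat.Agent.DR.Abs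

variable {K F k : Type*} [Field K] [Field F] [Algebra K F] [Field k] {ι : Type*}
  {Fb : ι → Type*} [∀ i, Field (Fb i)] [∀ i, Algebra k (Fb i)] {E : Type*}

/-- All the integral sections of the class of `f` are glued with the multipliers `δ`. -/
def SecGlued [HasPrincipalDivisors K F] (T : MultiRed K F k Fb) (x : F) (N : NodeData k Fb E) (m : ℕ)
    (f : F) (δ : E → k) : Prop :=
  ∀ y : F, IsSection T x m f y → N.Glued δ (T.red y)

/-- `δ` is a gluing cochain of the class `κ`. -/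
def IsDelta [HasPrincipalDivisors K F] (T : MultiRed K F k Fb) (x : F) (N : NodeData k Fb E) (m : ℕ)
    (κ : KV K F m) (δ : E → k) : Prop :=
  ∃ f : kummerUnits K F m, KV.mk f = κ ∧ T.red ((f : Fˣ) : F) = 1 ∧
    SecGlued T x N m ((f : Fˣ) : F) δ

/-- The coboundary of `c : ι → k`. -/
def cob (N : NodeData k Fb E) (c : ι → k) : E → k := fun e => c (N.i₁ e) / c (N.i₂ e)

/-- `K_all`: the classes with a representative which reduces to `1` at all the valuations. -/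
def Kall (T : MultiRed K F k Fb) (m : ℕ) : AddSubgroup (KV K F m) where
  carrier := {κ | ∃ f : kummerUnits K F m, KV.mk f = κ ∧ T.red ((f : Fˣ) : F) = 1}
  zero_mem' := ⟨1, KV.mk_one, by
    funext i
    exact (T.R i).red_one⟩
  add_mem' := by
    rintro _ _ ⟨f, rfl, hf⟩ ⟨g, rfl, hg⟩
    refine ⟨f * g, KV.mk_mul f g, ?_⟩
    funext i
    have hf' : (T.R i).red ((f : Fˣ) : F) = 1 := congrFun hf i
    have hg' : (T.R i).red ((g : Fˣ) : F) = 1 := congrFun hg i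
    have h1 : ((f : Fˣ) : F) ∈ (T.R i).O := (T.R i).mem_of_red_ne_zero (by rw [hf']; exact one_ne_zero)
    have h2 : ((g : Fˣ) : F) ∈ (T.R i).O := (T.R i).mem_of_red_ne_zero (by rw [hg']; exact one_ne_zero)
    show (T.R i).red (((f : Fˣ) : F) * ((g : Fˣ) : F)) = 1
    rw [(T.R i).red_mul h1 h2, hf', hg', one_mul]
  neg_mem' := by
    rintro _ ⟨f, rfl, hf⟩
    refine ⟨f⁻¹, KV.mk_inv f, ?_⟩
    funext i
    have hf' : (T.R i).red ((f : Fˣ) : F) = 1 := congrFun hf i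
    show (T.R i).red (((f : Fˣ)⁻¹ : Fˣ) : F) = 1
    rw [Units.val_inv_eq_inv_val, (T.R i).red_inv, hf', inv_one]

theorem mem_Kall {T : MultiRed K F k Fb} {m : ℕ} {κ : KV K F m} :
    κ ∈ Kall T m ↔ ∃ f : kummerUnits K F m, KV.mk f = κ ∧ T.red ((f : Fˣ) : F) = 1 := Iff.rfl

variable [IsFF K F] [IsAlgClosed K] [∀ i, IsFF k (Fb i)] [IsAlgClosed k] [Fintype ι] [Fintype E]

/-! ### sections (leaf D-A) -/

/-- PROOF. `exists_divisor_of_dvd` gives `D`; `exists_delta h hm hD hf` gives `δ, a₁`; a section `y` lies in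
`L(bipole K x a 0 + D)` for all large `a` (`IsSection.exists_mem`), it is integral, so `T.red y ∈ T.redSub _ = gluedSub .. δ a 0`
for `a ≥ a₁`: `(mem_gluedSub.1 _).2`. -/
theorem exists_secGlued {T : MultiRed K F k Fb} {x : F} {N : NodeData k Fb E} {a₀ : ℕ}
    (h : IsPreNodal T x N a₀) {m : ℕ} (hm : (m : k) ≠ 0) {f : F}
    (hdiv : ∀ P : Place K F, (m : ℤ) ∣ P.ord f) (hf : T.red f = 1) :
    ∃ δ : E → k, (∀ e, δ e ^ m = 1) ∧ SecGlued T x N m f δ := by
  have hm0 : 0 < m := Nat.pos_of_ne_zero (by rintro rfl; simp at hm)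
  obtain ⟨i₀⟩ := h.cart.nonempty
  have hf0 : f ≠ 0 := by
    rintro rfl
    rw [T.red_zero] at hf
    exact zero_ne_one (congrFun hf i₀)
  obtain ⟨D, hD, -⟩ := exists_divisor_of_dvd hm0 f hdiv
  obtain ⟨δ, a₁, hδ, hM⟩ := exists_delta h hm hD hf
  refine ⟨δ, hδ, fun y hy => ?_⟩
  obtain ⟨a₂, ha₂⟩ := hy.exists_mem hm0 hf0 hD
  have hmem : T.red y ∈ T.redSub (riemannRochSpace (bipole K x (max a₂ a₁) 0 + D)) :=
    ⟨y, ha₂ _ (le_max_left _ _), hy.1, rfl⟩
  rw [hM _ _ (by simp)] at hmem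
  exact (mem_gluedSub.mp hmem).2

/-- a section whose reduction does not vanish at the branches of the nodes.
PROOF. `exists_section` with `S i :=` the (finite) set of the branches lying on the component `i`
(`Finset.univ.filter`/image over `E`, use `classical`; e.g. `S i = {P | ∃ e, ⟨i, P⟩ = N.branch (inl e) ∨ ⟨i, P⟩ = N.branch (inr e)}`,
finite as the image of `E ⊕ E`), `h.unit₁`, `h.unit₂`; `ev_ne_zero_iff`. -/
theorem exists_section_ev_ne_zero {T : MultiRed K F k Fb} {x : F} {N : NodeData k Fb E} {a₀ : ℕ}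
    (h : IsPreNodal T x N a₀) {m : ℕ} (hm : (m : k) ≠ 0) {f : F}
    (hdiv : ∀ P : Place K F, (m : ℤ) ∣ P.ord f) (hf : T.red f = 1) :
    ∃ y : F, IsSection T x m f y ∧ (∀ e, ev (N.p₁ e) (T.red y (N.i₁ e)) ≠ 0) ∧
      ∀ e, ev (N.p₂ e) (T.red y (N.i₂ e)) ≠ 0 := by
  have hm0 : 0 < m := Nat.pos_of_ne_zero (by rintro rfl; simp at hm)
  obtain ⟨y, hy, hyS⟩ := exists_section h hm hdiv hf (fun i => Glued_brSet N i)
    (fun i P hP => (Glued_ord_of_mem_brSet h.adapted i P hP).ge)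
  refine ⟨y, hy, fun e => ?_, fun e => ?_⟩
  · have hreg := hy.regular h hm0 hf (N.i₁ e) (N.p₁ e) (h.unit₁ e).ge
    exact (ev_ne_zero_iff _ hreg).2 (hyS _ _ (Glued_p₁_mem_brSet N e))
  · have hreg := hy.regular h hm0 hf (N.i₂ e) (N.p₂ e) (h.unit₂ e).ge
    exact (ev_ne_zero_iff _ hreg).2 (hyS _ _ (Glued_p₂_mem_brSet N e))

/-- reductions of sections are regular at the branches (`IsSection.regular`, `h.unit₁`, `h.unit₂`). -/
theorem IsSection.ord_nonneg {T : MultiRed K F k Fb} {x : F} {N : NodeData k Fb E} {a₀ : ℕ}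
    (h : IsPreNodal T x N a₀) {m : ℕ} (hm : 0 < m) {f y : F} (hf : T.red f = 1)
    (hy : IsSection T x m f y) (e : E) :
    0 ≤ (N.p₁ e).ord (T.red y (N.i₁ e)) ∧ 0 ≤ (N.p₂ e).ord (T.red y (N.i₂ e)) := by
  exact ⟨hy.regular h hm hf (N.i₁ e) (N.p₁ e) (h.unit₁ e).ge,
    hy.regular h hm hf (N.i₂ e) (N.p₂ e) (h.unit₂ e).ge⟩

/-- one good section determines `δ`.
PROOF. `δ'` from `exists_secGlued`; `y` is glued by `δ'` and by `δ` and `ev (p₂ e) ≠ 0`: `δ' = δ`. -/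
theorem secGlued_of_section {T : MultiRed K F k Fb} {x : F} {N : NodeData k Fb E} {a₀ : ℕ}
    (h : IsPreNodal T x N a₀) {m : ℕ} (hm : (m : k) ≠ 0) {f : F}
    (hdiv : ∀ P : Place K F, (m : ℤ) ∣ P.ord f) (hf : T.red f = 1) {δ : E → k} {y : F}
    (hy : IsSection T x m f y) (hy₂ : ∀ e, ev (N.p₂ e) (T.red y (N.i₂ e)) ≠ 0)
    (hg : N.Glued δ (T.red y)) : SecGlued T x N m f δ := by
  obtain ⟨δ', -, hδ'⟩ := exists_secGlued h hm hdiv hf
  have hdd : δ' = δ := by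
    funext e
    have h1 := hδ' y hy e
    rw [hg e] at h1
    exact (mul_right_cancel₀ (hy₂ e) h1).symm
  rw [← hdd]
  exact hδ'

theorem SecGlued.unique {T : MultiRed K F k Fb} {x : F} {N : NodeData k Fb E} {a₀ : ℕ}
    (h : IsPreNodal T x N a₀) {m : ℕ} (hm : (m : k) ≠ 0) {f : F}
    (hdiv : ∀ P : Place K F, (m : ℤ) ∣ P.ord f) (hf : T.red f = 1) {δ δ' : E → k}
    (h₁ : SecGlued T x N m f δ) (h₂ : SecGlued T x N m f δ') : δ = δ' := by
  obtain ⟨y, hy, -, hy₂⟩ := exists_section_ev_ne_zero h hm hdiv hf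
  funext e
  have e1 := h₁ y hy e
  rw [h₂ y hy e] at e1
  exact (mul_right_cancel₀ (hy₂ e) e1).symm

theorem SecGlued.pow_eq_one {T : MultiRed K F k Fb} {x : F} {N : NodeData k Fb E} {a₀ : ℕ}
    (h : IsPreNodal T x N a₀) {m : ℕ} (hm : (m : k) ≠ 0) {f : F}
    (hdiv : ∀ P : Place K F, (m : ℤ) ∣ P.ord f) (hf : T.red f = 1) {δ : E → k}
    (h₁ : SecGlued T x N m f δ) (e : E) : δ e ^ m = 1 := by
  obtain ⟨δ', hδ', hs⟩ := exists_secGlued h hm hdiv hf
  rw [SecGlued.unique h hm hdiv hf h₁ hs]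
  exact hδ' e

/-- products of sections are sections: `(y y') ^ m (f f') = (y ^ m f) (y' ^ m f')`, `mul_mem_L`, `add_smul`. -/
theorem IsSection.mul {T : MultiRed K F k Fb} {x : F} {m : ℕ} {f f' y y' : F}
    (hy : IsSection T x m f y) (hy' : IsSection T x m f' y') : IsSection T x m (f * f') (y * y') := by
  obtain ⟨hyO, a, ha⟩ := hy
  obtain ⟨hyO', a', ha'⟩ := hy'
  refine ⟨T.O.mul_mem hyO hyO', a + a', ?_⟩
  have e : (y * y') ^ m * (f * f') = (y ^ m * f) * (y' ^ m * f') := by ring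
  rw [e, add_smul]
  exact mul_mem_L ha ha'

/-- PROOF. Good sections `y`, `y'` of `f`, `f'` (`exists_section_ev_ne_zero`); `y y'` is a section of `f f'` (`IsSection.mul`), its reduction
is `red y * red y'` (`T.red_mul`), `ev_mul` (regularity: `IsSection.ord_nonneg`), so it is glued by `δ δ'` and does not vanish:
`secGlued_of_section`. -/
theorem SecGlued.mul {T : MultiRed K F k Fb} {x : F} {N : NodeData k Fb E} {a₀ : ℕ}
    (h : IsPreNodal T x N a₀) {m : ℕ} (hm : (m : k) ≠ 0) {f f' : F}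
    (hdiv : ∀ P : Place K F, (m : ℤ) ∣ P.ord f) (hf : T.red f = 1)
    (hdiv' : ∀ P : Place K F, (m : ℤ) ∣ P.ord f') (hf' : T.red f' = 1) {δ δ' : E → k}
    (h₁ : SecGlued T x N m f δ) (h₂ : SecGlued T x N m f' δ') :
    SecGlued T x N m (f * f') (δ * δ') := by
  have hm0 : 0 < m := Nat.pos_of_ne_zero (by rintro rfl; simp at hm)
  obtain ⟨i₀⟩ := h.cart.nonempty
  have hne : ∀ g : F, T.red g = 1 → g ≠ 0 := by
    rintro g hg rfl
    rw [T.red_zero] at hg
    exact zero_ne_one (congrFun hg i₀)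
  obtain ⟨y, hy, -, hy2⟩ := exists_section_ev_ne_zero h hm hdiv hf
  obtain ⟨y', hy', -, hy2'⟩ := exists_section_ev_ne_zero h hm hdiv' hf'
  have hfO : f ∈ T.O := T.mem_of_red_ne_zero (fun j => by rw [hf]; exact one_ne_zero)
  have hfO' : f' ∈ T.O := T.mem_of_red_ne_zero (fun j => by rw [hf']; exact one_ne_zero)
  have hff : T.red (f * f') = 1 := by rw [T.red_mul hfO hfO', hf, hf', one_mul]
  have hdivff : ∀ P : Place K F, (m : ℤ) ∣ P.ord (f * f') := by
    intro P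
    rw [P.ord_mul (hne f hf) (hne f' hf')]
    exact dvd_add (hdiv P) (hdiv' P)
  have hred : T.red (y * y') = T.red y * T.red y' := T.red_mul hy.1 hy'.1
  have hr := fun e => IsSection.ord_nonneg h hm0 hf hy e
  have hr' := fun e => IsSection.ord_nonneg h hm0 hf' hy' e
  refine secGlued_of_section h hm hdivff hff (IsSection.mul hy hy') ?_ ?_
  · intro e
    rw [hred, Pi.mul_apply, ev_mul _ (hr e).2 (hr' e).2]
    exact mul_ne_zero (hy2 e) (hy2' e)
  · intro e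
    rw [hred, Pi.mul_apply, Pi.mul_apply, Pi.mul_apply, ev_mul _ (hr e).1 (hr' e).1,
      ev_mul _ (hr e).2 (hr' e).2, h₁ y hy e, h₂ y' hy' e]
    ring

/-- the trivial class: `glued_of_isSection_one`. -/
theorem secGlued_one {T : MultiRed K F k Fb} {x : F} {N : NodeData k Fb E} {a₀ : ℕ}
    (h : IsPreNodal T x N a₀) {m : ℕ} (hm : 0 < m) : SecGlued T x N m 1 1 :=
  fun _ hy => glued_of_isSection_one h hm hy

/-- change of representative.  `w` with locally constant nonzero reduction `c`.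
PROOF. If `y'` is a section of `f w ^ m` then `y' w` is a section of `f` (`(y' w) ^ m f = y' ^ m (f w ^ m)`; `w ∈ T.O` by
`T.mem_of_red_ne_zero`), with reduction `red y' * c`; `ev_mul`/`ev_smul`, `ev_algebraMap`; divide by `c (i₁ e) ≠ 0`.
(regularity of `red y'` at the branches: `IsSection.ord_nonneg` for `f w ^ m`, whose reduction is `c ^ m = 1`.) -/
theorem SecGlued.mul_pow {T : MultiRed K F k Fb} {x : F} {N : NodeData k Fb E} {a₀ : ℕ}
    (h : IsPreNodal T x N a₀) {m : ℕ} (hm : 0 < m) {f w : F} (hf : T.red f = 1) {c : ι → k}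
    (hc : ∀ i, c i ^ m = 1) (hw : ∀ i, T.red w i = algebraMap k (Fb i) (c i)) {δ : E → k}
    (h₁ : SecGlued T x N m f δ) :
    SecGlued T x N m (f * w ^ m) (fun e => δ e * (c (N.i₂ e) / c (N.i₁ e))) := by
  have hc0 : ∀ i, c i ≠ 0 := by
    intro i h0
    have := hc i
    rw [h0, zero_pow hm.ne'] at this
    exact zero_ne_one this
  have hwO : w ∈ T.O := T.mem_of_red_ne_zero (fun i => by
    rw [hw i]
    exact fun h0 => hc0 i ((map_eq_zero _).1 h0))
  have hfO : f ∈ T.O := T.mem_of_red_ne_zero (fun j => by rw [hf]; exact one_ne_zero)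
  have hfw : T.red (f * w ^ m) = 1 := by
    rw [T.red_mul hfO (T.O.pow_mem hwO m), hf, one_mul, T.red_pow]
    funext i
    rw [Pi.pow_apply, hw i, ← map_pow, hc i, map_one, Pi.one_apply]
  intro y' hy'
  have hsec : IsSection T x m f (y' * w) := by
    obtain ⟨hyO', a, ha⟩ := hy'
    refine ⟨T.O.mul_mem hyO' hwO, a, ?_⟩
    have e : (y' * w) ^ m * f = y' ^ m * (f * w ^ m) := by ring
    rw [e]
    exact ha
  have hg := h₁ _ hsec
  have hred : ∀ i, T.red (y' * w) i = c i • T.red y' i := by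
    intro i
    rw [T.red_mul hy'.1 hwO, Pi.mul_apply, hw i, Algebra.smul_def, mul_comm]
  intro e
  have hr := IsSection.ord_nonneg h hm hfw hy' e
  have h2 := hg e
  rw [hred, hred, ev_smul _ _ hr.1, ev_smul _ _ hr.2] at h2
  have h1 := hc0 (N.i₁ e)
  show ev (N.p₁ e) (T.red y' (N.i₁ e))
    = δ e * (c (N.i₂ e) / c (N.i₁ e)) * ev (N.p₂ e) (T.red y' (N.i₂ e))
  field_simp
  rw [mul_comm, h2]
  ring

/-- an element of a function field over an algebraically closed field whose `m`-th power is `1` is a constant.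
(`X ^ m - 1` splits over `k`: `IsAlgClosed.splits`; or: `u` is algebraic over `k`, and `k` is algebraically closed in `Fb`:
all orders of `u` vanish (`m * ord = 0`), `GAL.RED.mem_range_of_ord_nonneg`.) -/
theorem exists_const_of_pow_eq_one {Fb₀ : Type*} [Field Fb₀] [Algebra k Fb₀] [IsFF k Fb₀] {m : ℕ}
    (hm : 0 < m) {u : Fb₀} (hu : u ^ m = 1) : ∃ c : k, c ^ m = 1 ∧ u = algebraMap k Fb₀ c := by
  have hint : IsIntegral k u := IsIntegral.of_pow hm (by rw [hu]; exact isIntegral_one)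
  obtain ⟨c, hc⟩ := minpoly.mem_range_of_degree_eq_one k u
    (IsAlgClosed.degree_eq_one_of_irreducible k (minpoly.irreducible hint))
  refine ⟨c, ?_, hc.symm⟩
  apply (algebraMap k Fb₀).injective
  rw [map_pow, hc, hu, map_one]

/-! ### the relation `IsDelta` (leaf D-B) -/

theorem IsDelta.mem_Kall {T : MultiRed K F k Fb} {x : F} {N : NodeData k Fb E} {m : ℕ}
    {κ : KV K F m} {δ : E → k} (hδ : IsDelta T x N m κ δ) : κ ∈ Kall T m := by
  obtain ⟨f, hf, hr, -⟩ := hδ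
  exact ⟨f, hf, hr⟩

theorem exists_isDelta {T : MultiRed K F k Fb} {x : F} {N : NodeData k Fb E} {a₀ : ℕ}
    (h : IsPreNodal T x N a₀) {m : ℕ} (hm : (m : k) ≠ 0) {κ : KV K F m} (hκ : κ ∈ Kall T m) :
    ∃ δ : E → k, IsDelta T x N m κ δ := by
  obtain ⟨f, hf, hr⟩ := hκ
  obtain ⟨δ, -, hδ⟩ := exists_secGlued h hm (fun P => f.2 P) hr
  exact ⟨δ, f, hf, hr, hδ⟩

theorem IsDelta.pow_eq_one {T : MultiRed K F k Fb} {x : F} {N : NodeData k Fb E} {a₀ : ℕ}
    (h : IsPreNodal T x N a₀) {m : ℕ} (hm : (m : k) ≠ 0) {κ : KV K F m} {δ : E → k}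
    (hδ : IsDelta T x N m κ δ) (e : E) : δ e ^ m = 1 := by
  obtain ⟨f, -, hr, hs⟩ := hδ
  exact hs.pow_eq_one h hm (fun P => f.2 P) hr e

theorem isDelta_zero {T : MultiRed K F k Fb} {x : F} {N : NodeData k Fb E} {a₀ : ℕ}
    (h : IsPreNodal T x N a₀) {m : ℕ} (hm : 0 < m) : IsDelta T x N m (0 : KV K F m) 1 := by
  refine ⟨1, KV.mk_one, ?_, ?_⟩
  · show T.red (1 : F) = 1
    exact T.red_one
  · show SecGlued T x N m (1 : F) 1
    exact secGlued_one h hm

theorem IsDelta.add {T : MultiRed K F k Fb} {x : F} {N : NodeData k Fb E} {a₀ : ℕ}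
    (h : IsPreNodal T x N a₀) {m : ℕ} (hm : (m : k) ≠ 0) {κ κ' : KV K F m} {δ δ' : E → k}
    (hδ : IsDelta T x N m κ δ) (hδ' : IsDelta T x N m κ' δ') :
    IsDelta T x N m (κ + κ') (δ * δ') := by
  obtain ⟨f, rfl, hr, hs⟩ := hδ
  obtain ⟨f', rfl, hr', hs'⟩ := hδ'
  have hO : ((f : Fˣ) : F) ∈ T.O := T.mem_of_red_ne_zero (fun i => by rw [hr]; exact one_ne_zero)
  have hO' : ((f' : Fˣ) : F) ∈ T.O :=
    T.mem_of_red_ne_zero (fun i => by rw [hr']; exact one_ne_zero)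
  refine ⟨f * f', KV.mk_mul f f', ?_, ?_⟩
  · show T.red (((f : Fˣ) : F) * ((f' : Fˣ) : F)) = 1
    rw [T.red_mul hO hO', hr, hr', one_mul]
  · show SecGlued T x N m (((f : Fˣ) : F) * ((f' : Fˣ) : F)) (δ * δ')
    exact SecGlued.mul h hm (fun P => f.2 P) hr (fun P => f'.2 P) hr' hs hs'

/-- PROOF. `f⁻¹` represents `-κ`; let `δ'` be its cochain (`exists_secGlued`); by `SecGlued.mul`, `δ δ'` is the cochain of `f f⁻¹ = 1`, which is
`1` (`secGlued_one`, `SecGlued.unique`). -/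
theorem IsDelta.neg {T : MultiRed K F k Fb} {x : F} {N : NodeData k Fb E} {a₀ : ℕ}
    (h : IsPreNodal T x N a₀) {m : ℕ} (hm : (m : k) ≠ 0) {κ : KV K F m} {δ : E → k}
    (hδ : IsDelta T x N m κ δ) : IsDelta T x N m (-κ) δ⁻¹ := by
  have hm0 : 0 < m := Nat.pos_of_ne_zero (by rintro rfl; simp at hm)
  obtain ⟨f, rfl, hr, hs⟩ := hδ
  have hr' : T.red (((f⁻¹ : kummerUnits K F m) : Fˣ) : F) = 1 := by
    show T.red (((f : Fˣ)⁻¹ : Fˣ) : F) = 1
    rw [Units.val_inv_eq_inv_val, T.red_inv, hr, inv_one]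
  obtain ⟨δ', -, hs'⟩ := exists_secGlued h hm (fun P => (f⁻¹).2 P) hr'
  have h1 := SecGlued.mul h hm (fun P => f.2 P) hr (fun P => (f⁻¹).2 P) hr' hs hs'
  have e1 : ((f : Fˣ) : F) * (((f⁻¹ : kummerUnits K F m) : Fˣ) : F) = 1 := by
    show ((f : Fˣ) : F) * (((f : Fˣ)⁻¹ : Fˣ) : F) = 1
    exact Units.mul_inv _
  rw [e1] at h1
  have h2 : δ * δ' = 1 := SecGlued.unique h hm (f := (1 : F)) (fun P => by simp) T.red_one h1
    (secGlued_one h hm0)
  have h3 : δ' = δ⁻¹ := by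
    funext e
    exact eq_inv_of_mul_eq_one_right (congrFun h2 e)
  exact ⟨f⁻¹, KV.mk_inv f, hr', h3 ▸ hs'⟩

/-- modification by a coboundary.
PROOF. `h.sep` (all scalings `1`: `MultiRed.Sep.exists_lift`) gives `w ∈ T.O` with `red w = c⁻¹` (constants); `w ≠ 0`;
`f w ^ m` represents the same class (`KV.mk_eq_mk_iff`), `red (f w ^ m) = 1`; `SecGlued.mul_pow`. -/
theorem IsDelta.mul_cob {T : MultiRed K F k Fb} {x : F} {N : NodeData k Fb E} {a₀ : ℕ}
    (h : IsPreNodal T x N a₀) {m : ℕ} (hm : (m : k) ≠ 0) {κ : KV K F m} {δ : E → k}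
    (hδ : IsDelta T x N m κ δ) {c : ι → k} (hc : ∀ i, c i ^ m = 1) :
    IsDelta T x N m κ (δ * cob N c) := by
  have hm0 : 0 < m := Nat.pos_of_ne_zero (by rintro rfl; simp at hm)
  obtain ⟨i₀⟩ := h.cart.nonempty
  obtain ⟨f, rfl, hr, hs⟩ := hδ
  have hc0 : ∀ i, c i ≠ 0 := by
    intro i h0
    have := hc i
    rw [h0, zero_pow hm0.ne'] at this
    exact zero_ne_one this
  obtain ⟨w, hw⟩ := h.sep (fun i => algebraMap k (Fb i) (c i)⁻¹) (fun _ => 1)
    (fun _ => one_ne_zero)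
  simp only [one_smul] at hw
  have hwred : ∀ i, T.red w i = algebraMap k (Fb i) (c i)⁻¹ := fun i => (hw i).2
  have hwO : w ∈ T.O := fun i => (hw i).1
  have hw0 : w ≠ 0 := by
    rintro rfl
    have h1 := hwred i₀
    rw [T.red_zero] at h1
    exact (map_ne_zero (algebraMap k (Fb i₀))).2 (inv_ne_zero (hc0 i₀)) h1.symm
  have hO : ((f : Fˣ) : F) ∈ T.O := T.mem_of_red_ne_zero (fun i => by rw [hr]; exact one_ne_zero)
  have hc' : ∀ i, (c i)⁻¹ ^ m = 1 := fun i => by rw [inv_pow, hc i, inv_one]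
  let f' : kummerUnits K F m :=
    ⟨(f : Fˣ) * (Units.mk0 w hw0) ^ m, (kummerUnits K F m).mul_mem f.2 (pow_mem_kummerUnits m _)⟩
  have hf' : ((f' : Fˣ) : F) = ((f : Fˣ) : F) * w ^ m := by
    show (((f : Fˣ) * (Units.mk0 w hw0) ^ m : Fˣ) : F) = _
    rw [Units.val_mul, Units.val_pow_eq_pow_val, Units.val_mk0]
  refine ⟨f', ?_, ?_, ?_⟩
  · rw [KV.mk_eq_mk_iff]
    exact ⟨Units.mk0 w hw0, mul_comm _ _⟩
  · rw [hf', T.red_mul hO (T.O.pow_mem hwO m), hr, one_mul, T.red_pow]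
    funext i
    show (T.red w i) ^ m = 1
    rw [hwred i, ← map_pow, hc' i, map_one]
  · rw [hf']
    have h1 := SecGlued.mul_pow h hm0 hr hc' hwred hs
    have e : (fun e => δ e * ((c (N.i₂ e))⁻¹ / (c (N.i₁ e))⁻¹)) = δ * cob N c := by
      funext e
      show δ e * ((c (N.i₂ e))⁻¹ / (c (N.i₁ e))⁻¹) = δ e * (c (N.i₁ e) / c (N.i₂ e))
      rw [inv_div_inv]
    rwa [e] at h1

/-- `δ` is unique up to a coboundary.
PROOF. `f' = y ^ m f` (`KV.mk_eq_mk_iff`), `red y ^ m = 1` (`T.red_mul`, `T.red_pow`; `y ∈ T.O` because `red (y ^ m) = 1 ≠ 0`), so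
`red y = c` is locally constant (`exists_const_of_pow_eq_one`); `SecGlued.mul_pow` and `SecGlued.unique`. -/
theorem IsDelta.unique {T : MultiRed K F k Fb} {x : F} {N : NodeData k Fb E} {a₀ : ℕ}
    (h : IsPreNodal T x N a₀) {m : ℕ} (hm : (m : k) ≠ 0) {κ : KV K F m} {δ δ' : E → k}
    (hδ : IsDelta T x N m κ δ) (hδ' : IsDelta T x N m κ δ') :
    ∃ c : ι → k, (∀ i, c i ^ m = 1) ∧ δ' = δ * cob N c := by
  have hm0 : 0 < m := Nat.pos_of_ne_zero (by rintro rfl; simp at hm)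
  obtain ⟨f, rfl, hr, hs⟩ := hδ
  obtain ⟨f', hff', hr', hs'⟩ := hδ'
  obtain ⟨y, hy⟩ := (KV.mk_eq_mk_iff f' f).1 hff'
  have hyF : ((f' : Fˣ) : F) = ((f : Fˣ) : F) * (y : F) ^ m := by
    rw [← hy, Units.val_mul, Units.val_pow_eq_pow_val, mul_comm]
  have hne : ∀ i, T.red ((f : Fˣ) : F) i ≠ 0 := fun i => by rw [hr]; exact one_ne_zero
  have hO' : ((f' : Fˣ) : F) ∈ T.O :=
    T.mem_of_red_ne_zero (fun i => by rw [hr']; exact one_ne_zero)
  have hinvO : (((f : Fˣ) : F))⁻¹ ∈ T.O := T.inv_mem_of_red_ne_zero hne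
  have hym : (y : F) ^ m = ((f' : Fˣ) : F) * (((f : Fˣ) : F))⁻¹ := by
    rw [hyF, mul_comm (((f : Fˣ) : F)), mul_assoc, mul_inv_cancel₀ (Units.ne_zero _), mul_one]
  have hredy : T.red (y : F) ^ m = 1 := by
    rw [← T.red_pow, hym, T.red_mul hO' hinvO, hr', T.red_inv, hr, inv_one, one_mul]
  have hex : ∀ i, ∃ c : k, c ^ m = 1 ∧ T.red (y : F) i = algebraMap k (Fb i) c := fun i =>
    exists_const_of_pow_eq_one hm0 (congrFun hredy i)
  choose c hc hcy using hex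
  have h1 := SecGlued.mul_pow h hm0 hr hc hcy hs
  rw [← hyF] at h1
  have h2 := SecGlued.unique h hm (fun P => f'.2 P) hr' hs' h1
  refine ⟨fun i => (c i)⁻¹, fun i => by rw [inv_pow, hc i, inv_one], ?_⟩
  rw [h2]
  funext e
  show δ e * (c (N.i₂ e) / c (N.i₁ e)) = δ e * ((c (N.i₁ e))⁻¹ / (c (N.i₂ e))⁻¹)
  rw [inv_div_inv]

/-- **Injectivity of `δ`** (`isPow_of_sections` with `c`, a good section from `exists_section_ev_ne_zero`). -/
theorem IsDelta.eq_zero {T : MultiRed K F k Fb} {x : F} {N : NodeData k Fb E} {a₀ : ℕ}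
    (h : IsPreNodal T x N a₀) {m : ℕ} (hm : (m : k) ≠ 0) {κ : KV K F m} {c : ι → k}
    (hc : ∀ i, c i ≠ 0) (hδ : IsDelta T x N m κ (cob N c)) : κ = 0 := by
  have hm0 : 0 < m := Nat.pos_of_ne_zero (by rintro rfl; simp at hm)
  obtain ⟨f, rfl, hr, hs⟩ := hδ
  obtain ⟨y, hy, -, hy₂⟩ := exists_section_ev_ne_zero h hm (fun P => f.2 P) hr
  obtain ⟨w, hw⟩ := isPow_of_sections h hm (fun P => f.2 P) hr c hc (fun e => ⟨y, hy, hy₂ e, by
    have h1 : ev (N.p₁ e) (T.red y (N.i₁ e)) =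
        c (N.i₁ e) / c (N.i₂ e) * ev (N.p₂ e) (T.red y (N.i₂ e)) := hs y hy e
    rw [h1]
    field_simp [hc (N.i₂ e)]⟩)
  have hw0 : w ≠ 0 := by
    rintro rfl
    rw [zero_pow hm0.ne'] at hw
    exact Units.ne_zero _ hw
  rw [KV.mk_eq_zero_iff]
  refine ⟨Units.mk0 w hw0, Units.ext ?_⟩
  rw [Units.val_pow_eq_pow_val, Units.val_mk0, hw]

/-- two classes with the same cochain are equal. -/
theorem IsDelta.eq {T : MultiRed K F k Fb} {x : F} {N : NodeData k Fb E} {a₀ : ℕ}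
    (h : IsPreNodal T x N a₀) {m : ℕ} (hm : (m : k) ≠ 0) {κ κ' : KV K F m} {δ : E → k}
    (hδ : IsDelta T x N m κ δ) (hδ' : IsDelta T x N m κ' δ) : κ = κ' := by
  have hm0 : 0 < m := Nat.pos_of_ne_zero (by rintro rfl; simp at hm)
  have h1 := hδ.add h hm (hδ'.neg h hm)
  have hδ0 : ∀ e, δ e ≠ 0 := by
    intro e h0
    have := hδ.pow_eq_one h hm e
    rw [h0, zero_pow hm0.ne'] at this
    exact zero_ne_one this
  have e1 : δ * δ⁻¹ = cob N (fun _ => (1 : k)) := by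
    funext e
    show δ e * (δ e)⁻¹ = 1 / 1
    rw [mul_inv_cancel₀ (hδ0 e), div_one]
  rw [e1] at h1
  have h2 := h1.eq_zero h hm (fun _ => one_ne_zero)
  exact eq_of_sub_eq_zero (by rw [sub_eq_add_neg]; exact h2)

/-- `K_all` is the intersection of the `K_i` (classes which have a representative reducing to `1` at `i`).
PROOF of `←`. Fix a representative `f`. For each `i`, `f wᵢ ^ m` reduces to `1` at `i`.  Take `eᵢ ∈ K` scaling `wᵢ`
(`(T.R i).red (eᵢ • wᵢ) ≠ 0`: apply `h.cart.exists_scale`... for the single valuation use `hscale`), `cᵢ := eᵢ ^ (-m)`; then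
`red_i (cᵢ • f) = (red_i (eᵢ • wᵢ))⁻¹ ^ m`; `exists_normalised`. -/
theorem mem_Kall_iff_forall {T : MultiRed K F k Fb} (hS : T.Sep)
    (hscale : ∀ i, ∀ w : F, w ≠ 0 → ∃ a : K, a ≠ 0 ∧ (T.R i).red (a • w) ≠ 0) {m : ℕ} (hm : 0 < m)
    {κ : KV K F m} :
    κ ∈ Kall T m ↔ ∀ i, ∃ f : kummerUnits K F m, KV.mk f = κ ∧ (T.R i).red ((f : Fˣ) : F) = 1 := by
  constructor
  · rintro ⟨f, hf, hr⟩ i
    exact ⟨f, hf, congrFun hr i⟩
  · intro H
    obtain ⟨f, rfl⟩ := KV.mk_surjective κ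
    choose fi hfi hri using H
    have hy : ∀ i, ∃ y : Fˣ, y ^ m * (f : Fˣ) = (fi i : Fˣ) := fun i =>
      (KV.mk_eq_mk_iff (fi i) f).mp (hfi i)
    choose y hy using hy
    have he : ∀ i, ∃ a : K, a ≠ 0 ∧ (T.R i).red (a • ((y i : Fˣ) : F)) ≠ 0 := fun i =>
      hscale i _ (y i).ne_zero
    choose e he0 her using he
    have hf0 : ((f : Fˣ) : F) ≠ 0 := (f : Fˣ).ne_zero
    obtain ⟨g, hg0, hg⟩ := exists_normalised hS hm (f := ((f : Fˣ) : F)) (fun i => (e i ^ m)⁻¹)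
      (fun i => inv_ne_zero (pow_ne_zero m (he0 i)))
      (fun i => ((T.R i).red (e i • ((y i : Fˣ) : F)))⁻¹) (fun i => inv_ne_zero (her i)) (by
        intro i
        have hyi : ((y i : Fˣ) : F) ^ m * ((f : Fˣ) : F) = ((fi i : Fˣ) : F) := by
          have := congrArg (fun u : Fˣ => (u : F)) (hy i)
          simpa using this
        have hy0 : ((y i : Fˣ) : F) ≠ 0 := (y i).ne_zero
        have hey0 : e i • ((y i : Fˣ) : F) ≠ 0 := smul_ne_zero (he0 i) hy0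
        have hfac : (e i ^ m)⁻¹ • ((f : Fˣ) : F) =
            ((fi i : Fˣ) : F) * ((e i • ((y i : Fˣ) : F))⁻¹) ^ m := by
          rw [← hyi, inv_pow, smul_pow, mul_comm (((y i : Fˣ) : F) ^ m), mul_assoc]
          have h1 : ((y i : Fˣ) : F) ^ m * (e i ^ m • ((y i : Fˣ) : F) ^ m)⁻¹ =
              algebraMap K F (e i ^ m)⁻¹ := by
            rw [Algebra.smul_def, mul_inv, map_inv₀, mul_comm (algebraMap K F (e i ^ m))⁻¹,
              ← mul_assoc, mul_inv_cancel₀ (pow_ne_zero m hy0), one_mul]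
          rw [h1, Algebra.smul_def, mul_comm]
        have h1 : ((fi i : Fˣ) : F) ∈ (T.R i).O :=
          (T.R i).mem_of_red_ne_zero (by rw [hri i]; exact one_ne_zero)
        have h2 : (e i • ((y i : Fˣ) : F))⁻¹ ∈ (T.R i).O :=
          (T.R i).mem_of_red_ne_zero (by rw [(T.R i).red_inv]; exact inv_ne_zero (her i))
        rw [hfac, (T.R i).red_mul h1 ((T.R i).O.pow_mem h2 m), hri i, one_mul, (T.R i).red_pow,
          (T.R i).red_inv])
    refine ⟨f * ⟨Units.mk0 g hg0 ^ m, pow_mem_kummerUnits m _⟩, ?_, ?_⟩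
    · rw [KV.mk_eq_mk_iff]
      refine ⟨Units.mk0 g hg0, ?_⟩
      rw [Subgroup.coe_mul, mul_comm]
    · rw [← hg]
      congr 1

end Fermat.Agent.S36.Abs
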