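import Fermat.Agent.S36.Abs.Slopes
import Fermat.Agent.S36.Abs.Delta

/-!
# S36 / Abs, file `Count`: (E8) `#(V_m(F) / K_all) ≤ ∏ᵢ #V_m(Fb i) · m ^ b₁`, and surjectivity of `δ`.

`b₁ = #E - #ι + 1`.  No node is a loop (`N.i₁ e ≠ N.i₂ e`).  Only the WEAK form of the slope theorem is used:
order the components so that each one (but the last) is joined to a later one; kill the reductions one component at a time:
`K_J := {κ : κ has a representative reducing to 1 at i, for all i ∈ J}`; `K_J / K_{J ∪ {i}}` embeds in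
`{u ∈ Fb iˣ : m ∣ ord_P u for P ∉ S} / m-th powers`, `S` := the branches on `i` of the nodes joining `i` to a component `∉ J`.
-/

set_option autoImplicit false

namespace Fermat.Agent.S36.Abs

open AlgebraicCurve Fermat.Agent.Lib.RR Fermat.Agent.GAL Fermat.Agent.GAL.RED Fermat.Agent.DR.Abs

section one

variable (k Fb : Type*) [Field k] [Field Fb] [Algebra k Fb]

/-- the units whose orders are divisible by `m` outside `S`. -/
def unitsOff (m : ℕ) (S : Set (Place k Fb)) : Subgroup Fbˣ where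
  carrier := {u | ∀ P : Place k Fb, P ∉ S → (m : ℤ) ∣ P.ord (u : Fb)}
  one_mem' := fun P _ => by simp
  mul_mem' := by
    intro a b ha hb P hP
    rw [Units.val_mul, P.ord_mul a.ne_zero b.ne_zero]
    exact dvd_add (ha P hP) (hb P hP)
  inv_mem' := by
    intro a ha P hP
    rw [Units.val_inv_eq_inv_val, P.ord_inv]
    exact (dvd_neg).mpr (ha P hP)

/-- `unitsOff` modulo `m`-th powers. -/
abbrev QOff (m : ℕ) (S : Set (Place k Fb)) : Type _ :=
  unitsOff k Fb m S ⧸ ((powMonoidHom m : Fbˣ →* Fbˣ).range).subgroupOf (unitsOff k Fb m S)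

/-- (aux. for C1) the orders modulo `m` at the places of `S`. -/
noncomputable def ordModHom (m : ℕ) (S : Set (Place k Fb)) : Fbˣ →* Multiplicative (S → ZMod m) where
  toFun u := Multiplicative.ofAdd (fun P => ((P.1.ord (u : Fb) : ℤ) : ZMod m))
  map_one' := by
    apply Multiplicative.toAdd.injective
    funext P
    simp
  map_mul' := by
    intro a b
    apply Multiplicative.toAdd.injective
    funext P
    simp [P.1.ord_mul a.ne_zero b.ne_zero]

theorem mem_ker_ordModHom {m : ℕ} {S : Set (Place k Fb)} {u : Fbˣ} :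
    u ∈ (ordModHom k Fb m S).ker ↔ ∀ P ∈ S, (m : ℤ) ∣ P.ord (u : Fb) := by
  rw [MonoidHom.mem_ker]
  constructor
  · intro h P hP
    have h1 := congrFun (congrArg Multiplicative.toAdd h) ⟨P, hP⟩
    exact (ZMod.intCast_zmod_eq_zero_iff_dvd _ _).1 h1
  · intro h
    apply Multiplicative.toAdd.injective
    funext P
    exact (ZMod.intCast_zmod_eq_zero_iff_dvd _ _).2 (h P.1 P.2)

variable {k Fb} [IsFF k Fb] [IsAlgClosed k]

/-- (aux. for C1) if all the orders but one are divisible by `m`, so is the last one. -/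
theorem dvd_ord_of_forall_ne {m : ℕ} (u : Fb) (P₀ : Place k Fb)
    (h : ∀ P : Place k Fb, P ≠ P₀ → (m : ℤ) ∣ P.ord u) : (m : ℤ) ∣ P₀.ord u := by
  classical
  have h0 : Divisor.degree (divOf (K := k) u) = 0 := degree_divOf u
  rw [degree_eq_sum, Finsupp.sum] at h0
  by_cases hP : P₀ ∈ (divOf (K := k) u).support
  · rw [← Finset.add_sum_erase _ _ hP, divOf_apply] at h0
    have h1 : P₀.ord u = -∑ P ∈ (divOf (K := k) u).support.erase P₀, (divOf (K := k) u) P := by
      linarith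
    rw [h1, dvd_neg]
    apply Finset.dvd_sum
    intro P hP'
    rw [divOf_apply]
    exact h P (Finset.mem_erase.1 hP').1
  · rw [Finsupp.notMem_support_iff, divOf_apply] at hP
    rw [hP]
    exact dvd_zero _

/-- **(C1)**  `#(unitsOff S / m-th powers) ≤ #V_m(Fb) · m ^ (#S - 1)` (truncated subtraction).
PROOF. `kummerUnits k Fb m ≤ unitsOff k Fb m S`.  `ω : unitsOff S →* Multiplicative (S → ZMod m)`, `u ↦ (ord_P u mod m)_{P ∈ S}`, has kernel `kummerUnits` (as a subgroup of `unitsOff`) and its image lies in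
`{a | ∑ a = 0}` because `∑_P ord_P u = 0` (`degree_divOf`, `deg_eq_one`) and the other orders are `≡ 0`.  The additive group `{a : S → ZMod m | ∑ a = 0}` has `m ^ (#S - 1)` elements if `S ≠ ∅` (kernel of the
surjective sum map) and `1` element if `S = ∅`.  So `[unitsOff : kummerUnits] ≤ m ^ (#S - 1)`; the `m`-th powers are contained in `kummerUnits`, and
`#(unitsOff / P) = [unitsOff : kummerUnits] · #(kummerUnits / P)` (`Subgroup.relIndex_mul_relIndex` / `Subgroup.index` calculus), `KV k Fb m = Additive (kummerUnits / P)`. -/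
theorem card_QOff_le {m : ℕ} (hm : 0 < m) (S : Set (Place k Fb)) [Finite S] [Finite (KV k Fb m)] :
    Finite (QOff k Fb m S) ∧
      Nat.card (QOff k Fb m S) ≤ Nat.card (KV k Fb m) * m ^ (Nat.card S - 1) := by
  classical
  have : NeZero m := ⟨hm.ne'⟩
  set Uo := unitsOff k Fb m S with hUo
  set Ku := kummerUnits k Fb m with hKu
  set Pw : Subgroup Fbˣ := (powMonoidHom m : Fbˣ →* Fbˣ).range with hPw
  have hPK : Pw ≤ Ku := by
    rintro _ ⟨y, rfl⟩
    exact pow_mem_kummerUnits m y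
  have hKU : Ku ≤ Uo := fun u hu P _ => hu P
  -- the smaller set
  obtain ⟨S', hS'S, hsub, hcard⟩ : ∃ S' : Set (Place k Fb), S' ⊆ S ∧ (S \ S').Subsingleton ∧
      Nat.card S' ≤ Nat.card S - 1 := by
    rcases S.eq_empty_or_nonempty with rfl | ⟨P₀, hP₀⟩
    · exact ⟨∅, le_rfl, by simp, by simp⟩
    · refine ⟨S \ {P₀}, Set.sdiff_subset, ?_, ?_⟩
      · intro a ha b hb
        have ha' : a = P₀ := by
          by_contra hne
          exact ha.2 ⟨ha.1, hne⟩
        have hb' : b = P₀ := by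
          by_contra hne
          exact hb.2 ⟨hb.1, hne⟩
        rw [ha', hb']
      · rw [Nat.card_coe_set_eq, Nat.card_coe_set_eq, Set.ncard_sdiff_singleton_of_mem hP₀]
  have : Finite S' := Finite.Set.subset S hS'S
  have hker : Ku = (ordModHom k Fb m S').ker ⊓ Uo := by
    apply le_antisymm
    · intro u hu
      exact ⟨(mem_ker_ordModHom k Fb).2 fun P _ => hu P, hKU hu⟩
    · rintro u ⟨h1, h2⟩
      have h1 : u ∈ (ordModHom k Fb m S').ker := h1
      have h2 : u ∈ Uo := h2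
      rw [mem_ker_ordModHom] at h1
      have h3 : ∀ P : Place k Fb, P ∉ S \ S' → (m : ℤ) ∣ P.ord (u : Fb) := by
        intro P hP
        by_cases hPS : P ∈ S
        · apply h1
          by_contra hPS'
          exact hP ⟨hPS, hPS'⟩
        · exact h2 P hPS
      intro P
      by_cases hP : P ∈ S \ S'
      · apply dvd_ord_of_forall_ne
        intro Q hQ
        apply h3
        intro hQ'
        exact hQ (hsub hQ' hP)
      · exact h3 P hP
  have hrel : Ku.relIndex Uo = Nat.card (Uo.map (ordModHom k Fb m S')) := by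
    rw [hker, Subgroup.inf_relIndex_right, Subgroup.relIndex_ker]
  have hrel_pos : Ku.relIndex Uo ≠ 0 := by
    rw [hrel]
    exact Nat.card_pos.ne'
  have hrel_le : Ku.relIndex Uo ≤ m ^ (Nat.card S - 1) := by
    rw [hrel]
    calc Nat.card (Uo.map (ordModHom k Fb m S'))
        ≤ Nat.card (Multiplicative (S' → ZMod m)) :=
          Nat.card_le_card_of_injective _ Subtype.val_injective
      _ = m ^ Nat.card S' := by
          have : Nat.card (Multiplicative (S' → ZMod m)) = Nat.card (S' → ZMod m) := rfl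
          rw [this, Nat.card_fun, Nat.card_zmod]
      _ ≤ m ^ (Nat.card S - 1) := Nat.pow_le_pow_right hm hcard
  have hKV : Pw.relIndex Ku = Nat.card (KV k Fb m) := rfl
  have hKV_pos : Pw.relIndex Ku ≠ 0 := by
    rw [hKV]
    exact Nat.card_pos.ne'
  have hQ : Nat.card (QOff k Fb m S) = Pw.relIndex Uo := rfl
  have hmul := Subgroup.relIndex_mul_relIndex Pw Ku Uo hPK hKU
  constructor
  · apply Subgroup.index_ne_zero_iff_finite.1
    change Pw.relIndex Uo ≠ 0
    rw [← hmul]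
    exact mul_ne_zero hKV_pos hrel_pos
  · rw [hQ, ← hmul, hKV]
    exact Nat.mul_le_mul_left _ hrel_le

end one

/-- **(C0)** counting lemma: `φ : G → X` with `φ a = φ b ⟹ a - b ∈ H`.  Then `#G ≤ #H · #X`.
(the induced map `G ⧸ H → X`... rather: `G → X` factors as an injection of `G ⧸ H`?? NO: use the fibres: each fibre of `φ` is contained in a coset of `H`;
`Nat.card G = ∑_{x} #fibre ≤ #X · #H`; or: the map `G ⧸ H ← G` and a section: choose for each class `q : G ⧸ H` a representative `r q`; `q ↦ φ (r q)` is injective, so `[G : H] ≤ #X`;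
`AddSubgroup.card_eq_card_quotient_mul_card_addSubgroup`.) -/
theorem card_le_of_fibres {G : Type*} [AddCommGroup G] [Finite G] (H : AddSubgroup G) {X : Type*}
    [Finite X] (φ : G → X) (hφ : ∀ a b, φ a = φ b → a - b ∈ H) :
    Nat.card G ≤ Nat.card H * Nat.card X := by
  rw [AddSubgroup.card_eq_card_quotient_mul_card_addSubgroup H, mul_comm]
  apply Nat.mul_le_mul_left
  apply Nat.card_le_card_of_injective (fun q : G ⧸ H => φ q.out)
  intro q q' h
  have h1 := hφ _ _ h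
  rw [← QuotientAddGroup.out_eq' q, ← QuotientAddGroup.out_eq' q', eq_comm, QuotientAddGroup.eq]
  have e : -(Quotient.out q') + Quotient.out q = Quotient.out q - Quotient.out q' := by abel
  rw [e]
  exact h1

variable {K F k : Type*} [Field K] [Field F] [Algebra K F] [Field k] {ι : Type*}
  {Fb : ι → Type*} [∀ i, Field (Fb i)] [∀ i, Algebra k (Fb i)] {E : Type*}

/-- the classes with a representative reducing to `1` at `i`. -/
def Kat (T : MultiRed K F k Fb) (m : ℕ) (i : ι) : AddSubgroup (KV K F m) where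
  carrier := {κ | ∃ f : kummerUnits K F m, KV.mk f = κ ∧ (T.R i).red ((f : Fˣ) : F) = 1}
  zero_mem' := ⟨1, KV.mk_one, (T.R i).red_one⟩
  add_mem' := by
    rintro _ _ ⟨f, rfl, hf⟩ ⟨g, rfl, hg⟩
    refine ⟨f * g, KV.mk_mul f g, ?_⟩
    have h1 : ((f : Fˣ) : F) ∈ (T.R i).O := (T.R i).mem_of_red_ne_zero (by rw [hf]; exact one_ne_zero)
    have h2 : ((g : Fˣ) : F) ∈ (T.R i).O := (T.R i).mem_of_red_ne_zero (by rw [hg]; exact one_ne_zero)
    show (T.R i).red (((f : Fˣ) : F) * ((g : Fˣ) : F)) = 1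
    rw [(T.R i).red_mul h1 h2, hf, hg, one_mul]
  neg_mem' := by
    rintro _ ⟨f, rfl, hf⟩
    refine ⟨f⁻¹, KV.mk_inv f, ?_⟩
    show (T.R i).red (((f : Fˣ)⁻¹ : Fˣ) : F) = 1
    rw [Units.val_inv_eq_inv_val, (T.R i).red_inv, hf, inv_one]

/-- `K_J`. -/
def Ksub (T : MultiRed K F k Fb) (m : ℕ) (J : Set ι) : AddSubgroup (KV K F m) := ⨅ i ∈ J, Kat T m i

theorem mem_Ksub {T : MultiRed K F k Fb} {m : ℕ} {J : Set ι} {κ : KV K F m} :
    κ ∈ Ksub T m J ↔ ∀ i ∈ J, κ ∈ Kat T m i := by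
  simp [Ksub, AddSubgroup.mem_iInf]

/-- the nodes joining `i` to a component outside `J`. -/
def edgesOut (N : NodeData k Fb E) (i : ι) (J : Set ι) : Set E :=
  {e | (N.i₁ e = i ∧ N.i₂ e ∉ J) ∨ (N.i₂ e = i ∧ N.i₁ e ∉ J)}

/-- their branches on `i`. -/
def branchesOut (N : NodeData k Fb E) (i : ι) (J : Set ι) : Set (Place k (Fb i)) :=
  {P | ∃ e, ((⟨i, P⟩ : Σ i, Place k (Fb i)) = N.branch (Sum.inl e) ∧ N.i₂ e ∉ J) ∨
    ((⟨i, P⟩ : Σ i, Place k (Fb i)) = N.branch (Sum.inr e) ∧ N.i₁ e ∉ J)}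

variable [IsFF K F] [IsAlgClosed K] [∀ i, IsFF k (Fb i)] [IsAlgClosed k] [Fintype ι] [Fintype E]

omit [IsFF K F] [IsAlgClosed K] [∀ i, IsFF k (Fb i)] [IsAlgClosed k] [Fintype ι] in
/-- (`P ↦ e` is injective on `branchesOut` ... simply: `branchesOut` is the image of `edgesOut` under a partial map; each `e ∈ edgesOut` contributes at most... if there is no loop exactly one `P`.)
PROOF. Choose for `P ∈ branchesOut` a node `e(P)` as in the definition; `e(P) ∈ edgesOut` (first components of the `Σ`-equality: `i = N.i₁ e`, resp. `i = N.i₂ e`); `P ↦ e(P)` is injective: if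
`e(P) = e(P') = e` then both `⟨i,P⟩`, `⟨i,P'⟩` are branches of `e` lying on `i`; since `N.i₁ e ≠ N.i₂ e` they are the same branch.  `Nat.card_le_card_of_injective`. -/
theorem card_branchesOut_le (N : NodeData k Fb E) (hloop : ∀ e, N.i₁ e ≠ N.i₂ e) (i : ι) (J : Set ι) :
    Finite (branchesOut N i J) ∧ Nat.card (branchesOut N i J) ≤ Nat.card (edgesOut N i J) := by
  classical
  have hex : ∀ P : branchesOut N i J, ∃ e,
      ((⟨i, P.1⟩ : Σ i, Place k (Fb i)) = N.branch (Sum.inl e) ∧ N.i₂ e ∉ J) ∨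
      ((⟨i, P.1⟩ : Σ i, Place k (Fb i)) = N.branch (Sum.inr e) ∧ N.i₁ e ∉ J) := fun P => P.2
  choose ε hε using hex
  have hmem : ∀ P : branchesOut N i J, ε P ∈ edgesOut N i J := by
    intro P
    rcases hε P with ⟨h1, h2⟩ | ⟨h1, h2⟩
    · exact Or.inl ⟨(congrArg Sigma.fst h1).symm, h2⟩
    · exact Or.inr ⟨(congrArg Sigma.fst h1).symm, h2⟩
  let g : branchesOut N i J → edgesOut N i J := fun P => ⟨ε P, hmem P⟩
  have hg : Function.Injective g := by
    intro P P' hPP
    have he : ε P = ε P' := congrArg Subtype.val hPP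
    apply Subtype.ext
    rcases hε P with ⟨h1, -⟩ | ⟨h1, -⟩ <;> rcases hε P' with ⟨h2, -⟩ | ⟨h2, -⟩
    · rw [he, ← h2] at h1
      exact eq_of_heq (Sigma.mk.inj_iff.1 h1).2
    · exfalso
      have e1 : i = N.i₁ (ε P) := congrArg Sigma.fst h1
      have e2 : i = N.i₂ (ε P') := congrArg Sigma.fst h2
      rw [← he] at e2
      exact hloop (ε P) (e1.symm.trans e2)
    · exfalso
      have e1 : i = N.i₂ (ε P) := congrArg Sigma.fst h1
      have e2 : i = N.i₁ (ε P') := congrArg Sigma.fst h2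
      rw [← he] at e2
      exact hloop (ε P) (e2.symm.trans e1)
    · rw [he, ← h2] at h1
      exact eq_of_heq (Sigma.mk.inj_iff.1 h1).2
  exact ⟨Finite.of_injective g hg, Nat.card_le_card_of_injective g hg⟩

/-- **(C2a)** if `κ = [f] ∈ K_j` and `red_j f ≠ 0` then all the orders of `red_j f` are divisible by `m`.
PROOF. `f' = y ^ m f` reduces to `1` at `j` (`KV.mk_eq_mk_iff`).  Scale `y`: `a • y` a unit at `j` (`hsc`).  Then `red_j f' = 1 = red_j ((a • y) ^ m) * red_j (a ^ (-m) • f)`, so `a ^ (-m) • f` is a unit at `j`, as `f` is: `a ^ m` is a unit of `A`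
and `red_j f = const * (red_j (a • y))⁻¹ ^ m`; `ord_algebraMap`, `Place.ord_mul`, `ord_pow`. -/
theorem dvd_ord_red_of_mem_Kat {T : MultiRed K F k Fb} (hsc : HasScales T) {m : ℕ} {j : ι}
    {f : kummerUnits K F m} (hκ : KV.mk f ∈ Kat T m j) (hf : (T.R j).red ((f : Fˣ) : F) ≠ 0)
    (P : Place k (Fb j)) : (m : ℤ) ∣ P.ord ((T.R j).red ((f : Fˣ) : F)) := by
  obtain ⟨f', hf', hr⟩ := hκ
  obtain ⟨y, hy⟩ := (KV.mk_eq_mk_iff f' f).1 hf'
  have hy' : (y : F) ^ m * ((f : Fˣ) : F) = ((f' : Fˣ) : F) := by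
    have := congrArg Units.val hy
    simpa using this
  obtain ⟨a, -, haw⟩ := hsc j (y : F) y.ne_zero
  have hf'0 : ((f' : Fˣ) : F) ≠ 0 := (f' : Fˣ).ne_zero
  have hwO := (T.R j).mem_of_red_ne_zero haw
  have hfO := (T.R j).mem_of_red_ne_zero hf
  have hf'1 : (T.R j).red ((f' : Fˣ) : F) ≠ 0 := by rw [hr]; exact one_ne_zero
  have e2 : algebraMap K F (a ^ m) = (a • (y : F)) ^ m * ((f : Fˣ) : F) * ((f' : Fˣ) : F)⁻¹ := by
    have h0 : (y : F) ^ m * ((f : Fˣ) : F) ≠ 0 := by rw [hy']; exact hf'0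
    rw [← hy', Algebra.smul_def, map_pow, mul_pow, mul_assoc, mul_assoc, ← mul_assoc ((y : F) ^ m),
      mul_inv_cancel₀ h0, mul_one]
  have e3 : (T.R j).red (algebraMap K F (a ^ m)) =
      (T.R j).red (a • (y : F)) ^ m * (T.R j).red ((f : Fˣ) : F) := by
    rw [e2, (T.R j).red_mul (mul_mem (pow_mem hwO m) hfO) ((T.R j).inv_mem_of_red_ne_zero hf'1),
      (T.R j).red_mul (pow_mem hwO m) hfO, (T.R j).red_pow, (T.R j).red_inv, hr, inv_one, mul_one]
  rw [(T.R j).red_algebraMap'] at e3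
  have hord := congrArg P.ord e3
  rw [ord_algebraMap, P.ord_mul (pow_ne_zero m haw) hf, ord_pow] at hord
  exact ⟨-P.ord ((T.R j).red (a • (y : F))), by linarith⟩

/-- **(C2b)** for `[f] ∈ K_J`, `red_i f ∈ unitsOff (branchesOut N i J)`.
PROOF. `P ∉ branchesOut`.  If `⟨i,P⟩` is not a branch: `dvd_ord_of_not_branch`.  If it is the first branch of `e` (so `i = N.i₁ e`, `subst`/`cases` on the `Σ`-equality) then `N.i₂ e ∈ J`, (C2a) at `j = N.i₂ e` and
`dvd_ord_branch_iff`.  Symmetrically for the second branch. -/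
theorem red_mem_unitsOff {T : MultiRed K F k Fb} {x : F} {N : NodeData k Fb E} {a₀ : ℕ}
    (h : IsPreNodal T x N a₀) (hsc : HasScales T) {m : ℕ} (hm : (m : k) ≠ 0) {J : Set ι} (i : ι)
    {f : kummerUnits K F m} (hκ : KV.mk f ∈ Ksub T m J) (hf : ∀ j, T.red ((f : Fˣ) : F) j ≠ 0)
    (P : Place k (Fb i)) (hP : P ∉ branchesOut N i J) :
    (m : ℤ) ∣ P.ord (T.red ((f : Fˣ) : F) i) := by
  by_cases hb : (⟨i, P⟩ : Σ i, Place k (Fb i)) ∈ Set.range N.branch
  · have key : ∀ s : Σ i, Place k (Fb i), s = ⟨i, P⟩ →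
        (m : ℤ) ∣ s.2.ord (T.red ((f : Fˣ) : F) s.1) →
        (m : ℤ) ∣ P.ord (T.red ((f : Fˣ) : F) i) := by
      rintro s rfl hs
      exact hs
    obtain ⟨s, hs⟩ := hb
    rcases s with e | e
    · have hJ : N.i₂ e ∈ J := by
        by_contra hJ
        exact hP ⟨e, Or.inl ⟨hs.symm, hJ⟩⟩
      have h1 := dvd_ord_red_of_mem_Kat hsc (mem_Ksub.1 hκ _ hJ) (hf (N.i₂ e)) (N.p₂ e)
      exact key _ hs ((dvd_ord_branch_iff h hm (fun P => f.2 P) hf e).2 h1)
    · have hJ : N.i₁ e ∈ J := by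
        by_contra hJ
        exact hP ⟨e, Or.inr ⟨hs.symm, hJ⟩⟩
      have h1 := dvd_ord_red_of_mem_Kat hsc (mem_Ksub.1 hκ _ hJ) (hf (N.i₁ e)) (N.p₁ e)
      exact key _ hs ((dvd_ord_branch_iff h hm (fun P => f.2 P) hf e).1 h1)
  · exact dvd_ord_of_not_branch h hm (fun P => f.2 P) hf i P hb

/-- **Consumer form of (E4)** (used in STEP-A): if `[f]` lies in `K_j` for all `j ≠ i` then `red_i f` is a Kummer unit of `Fb i`.
((C2b) with `J = {i}ᶜ`: `branchesOut N i {i}ᶜ = ∅` because there are no loops.) -/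
theorem red_mem_kummerUnits {T : MultiRed K F k Fb} {x : F} {N : NodeData k Fb E} {a₀ : ℕ}
    (h : IsPreNodal T x N a₀) (hsc : HasScales T) {m : ℕ} (hm : (m : k) ≠ 0)
    (hloop : ∀ e, N.i₁ e ≠ N.i₂ e) (i : ι) {f : kummerUnits K F m}
    (hκ : ∀ j, j ≠ i → KV.mk f ∈ Kat T m j) (hf : ∀ j, T.red ((f : Fˣ) : F) j ≠ 0)
    (P : Place k (Fb i)) : (m : ℤ) ∣ P.ord (T.red ((f : Fˣ) : F) i) := by
  refine red_mem_unitsOff h hsc hm (J := {i}ᶜ) i (mem_Ksub.2 fun j hj => hκ j hj) hf P ?_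
  rintro ⟨e, ⟨h1, h2⟩ | ⟨h1, h2⟩⟩
  · have e1 : i = N.i₁ e := congrArg Sigma.fst h1
    have e2 : N.i₂ e = i := by simpa using h2
    exact hloop e (e1.symm.trans e2.symm)
  · have e1 : i = N.i₂ e := congrArg Sigma.fst h1
    have e2 : N.i₁ e = i := by simpa using h2
    exact hloop e (e2.trans e1)

/-- every class has a representative all of whose reductions are nonzero. -/
theorem Count_exists_good_rep {T : MultiRed K F k Fb} (hS : T.Sep) (hsc : HasScales T) {m : ℕ}
    (hm : 0 < m) (κ : KV K F m) :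
    ∃ f : kummerUnits K F m, KV.mk f = κ ∧ ∀ j, T.red ((f : Fˣ) : F) j ≠ 0 := by
  obtain ⟨f₀, rfl⟩ := KV.mk_surjective κ
  obtain ⟨g, hg0, hg⟩ := exists_unit_rep hS hsc hm (f := ((f₀ : Fˣ) : F)) (f₀ : Fˣ).ne_zero
  refine ⟨f₀ * ⟨(Units.mk0 g hg0) ^ m, pow_mem_kummerUnits m _⟩, ?_, ?_⟩
  · rw [KV.mk_eq_mk_iff]
    exact ⟨Units.mk0 g hg0, by rw [mul_comm]; rfl⟩
  · intro j
    exact hg j

/-- **(C2) One step.**
PROOF. `G := Ksub T m J`, `H := (Ksub T m (insert i J))` as a subgroup of `G` (`AddSubgroup.addSubgroupOf`; `Ksub (insert i J) ≤ Ksub J`), `X := QOff k (Fb i) m (branchesOut N i J)`.  For `κ ∈ G` choose a representative `f_κ` with all reductions `≠ 0`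
(`KV.mk_surjective`, `exists_unit_rep h.sep hsc`, `KV.mk_eq_mk_iff`); `φ κ :=` the class of `Units.mk0 (red_i f_κ) _` ((C2b)).  If `φ κ = φ κ'` then `red_i f_κ = v ^ m red_i f_κ'`, `v ≠ 0` (`QuotientGroup.eq`); lift `v` to `w`
(`RedData.exists_lift`), `f_κ / (f_κ' w ^ m)` represents `κ - κ'` and reduces to `1` at `i`.  (C0), (C1), `card_branchesOut_le` (`Nat.pow_le_pow_right`, `Nat.sub_le_sub_right`). -/
theorem card_Ksub_le {T : MultiRed K F k Fb} {x : F} {N : NodeData k Fb E} {a₀ : ℕ}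
    (h : IsPreNodal T x N a₀) (hsc : HasScales T) {m : ℕ} (hm : (m : k) ≠ 0)
    (hloop : ∀ e, N.i₁ e ≠ N.i₂ e) [Finite (KV K F m)] (J : Set ι) (i : ι)
    [Finite (KV k (Fb i) m)] :
    Nat.card (Ksub T m J) ≤ Nat.card (Ksub T m (insert i J)) *
      (Nat.card (KV k (Fb i) m) * m ^ (Nat.card (edgesOut N i J) - 1)) := by
  classical
  have hm0 : 0 < m := by
    rcases Nat.eq_zero_or_pos m with rfl | h0
    · exact absurd Nat.cast_zero hm
    · exact h0
  obtain ⟨hfinS, hcardS⟩ := card_branchesOut_le N hloop i J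
  obtain ⟨hfinX, hcardX⟩ := card_QOff_le (k := k) (Fb := Fb i) hm0 (branchesOut N i J)
  have hle : Ksub T m (insert i J) ≤ Ksub T m J := by
    intro κ hκ
    rw [mem_Ksub] at hκ ⊢
    exact fun j hj => hκ j (Set.mem_insert_of_mem i hj)
  -- representatives
  have hrep : ∀ κ : Ksub T m J, ∃ f : kummerUnits K F m, KV.mk f = (κ : KV K F m) ∧
      ∀ j, T.red ((f : Fˣ) : F) j ≠ 0 := fun κ => Count_exists_good_rep h.sep hsc hm0 κ
  choose r hr hr0 using hrep
  have hmem : ∀ κ : Ksub T m J,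
      Units.mk0 (T.red ((r κ : Fˣ) : F) i) (hr0 κ i) ∈ unitsOff k (Fb i) m (branchesOut N i J) := by
    intro κ P hP
    exact red_mem_unitsOff h hsc hm i (by rw [hr κ]; exact κ.2) (hr0 κ) P hP
  let φ : Ksub T m J → QOff k (Fb i) m (branchesOut N i J) := fun κ =>
    QuotientGroup.mk ⟨Units.mk0 (T.red ((r κ : Fˣ) : F) i) (hr0 κ i), hmem κ⟩
  have hφ : ∀ a b : Ksub T m J, φ a = φ b →
      a - b ∈ (Ksub T m (insert i J)).addSubgroupOf (Ksub T m J) := by
    intro a b hab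
    rw [QuotientGroup.eq, Subgroup.mem_subgroupOf, MonoidHom.mem_range] at hab
    obtain ⟨v, hv⟩ := hab
    have hv' : (v : Fb i) ^ m = (T.red ((r a : Fˣ) : F) i)⁻¹ * T.red ((r b : Fˣ) : F) i := by
      have := congrArg (fun u : (Fb i)ˣ => (u : Fb i)) hv
      simpa using this
    obtain ⟨w, hwO, hw⟩ := (T.R i).exists_lift (v : Fb i)
    have hw0 : w ≠ 0 := by
      rintro rfl
      rw [(T.R i).red_zero] at hw
      exact v.ne_zero hw.symm
    rw [AddSubgroup.mem_addSubgroupOf, mem_Ksub]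
    intro j hj
    rcases Set.mem_insert_iff.1 hj with rfl | hj
    · refine ⟨r a * ⟨(Units.mk0 w hw0) ^ m, pow_mem_kummerUnits m _⟩ * (r b)⁻¹, ?_, ?_⟩
      · rw [KV.mk_mul, KV.mk_mul, KV.mk_inv, hr a, hr b]
        have : KV.mk (⟨(Units.mk0 w hw0) ^ m, pow_mem_kummerUnits m _⟩ : kummerUnits K F m) = 0 := by
          rw [KV.mk_eq_zero_iff]
          exact ⟨_, rfl⟩
        rw [this, add_zero, AddSubgroup.coe_sub, sub_eq_add_neg]
      · have haO : ((r a : Fˣ) : F) ∈ (T.R j).O := (T.R j).mem_of_red_ne_zero (hr0 a j)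
        have hbO : (((r b : Fˣ) : F))⁻¹ ∈ (T.R j).O := (T.R j).inv_mem_of_red_ne_zero (hr0 b j)
        have hwm : w ^ m ∈ (T.R j).O := (T.R j).O.pow_mem hwO m
        have hcoe : (((r a * ⟨(Units.mk0 w hw0) ^ m, pow_mem_kummerUnits m _⟩ * (r b)⁻¹ :
            kummerUnits K F m) : Fˣ) : F) = ((r a : Fˣ) : F) * w ^ m * (((r b : Fˣ) : F))⁻¹ := by
          simp
        rw [hcoe]
        rw [(T.R j).red_mul ((T.R j).O.mul_mem _ _ haO hwm) hbO, (T.R j).red_mul haO hwm,
          (T.R j).red_pow, (T.R j).red_inv, hw, hv']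
        have h1 : (T.R j).red ((r a : Fˣ) : F) ≠ 0 := hr0 a j
        have h2 : (T.R j).red ((r b : Fˣ) : F) ≠ 0 := hr0 b j
        simp only [MultiRed.red_apply]
        field_simp
    · exact (mem_Ksub.1 ((Ksub T m J).sub_mem a.2 b.2)) j hj
  have h1 := card_le_of_fibres ((Ksub T m (insert i J)).addSubgroupOf (Ksub T m J)) φ hφ
  have h2 : Nat.card ((Ksub T m (insert i J)).addSubgroupOf (Ksub T m J)) =
      Nat.card (Ksub T m (insert i J)) :=
    Nat.card_congr (AddSubgroup.addSubgroupOfEquivOfLe hle).toEquiv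
  rw [h2] at h1
  refine h1.trans (Nat.mul_le_mul_left _ (hcardX.trans (Nat.mul_le_mul_left _ ?_)))
  exact Nat.pow_le_pow_right hm0 (Nat.sub_le_sub_right hcardS 1)

omit [IsFF K F] [IsAlgClosed K] [∀ i, IsFF k (Fb i)] [IsAlgClosed k] [Fintype ι] [Fintype E] in
/-- **(C3a)** a connected graph: a nonempty proper set of vertices has an outgoing edge (apply `hconn` to the indicator function of `C`, `0 ≠ 1` in `k`). -/
theorem exists_edge_of_connected {N : NodeData k Fb E} (hconn : N.Connected) (C : Set ι)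
    (hne : C.Nonempty) (hC : C ≠ Set.univ) :
    ∃ e, (N.i₁ e ∈ C ∧ N.i₂ e ∉ C) ∨ (N.i₂ e ∈ C ∧ N.i₁ e ∉ C) := by
  classical
  by_contra hcon
  push Not at hcon
  obtain ⟨i, hi⟩ := hne
  obtain ⟨j, hj⟩ : ∃ j, j ∉ C := by
    by_contra h
    push Not at h
    exact hC (Set.eq_univ_of_forall h)
  have := hconn (fun l => if l ∈ C then 1 else 0) (fun e => by
    by_cases h1 : N.i₁ e ∈ C
    · simp [h1, (hcon e).1 h1]
    · have h2 : N.i₂ e ∉ C := fun h2 => h1 ((hcon e).2 h2)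
      simp [h1, h2]) i j
  simp [hi, hj] at this

/-- the number of nodes with both branches on components of `C`. -/
noncomputable def Count_eC [DecidableEq ι] (N : NodeData k Fb E) (C : Finset ι) : ℕ :=
  (Finset.univ.filter fun e => N.i₁ e ∈ C ∧ N.i₂ e ∈ C).card

/-- the nodes joining `i` to `C`. -/
noncomputable def Count_D [DecidableEq ι] (N : NodeData k Fb E) (i : ι) (C : Finset ι) :
    Finset E :=
  Finset.univ.filter fun e => (N.i₁ e = i ∧ N.i₂ e ∈ C) ∨ (N.i₂ e = i ∧ N.i₁ e ∈ C)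

omit [IsFF K F] [IsAlgClosed K] [∀ i, IsFF k (Fb i)] [IsAlgClosed k] [Fintype ι] in
theorem Count_edgesOut_eq [DecidableEq ι] (N : NodeData k Fb E) (hloop : ∀ e, N.i₁ e ≠ N.i₂ e)
    (i : ι) (C : Finset ι) :
    edgesOut N i ((↑(insert i C) : Set ι)ᶜ) = ↑(Count_D N i C) := by
  ext e
  simp only [edgesOut, Count_D, Set.mem_ofPred_eq, Set.mem_compl_iff, not_not, Finset.coe_filter,
    Finset.mem_univ, true_and, Finset.mem_coe, Finset.mem_insert]
  constructor
  · rintro (⟨h1, h2 | h2⟩ | ⟨h1, h2 | h2⟩)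
    · exact absurd (h1.trans h2.symm) (hloop e)
    · exact Or.inl ⟨h1, h2⟩
    · exact absurd (h2.trans h1.symm) (hloop e)
    · exact Or.inr ⟨h1, h2⟩
  · rintro (⟨h1, h2⟩ | ⟨h1, h2⟩)
    · exact Or.inl ⟨h1, Or.inr h2⟩
    · exact Or.inr ⟨h1, Or.inr h2⟩

omit [IsFF K F] [IsAlgClosed K] [∀ i, IsFF k (Fb i)] [IsAlgClosed k] [Fintype ι] in
theorem Count_eC_insert [DecidableEq ι] (N : NodeData k Fb E) (hloop : ∀ e, N.i₁ e ≠ N.i₂ e)
    (i : ι) (C : Finset ι) (hi : i ∉ C) :
    Count_eC N (insert i C) = Count_eC N C + (Count_D N i C).card := by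
  classical
  rw [Count_eC, Count_eC, Count_D, ← Finset.card_union_of_disjoint]
  · congr 1
    ext e
    simp only [Finset.mem_filter, Finset.mem_univ, true_and, Finset.mem_insert, Finset.mem_union]
    constructor
    · rintro ⟨h1 | h1, h2 | h2⟩
      · exact absurd (h1.trans h2.symm) (hloop e)
      · exact Or.inr (Or.inl ⟨h1, h2⟩)
      · exact Or.inr (Or.inr ⟨h2, h1⟩)
      · exact Or.inl ⟨h1, h2⟩
    · rintro (⟨h1, h2⟩ | ⟨h1, h2⟩ | ⟨h1, h2⟩)
      · exact ⟨Or.inr h1, Or.inr h2⟩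
      · exact ⟨Or.inl h1, Or.inr h2⟩
      · exact ⟨Or.inr h2, Or.inl h1⟩
  · rw [Finset.disjoint_left]
    intro e he he'
    simp only [Finset.mem_filter, Finset.mem_univ, true_and] at he he'
    rcases he' with ⟨h1, -⟩ | ⟨h1, -⟩
    · exact hi (h1 ▸ he.1)
    · exact hi (h1 ▸ he.2)

/-- the induction statement of (C3). -/
def Count_Q [DecidableEq ι] (T : MultiRed K F k Fb) (N : NodeData k Fb E) (m : ℕ) (C : Finset ι) :
    Prop :=
  C.card ≤ Count_eC N C + 1 ∧
    Nat.card (Ksub T m ((↑C : Set ι)ᶜ)) ≤ Nat.card (Kall T m) *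
      ((∏ i ∈ C, Nat.card (KV k (Fb i) m)) * m ^ (Count_eC N C + 1 - C.card))

theorem Count_Q_singleton [DecidableEq ι] {T : MultiRed K F k Fb} {x : F} {N : NodeData k Fb E}
    {a₀ : ℕ} (h : IsPreNodal T x N a₀) (hsc : HasScales T) {m : ℕ} (hm : (m : k) ≠ 0)
    (hloop : ∀ e, N.i₁ e ≠ N.i₂ e) [Finite (KV K F m)] [∀ i, Finite (KV k (Fb i) m)] (i₀ : ι) :
    Count_Q T N m {i₀} := by
  have hm0 : 0 < m := Nat.pos_of_ne_zero (by rintro rfl; simp at hm)
  have he : Count_eC N {i₀} = 0 := by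
    rw [Count_eC, Finset.card_eq_zero, Finset.filter_eq_empty_iff]
    intro e _ hcon
    simp only [Finset.mem_singleton] at hcon
    exact hloop e (hcon.1.trans hcon.2.symm)
  refine ⟨by simp, ?_⟩
  have h1 := card_Ksub_le h hsc hm hloop ((↑({i₀} : Finset ι) : Set ι)ᶜ) i₀
  have h2 : insert i₀ ((↑({i₀} : Finset ι) : Set ι)ᶜ) = Set.univ := by
    ext j
    by_cases hj : j = i₀ <;> simp [hj]
  have h3 : Ksub T m (Set.univ : Set ι) = Kall T m := by
    ext κ
    rw [mem_Ksub, mem_Kall_iff_forall h.sep hsc hm0]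
    exact ⟨fun H i => H i (Set.mem_univ i), fun H i _ => H i⟩
  have h4 : edgesOut N i₀ ((↑({i₀} : Finset ι) : Set ι)ᶜ) = ∅ := by
    have := Count_edgesOut_eq N hloop i₀ ∅
    rw [show (insert i₀ (∅ : Finset ι)) = {i₀} from rfl] at this
    rw [this]
    simp [Count_D]
  rw [h2, h3, h4] at h1
  rw [he]
  simpa using h1

theorem Count_Q_insert [DecidableEq ι] {T : MultiRed K F k Fb} {x : F} {N : NodeData k Fb E}
    {a₀ : ℕ} (h : IsPreNodal T x N a₀) (hsc : HasScales T) {m : ℕ} (hm : (m : k) ≠ 0)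
    (hloop : ∀ e, N.i₁ e ≠ N.i₂ e) [Finite (KV K F m)] [∀ i, Finite (KV k (Fb i) m)]
    {C : Finset ι} (hQ : Count_Q T N m C) {i : ι} (hi : i ∉ C) (hD : (Count_D N i C).Nonempty) :
    Count_Q T N m (insert i C) := by
  obtain ⟨hQ1, hQ2⟩ := hQ
  have hd : 1 ≤ (Count_D N i C).card := Finset.card_pos.mpr hD
  have hcard : (insert i C).card = C.card + 1 := Finset.card_insert_of_notMem hi
  have heC := Count_eC_insert N hloop i C hi
  refine ⟨by rw [hcard, heC]; omega, ?_⟩
  have h1 := card_Ksub_le h hsc hm hloop ((↑(insert i C) : Set ι)ᶜ) i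
  have h2 : insert i ((↑(insert i C) : Set ι)ᶜ) = (↑C : Set ι)ᶜ := by
    ext j
    simp only [Set.mem_insert_iff, Set.mem_compl_iff, Finset.mem_coe, Finset.mem_insert, not_or]
    constructor
    · rintro (rfl | hj)
      · exact hi
      · exact hj.2
    · intro hj
      by_cases hji : j = i
      · exact Or.inl hji
      · exact Or.inr ⟨hji, hj⟩
  have h3 : Nat.card (edgesOut N i ((↑(insert i C) : Set ι)ᶜ)) = (Count_D N i C).card := by
    rw [Count_edgesOut_eq N hloop i C]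
    simp
  rw [h2, h3] at h1
  refine h1.trans ?_
  rw [Finset.prod_insert hi, hcard, heC]
  have e1 : Count_eC N C + (Count_D N i C).card + 1 - (C.card + 1)
      = (Count_eC N C + 1 - C.card) + ((Count_D N i C).card - 1) := by omega
  rw [e1, pow_add]
  calc Nat.card (Ksub T m ((↑C : Set ι)ᶜ)) *
        (Nat.card (KV k (Fb i) m) * m ^ ((Count_D N i C).card - 1))
      ≤ (Nat.card (Kall T m) * ((∏ i ∈ C, Nat.card (KV k (Fb i) m)) *
          m ^ (Count_eC N C + 1 - C.card))) *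
        (Nat.card (KV k (Fb i) m) * m ^ ((Count_D N i C).card - 1)) :=
        Nat.mul_le_mul_right _ hQ2
    _ = _ := by ring

/-- **(C3) The count.**
PROOF. For a finite set `C` of components let `e(C) := #{e | N.i₁ e ∈ C ∧ N.i₂ e ∈ C}` and
`Q(C) : #C ≤ e(C) + 1 ∧ #K_{Cᶜ} ≤ #K_all · (∏_{i ∈ C} #V_m(Fb i) · m ^ (e(C) + 1 - #C))`.
* `Q({i₀})`: (C2) with `J = {i₀}ᶜ`: `insert i₀ J = univ`, `Ksub univ = Kall` (`mem_Kall_iff_forall h.sep hsc`), `edgesOut N i₀ J = ∅` (no loops).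
* `Q(C) ⟹ Q(insert i C)` if `i ∉ C` is joined to `C`: (C2) with `J = (insert i C)ᶜ`: `insert i J = Cᶜ`; `edgesOut N i J = {e joining i and C}` (no loops), nonempty; `e(insert i C) = e(C) + #edgesOut`.
* by (C3a) (`h.connected`) and induction on `#Cᶜ` one reaches `C = univ`: `Ksub ∅ = ⊤`, `e(univ) = #E`. -/
theorem card_KV_le [Nonempty ι] {T : MultiRed K F k Fb} {x : F} {N : NodeData k Fb E} {a₀ : ℕ}
    (h : IsPreNodal T x N a₀) (hsc : HasScales T) {m : ℕ} (hm : (m : k) ≠ 0)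
    (hloop : ∀ e, N.i₁ e ≠ N.i₂ e) [Finite (KV K F m)] [∀ i, Finite (KV k (Fb i) m)] :
    Fintype.card ι ≤ Fintype.card E + 1 ∧
    Nat.card (KV K F m) ≤ Nat.card (Kall T m) *
      ((∏ i, Nat.card (KV k (Fb i) m)) * m ^ (Fintype.card E + 1 - Fintype.card ι)) := by
  classical
  have key : ∀ (n : ℕ) (C : Finset ι), C.Nonempty → Count_Q T N m C → Cᶜ.card = n →
      Count_Q T N m Finset.univ := by
    intro n
    induction n with
    | zero =>
      intro C _ hQ hn
      have : C = Finset.univ := by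
        rw [Finset.card_eq_zero, Finset.compl_eq_empty_iff] at hn
        exact hn
      rwa [this] at hQ
    | succ n ih =>
      intro C hne hQ hn
      have hC : (↑C : Set ι) ≠ Set.univ := by
        intro hcon
        rw [Finset.coe_eq_univ] at hcon
        rw [hcon] at hn
        simp at hn
      have hstep : ∀ i, i ∉ C → (Count_D N i C).Nonempty → Count_Q T N m Finset.univ := by
        intro i hi hD
        refine ih (insert i C) (Finset.insert_nonempty i C)
          (Count_Q_insert h hsc hm hloop hQ hi hD) ?_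
        have h1 := Finset.card_compl (insert i C)
        have h2 := Finset.card_compl C
        rw [Finset.card_insert_of_notMem hi] at h1
        omega
      obtain ⟨e, ⟨h1, h2⟩ | ⟨h1, h2⟩⟩ := exists_edge_of_connected h.connected (↑C : Set ι) hne hC
      · refine hstep (N.i₂ e) h2 ⟨e, ?_⟩
        rw [Count_D, Finset.mem_filter]
        exact ⟨Finset.mem_univ _, Or.inr ⟨rfl, h1⟩⟩
      · refine hstep (N.i₁ e) h2 ⟨e, ?_⟩
        rw [Count_D, Finset.mem_filter]
        exact ⟨Finset.mem_univ _, Or.inl ⟨rfl, h1⟩⟩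
  obtain ⟨i₀⟩ := ‹Nonempty ι›
  obtain ⟨hQ1, hQ2⟩ := key _ {i₀} (Finset.singleton_nonempty i₀)
    (Count_Q_singleton h hsc hm hloop i₀) rfl
  have he : Count_eC N Finset.univ = Fintype.card E := by
    simp [Count_eC]
  have hK : Nat.card (Ksub T m ((↑(Finset.univ : Finset ι) : Set ι)ᶜ)) = Nat.card (KV K F m) := by
    have : Ksub T m ((↑(Finset.univ : Finset ι) : Set ι)ᶜ) = ⊤ := by
      ext κ
      simp [mem_Ksub]
    rw [this]
    exact Nat.card_congr (AddSubgroup.topEquiv.toEquiv)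
  rw [he, Finset.card_univ] at hQ1 hQ2
  rw [hK] at hQ2
  exact ⟨hQ1, hQ2⟩

/-- **(C4a)** lower bound for `K_all`.  (`h.genus_eq`: `g = ∑ gᵢ + b₁`; (C3): `m ^ (2 g) ≤ #K_all · m ^ (2 ∑ gᵢ) · m ^ b₁`.) -/
theorem le_card_Kall [Nonempty ι] {T : MultiRed K F k Fb} {x : F} {N : NodeData k Fb E} {a₀ : ℕ}
    (h : IsPreNodal T x N a₀) (hsc : HasScales T) {m : ℕ} (hm : (m : k) ≠ 0)
    (hloop : ∀ e, N.i₁ e ≠ N.i₂ e)
    (hF : Nat.card (KV K F m) = m ^ (2 * genusFF K F))
    (hfin : ∀ i, Finite (KV k (Fb i) m))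
    (hb : ∀ i, Nat.card (KV k (Fb i) m) ≤ m ^ (2 * genusFF k (Fb i))) :
    m ^ (Fintype.card E + 1 - Fintype.card ι) ≤ Nat.card (Kall T m) := by
  have hm0 : 0 < m := Nat.pos_of_ne_zero (by rintro rfl; simp at hm)
  have : Finite (KV K F m) := Nat.finite_of_card_ne_zero (by rw [hF]; exact (pow_pos hm0 _).ne')
  obtain ⟨hι, hcard⟩ := card_KV_le h hsc hm hloop
  have hg := IsPreNodal.genus_eq h
  set b := Fintype.card E + 1 - Fintype.card ι with hbdef
  have hbι : b + Fintype.card ι = Fintype.card E + 1 := Nat.sub_add_cancel hι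
  have hgen : genusFF K F = (∑ i, genusFF k (Fb i)) + b := by
    rw [Finset.sum_sub_distrib] at hg
    simp only [Finset.sum_const, Finset.card_univ, nsmul_eq_mul, mul_one] at hg
    have h2 : ((∑ i, genusFF k (Fb i) : ℕ) : ℤ) = ∑ i, (genusFF k (Fb i) : ℤ) := by push_cast; rfl
    have h3 : ((b + Fintype.card ι : ℕ) : ℤ) = ((Fintype.card E + 1 : ℕ) : ℤ) := by rw [hbι]
    push_cast at h3
    have : (genusFF K F : ℤ) = ((∑ i, genusFF k (Fb i) : ℕ) : ℤ) + b := by rw [h2]; linarith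
    exact_mod_cast this
  have hprod : (∏ i, Nat.card (KV k (Fb i) m)) ≤ m ^ (2 * ∑ i, genusFF k (Fb i)) := by
    rw [Finset.mul_sum, ← Finset.prod_pow_eq_pow_sum]
    exact Finset.prod_le_prod' fun i _ => hb i
  have h1 : m ^ (2 * (∑ i, genusFF k (Fb i)) + b) * m ^ b ≤
      m ^ (2 * (∑ i, genusFF k (Fb i)) + b) * Nat.card (Kall T m) := by
    calc m ^ (2 * (∑ i, genusFF k (Fb i)) + b) * m ^ b = Nat.card (KV K F m) := by
          rw [hF, hgen, ← pow_add]; congr 1; ring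
      _ ≤ Nat.card (Kall T m) * ((∏ i, Nat.card (KV k (Fb i) m)) * m ^ b) := hcard
      _ ≤ Nat.card (Kall T m) * (m ^ (2 * ∑ i, genusFF k (Fb i)) * m ^ b) :=
          Nat.mul_le_mul_left _ (Nat.mul_le_mul_right _ hprod)
      _ = m ^ (2 * (∑ i, genusFF k (Fb i)) + b) * Nat.card (Kall T m) := by
          rw [pow_add]; ring
  exact Nat.le_of_mul_le_mul_left h1 (pow_pos hm0 _)

omit [Fintype ι] [Fintype E] [∀ i, IsFF k (Fb i)] [∀ i, Field (Fb i)] [∀ i, Algebra k (Fb i)] in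
/-- the group of `m`-th roots of unity of `k` has `m` elements. -/
theorem Count_card_mu {m : ℕ} (hm : (m : k) ≠ 0) : Nat.card {c : k // c ^ m = 1} = m := by
  have : NeZero (m : k) := ⟨hm⟩
  have : NeZero m := ⟨by rintro rfl; simp at hm⟩
  refine Eq.trans (Nat.card_congr (β := rootsOfUnity m k) ?_)
    (HasEnoughRootsOfUnity.natCard_rootsOfUnity k m)
  exact
    { toFun := fun c => rootsOfUnity.mkOfPowEq c.1 c.2
      invFun := fun ζ => ⟨((ζ : kˣ) : k), by
        have := ζ.2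
        rw [mem_rootsOfUnity] at this
        have h2 := congrArg Units.val this
        simpa using h2⟩
      left_inv := fun c => by
        apply Subtype.ext
        simp
      right_inv := fun ζ => by
        apply Subtype.ext
        apply Units.ext
        simp }

/-- **(C4) Surjectivity of `δ`.**
PROOF. `μ := {c : k // c ^ m = 1}` has `m` elements (`(m : k) ≠ 0`, `k` algebraically closed: `IsPrimitiveRoot.card_rootsOfUnity` / `Polynomial.card_rootSet_eq_natDegree` for the separable `X ^ m - 1`).  Choose `δ_κ` for `κ ∈ Kall` (`exists_isDelta`).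
`Ψ : Kall × (ι → μ) → (E → μ)`, `(κ, c) ↦ δ_κ * cob N c` (`IsDelta.pow_eq_one`).  If `Ψ (κ, c) = Ψ (κ', c')` then `κ = κ'` (`IsDelta.mul_cob`, `IsDelta.eq`) and `cob N c = cob N c'`, i.e. `c / c'` is constant on the components
joined by a node, hence constant (`h.connected`): the fibres of `Ψ` have at most `m` elements.  So `#Kall · m ^ #ι ≤ m · #range Ψ`; with (C4a): `#range Ψ ≥ m ^ #E`, so `Ψ` is onto.  `δ = δ_κ * cob N c`: `IsDelta.mul_cob`. -/
theorem exists_isDelta_of_card [Nonempty ι] {T : MultiRed K F k Fb} {x : F} {N : NodeData k Fb E}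
    {a₀ : ℕ} (h : IsPreNodal T x N a₀) (hsc : HasScales T) {m : ℕ} (hm : (m : k) ≠ 0)
    (hloop : ∀ e, N.i₁ e ≠ N.i₂ e)
    (hF : Nat.card (KV K F m) = m ^ (2 * genusFF K F))
    (hfin : ∀ i, Finite (KV k (Fb i) m))
    (hb : ∀ i, Nat.card (KV k (Fb i) m) ≤ m ^ (2 * genusFF k (Fb i)))
    {δ : E → k} (hδ : ∀ e, δ e ^ m = 1) : ∃ κ : KV K F m, IsDelta T x N m κ δ := by
  classical
  have hm0 : 0 < m := Nat.pos_of_ne_zero (by rintro rfl; simp at hm)
  have : Finite (KV K F m) := Nat.finite_of_card_ne_zero (by rw [hF]; exact (pow_pos hm0 _).ne')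
  have hμcard : Nat.card {c : k // c ^ m = 1} = m := Count_card_mu hm
  have : Finite {c : k // c ^ m = 1} :=
    Nat.finite_of_card_ne_zero (by rw [hμcard]; exact hm0.ne')
  have hK := le_card_Kall h hsc hm hloop hF hfin hb
  have hι := (card_KV_le h hsc hm hloop).1
  have hne : ∀ c : k, c ^ m = 1 → c ≠ 0 := by
    rintro c hc rfl
    rw [zero_pow hm0.ne'] at hc
    exact zero_ne_one hc
  have hex : ∀ κ : Kall T m, ∃ d : E → k, IsDelta T x N m (κ : KV K F m) d :=
    fun κ => exists_isDelta h hm κ.2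
  choose dl hdl using hex
  have hdlpow : ∀ κ e, dl κ e ^ m = 1 := fun κ e => (hdl κ).pow_eq_one h hm e
  have hcobpow : ∀ (c : ι → {c : k // c ^ m = 1}) e, cob N (fun i => (c i : k)) e ^ m = 1 := by
    intro c e
    show ((c (N.i₁ e) : k) / (c (N.i₂ e) : k)) ^ m = 1
    rw [div_pow, (c _).2, (c _).2, div_one]
  let Ψ : (Kall T m × (ι → {c : k // c ^ m = 1})) → (E → {c : k // c ^ m = 1}) := fun p e =>
    ⟨dl p.1 e * cob N (fun i => (p.2 i : k)) e, by rw [mul_pow, hdlpow, hcobpow, one_mul]⟩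
  have hΨ : ∀ p, IsDelta T x N m ((p.1 : Kall T m) : KV K F m) (fun e => ((Ψ p e : _) : k)) :=
    fun p => (hdl p.1).mul_cob h hm (c := fun i => (p.2 i : k)) (fun i => (p.2 i).2)
  obtain ⟨i₀⟩ := ‹Nonempty ι›
  let Φ : (Kall T m × (ι → {c : k // c ^ m = 1})) → (Set.range Ψ × {c : k // c ^ m = 1}) :=
    fun p => (⟨Ψ p, p, rfl⟩, p.2 i₀)
  have hΦ : Function.Injective Φ := by
    rintro ⟨κ, c⟩ ⟨κ', c'⟩ hpp
    have h1 : Ψ (κ, c) = Ψ (κ', c') := congrArg (fun q => (q.1 : E → {c : k // c ^ m = 1})) hpp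
    have h2 : c i₀ = c' i₀ := congrArg (fun q => q.2) hpp
    have hκ : κ = κ' := by
      apply Subtype.ext
      have e1 := hΨ (κ, c)
      rw [h1] at e1
      exact e1.eq h hm (hΨ (κ', c'))
    subst hκ
    have h3 : ∀ e, cob N (fun i => (c i : k)) e = cob N (fun i => (c' i : k)) e := by
      intro e
      have := congrArg (fun z : {c : k // c ^ m = 1} => (z : k)) (congrFun h1 e)
      exact mul_left_cancel₀ (hne _ (hdlpow κ e)) this
    have h4 := h.connected (fun i => (c i : k) / (c' i : k)) (by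
      intro e
      have := h3 e
      have a1 := hne _ (c (N.i₂ e)).2
      have a2 := hne _ (c' (N.i₂ e)).2
      have a3 := hne _ (c' (N.i₁ e)).2
      change (c (N.i₁ e) : k) / (c (N.i₂ e) : k) = (c' (N.i₁ e) : k) / (c' (N.i₂ e) : k) at this
      show (c (N.i₁ e) : k) / (c' (N.i₁ e) : k) = (c (N.i₂ e) : k) / (c' (N.i₂ e) : k)
      rw [div_eq_div_iff a1 a2] at this
      rw [div_eq_div_iff a3 a2, this]
      ring)
    have hc : c = c' := by
      funext i
      apply Subtype.ext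
      have := h4 i i₀
      rw [h2, div_self (hne _ (c' i₀).2), div_eq_one_iff_eq (hne _ (c' i).2)] at this
      exact this
    rw [hc]
  have hcard := Nat.card_le_card_of_injective Φ hΦ
  rw [Nat.card_prod, Nat.card_prod, Nat.card_fun, hμcard, Nat.card_eq_fintype_card (α := ι)] at hcard
  have hbι : (Fintype.card E + 1 - Fintype.card ι) + Fintype.card ι = Fintype.card E + 1 :=
    Nat.sub_add_cancel hι
  have h5 : m ^ Fintype.card E * m ≤ Nat.card (Set.range Ψ) * m := by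
    calc m ^ Fintype.card E * m = m ^ (Fintype.card E + 1 - Fintype.card ι) * m ^ Fintype.card ι := by
          rw [← pow_add, hbι, pow_succ]
      _ ≤ Nat.card (Kall T m) * m ^ Fintype.card ι := Nat.mul_le_mul_right _ hK
      _ ≤ _ := hcard
  have h6 : m ^ Fintype.card E ≤ Nat.card (Set.range Ψ) := Nat.le_of_mul_le_mul_right h5 hm0
  have h7 : Set.range Ψ = Set.univ := by
    refine Set.eq_of_subset_of_ncard_le (Set.subset_univ _) ?_
    rw [Set.ncard_univ, Nat.card_fun, hμcard, Nat.card_eq_fintype_card (α := E), ← _root_.Nat.card_coe_set_eq]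
    exact h6
  obtain ⟨p, hp⟩ : (fun e => (⟨δ e, hδ e⟩ : {c : k // c ^ m = 1})) ∈ Set.range Ψ := by
    rw [h7]; exact Set.mem_univ _
  refine ⟨(p.1 : KV K F m), ?_⟩
  have := hΨ p
  rw [hp] at this
  exact this

end Fermat.Agent.S36.Abs
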