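import Fermat.Agent.S36.Abs.Genus

/-!
# S36 / Abs, file `Reindex`: change of the index type of the nodes
-/

set_option autoImplicit false

namespace Fermat.Agent.S36.Abs

open AlgebraicCurve Fermat.Agent.Lib.RR Fermat.Agent.GAL.RED Fermat.Agent.DR.Abs

variable {K F k : Type*} [Field K] [Field F] [Algebra K F] [Field k] {ι : Type*}
  {Fb : ι → Type*} [∀ i, Field (Fb i)] [∀ i, Algebra k (Fb i)] {E E' : Type*}

/-- reindexing of the nodes. -/
def reindexNodes (N : NodeData k Fb E) (e : E' → E) : NodeData k Fb E' where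
  i₁ l := N.i₁ (e l)
  i₂ l := N.i₂ (e l)
  p₁ l := N.p₁ (e l)
  p₂ l := N.p₂ (e l)

theorem reindexNodes_branch (N : NodeData k Fb E) (e : E' → E) :
    (reindexNodes N e).branch = N.branch ∘ Sum.map e e := by
  funext t
  rcases t with l | l <;> rfl

theorem reindexNodes_glued_iff (N : NodeData k Fb E) (e : E' ≃ E) (δ : E → k) (z : ∀ i, Fb i) :
    (reindexNodes N e).Glued (δ ∘ e) z ↔ N.Glued δ z := by
  constructor
  · intro h l
    obtain ⟨l', rfl⟩ := e.surjective l
    exact h l'
  · intro h l
    exact h (e l)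

theorem IsPreNodal.reindex [HasPrincipalDivisors K F] [∀ i, HasPrincipalDivisors k (Fb i)]
    {T : MultiRed K F k Fb} {x : F} {N : NodeData k Fb E} {a₀ : ℕ} (h : IsPreNodal T x N a₀)
    (e : E' ≃ E) : IsPreNodal T x (reindexNodes N e) a₀ where
  cart := h.cart
  sep := h.sep
  inj := by
    rw [reindexNodes_branch]
    exact h.inj.comp (Sum.map_injective.2 ⟨e.injective, e.injective⟩)
  nonconst := h.nonconst
  unit₁ l := h.unit₁ (e l)
  unit₂ l := h.unit₂ (e l)
  mem_iff a b hab z := by
    rw [h.mem_iff a b hab z]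
    have := reindexNodes_glued_iff N e 1 z
    rw [show ((1 : E → k) ∘ e) = 1 from rfl] at this
    rw [this]

theorem NodesGlued.reindex [HasPrincipalDivisors K F] {T : MultiRed K F k Fb} {x : F}
    {N : NodeData k Fb E} (h : NodesGlued T x N) (e : E' → E) : NodesGlued T x (reindexNodes N e) :=
  fun y hy hyL l => h y hy hyL (e l)

end Fermat.Agent.S36.Abs
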