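import Fermat.Agent.S36.Abs.Delta

/-!
# S36 / Abs, file `Symm`: equivariance (E6) and functoriality (E7) of the gluing cochain.

To avoid all dependent-type transport (`Fb i ≃ Fb (π i)`, places of `Fb (N.i₁ (πE e))` versus `Fb (π (N.i₁ e))`), the action on the special fibre
is given as ONE map `G` on the families `∀ i, Fb i`, and its compatibility with the nodes is expressed through the evaluation maps.
-/

set_option autoImplicit false

namespace Fermat.Agent.S36.Abs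

open AlgebraicCurve Fermat.Agent.Lib.RR Fermat.Agent.GAL Fermat.Agent.GAL.RED Fermat.Agent.DR.Abs

variable {K F k : Type*} [Field K] [Field F] [Algebra K F] [Field k] {ι : Type*}
  {Fb : ι → Type*} [∀ i, Field (Fb i)] [∀ i, Algebra k (Fb i)] {E : Type*}

/-- `g` is a symmetry of the nodal reduction `(T, (x)_∞, N)`, acting by `G` on the special fibre, by `σ` on `k` and by `πE` on the nodes
(preserving the orientation of the nodes). -/
structure IsSymm [HasPrincipalDivisors K F] (T : MultiRed K F k Fb) (x : F) (N : NodeData k Fb E)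
    (g : SemilinearAut K F) (G : (∀ i, Fb i) → (∀ i, Fb i)) (σ : k →+* k) (πE : Equiv.Perm E) : Prop where
  map_O : ∀ y ∈ T.O, g • y ∈ T.O
  red_map : ∀ y ∈ T.O, T.red (g • y) = G (T.red y)
  map_reg : ∀ (y : F) (a : ℕ), y ∈ riemannRochSpace (a • poleDiv (K := K) x) →
    ∃ a' : ℕ, g • y ∈ riemannRochSpace (a' • poleDiv (K := K) x)
  ev₁ : ∀ (e : E) (z : ∀ i, Fb i), 0 ≤ (N.p₁ e).ord (z (N.i₁ e)) →
    ev (N.p₁ (πE e)) (G z (N.i₁ (πE e))) = σ (ev (N.p₁ e) (z (N.i₁ e)))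
  ev₂ : ∀ (e : E) (z : ∀ i, Fb i), 0 ≤ (N.p₂ e).ord (z (N.i₂ e)) →
    ev (N.p₂ (πE e)) (G z (N.i₂ (πE e))) = σ (ev (N.p₂ e) (z (N.i₂ e)))

/-- `φ : F₁ → F` is a morphism of nodal reductions, acting by `P` (pull back of functions) on the special fibres and by `ρ` on the nodes. -/
structure IsMorph {F₁ : Type*} [Field F₁] [Algebra K F₁] {ι₁ : Type*} {Fb₁ : ι₁ → Type*}
    [∀ i, Field (Fb₁ i)] [∀ i, Algebra k (Fb₁ i)] {E₁ : Type*}
    [HasPrincipalDivisors K F] [HasPrincipalDivisors K F₁]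
    (T₁ : MultiRed K F₁ k Fb₁) (x₁ : F₁) (N₁ : NodeData k Fb₁ E₁)
    (T : MultiRed K F k Fb) (x : F) (N : NodeData k Fb E)
    (φ : F₁ →ₐ[K] F) (P : (∀ i, Fb₁ i) → (∀ i, Fb i)) (ρ : E → E₁) : Prop where
  map_O : ∀ y ∈ T₁.O, φ y ∈ T.O
  red_map : ∀ y ∈ T₁.O, T.red (φ y) = P (T₁.red y)
  map_reg : ∀ (y : F₁) (a : ℕ), y ∈ riemannRochSpace (a • poleDiv (K := K) x₁) →
    ∃ a' : ℕ, φ y ∈ riemannRochSpace (a' • poleDiv (K := K) x)
  ev₁ : ∀ (e : E) (z : ∀ i, Fb₁ i), 0 ≤ (N₁.p₁ (ρ e)).ord (z (N₁.i₁ (ρ e))) →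
    ev (N.p₁ e) (P z (N.i₁ e)) = ev (N₁.p₁ (ρ e)) (z (N₁.i₁ (ρ e)))
  ev₂ : ∀ (e : E) (z : ∀ i, Fb₁ i), 0 ≤ (N₁.p₂ (ρ e)).ord (z (N₁.i₂ (ρ e))) →
    ev (N.p₂ e) (P z (N.i₂ e)) = ev (N₁.p₂ (ρ e)) (z (N₁.i₂ (ρ e)))

variable [IsFF K F] [IsAlgClosed K] [∀ i, IsFF k (Fb i)] [IsAlgClosed k] [Fintype ι] [Fintype E]

/-- **(E6) Equivariance.**
PROOF. `f` a representative of `κ` with `red f = 1` and cochain `δ`.  `g • f` represents `g • κ` (`KV.semilinear_smul_mk`, `coe_semilinearUnits`);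
`red (g • f) = G (red f) = G (red 1) = red (g • 1) = 1` (`hs.red_map` twice, `smul_one`).  Let `y` be a good section of `f` (`exists_section_ev_ne_zero`).  `g • y` is a section of
`g • f`: it is integral (`hs.map_O`) and `(g • y) ^ m * (g • f) = g • (y ^ m * f)` (`smul_mul'`, `smul_pow'`), `hs.map_reg`.
Its reduction is `G (red y)`; at the node `e' = πE e`: `ev₁`, `ev₂` (regularity: `IsSection.ord_nonneg`) and `map_mul σ` give
`ev (p₁ e') = σ (δ e) * ev (p₂ e')`, and `ev (p₂ e') = σ (ev (p₂ e) ..) ≠ 0` (`σ` is injective).  Every node is of the form `πE e`, `e = πE.symm e'`.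
Conclude with `secGlued_of_section` (Kummer property of `g • f`: `semilinearUnits_mem`). -/
theorem IsDelta.smul {T : MultiRed K F k Fb} {x : F} {N : NodeData k Fb E} {a₀ : ℕ}
    (h : IsPreNodal T x N a₀) {m : ℕ} (hm : (m : k) ≠ 0) {g : SemilinearAut K F}
    {G : (∀ i, Fb i) → (∀ i, Fb i)} {σ : k →+* k} {πE : Equiv.Perm E} (hs : IsSymm T x N g G σ πE)
    {κ : KV K F m} {δ : E → k} (hδ : IsDelta T x N m κ δ) :
    IsDelta T x N m (g • κ) (fun e => σ (δ (πE.symm e))) := by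
  obtain ⟨f, rfl, hr, hsec⟩ := hδ
  have hm0 : 0 < m := Nat.pos_of_ne_zero (by rintro rfl; simp at hm)
  have hfO : ((f : Fˣ) : F) ∈ T.O := fun i =>
    (T.R i).mem_of_red_ne_zero (by rw [← T.red_apply, hr]; exact one_ne_zero)
  have hred1 : T.red (1 : F) = 1 := by
    funext i
    exact (T.R i).red_one
  have hgr : T.red (g • ((f : Fˣ) : F)) = 1 := by
    rw [hs.red_map _ hfO, hr, ← hred1, ← hs.red_map _ T.O.one_mem, smul_one]
  refine ⟨⟨semilinearUnits g f, semilinearUnits_mem g f f.2⟩, (KV.semilinear_smul_mk g f).symm,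
    hgr, ?_⟩
  obtain ⟨y, hy, -, hy2⟩ := exists_section_ev_ne_zero h hm (fun P => f.2 P) hr
  have hgy : IsSection T x m (g • ((f : Fˣ) : F)) (g • y) := by
    refine ⟨hs.map_O y hy.1, ?_⟩
    obtain ⟨a, ha⟩ := hy.2
    obtain ⟨a', ha'⟩ := hs.map_reg _ a ha
    refine ⟨a', ?_⟩
    rwa [smul_mul', smul_pow'] at ha'
  have hreg := fun e => IsSection.ord_nonneg h hm0 hr hy e
  refine secGlued_of_section h hm (fun P => semilinearUnits_mem g f f.2 P) hgr hgy ?_ ?_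
  · intro e'
    obtain ⟨e, rfl⟩ := πE.surjective e'
    rw [hs.red_map y hy.1, hs.ev₂ e _ (hreg e).2]
    exact (map_ne_zero σ).2 (hy2 e)
  · intro e'
    obtain ⟨e, rfl⟩ := πE.surjective e'
    rw [hs.red_map y hy.1, hs.ev₁ e _ (hreg e).1, hs.ev₂ e _ (hreg e).2]
    show _ = σ (δ (πE.symm (πE e))) * _
    rw [Equiv.symm_apply_apply, hsec y hy e, map_mul]

/-- `K_all` is stable. -/
theorem smul_mem_Kall {T : MultiRed K F k Fb} {x : F} {N : NodeData k Fb E}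
    {m : ℕ} {g : SemilinearAut K F}
    {G : (∀ i, Fb i) → (∀ i, Fb i)} {σ : k →+* k} {πE : Equiv.Perm E} (hs : IsSymm T x N g G σ πE)
    {κ : KV K F m} (hκ : κ ∈ Kall T m) : g • κ ∈ Kall T m := by
  obtain ⟨f, rfl, hr⟩ := hκ
  have hfO : ((f : Fˣ) : F) ∈ T.O := fun i =>
    (T.R i).mem_of_red_ne_zero (by rw [← T.red_apply, hr]; exact one_ne_zero)
  have hred1 : T.red (1 : F) = 1 := by
    funext i
    exact (T.R i).red_one
  have hgr : T.red (g • ((f : Fˣ) : F)) = 1 := by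
    rw [hs.red_map _ hfO, hr, ← hred1, ← hs.red_map _ T.O.one_mem, smul_one]
  exact ⟨⟨semilinearUnits g f, semilinearUnits_mem g f f.2⟩, (KV.semilinear_smul_mk g f).symm, hgr⟩

variable {F₁ : Type*} [Field F₁] [Algebra K F₁] {ι₁ : Type*} {Fb₁ : ι₁ → Type*}
    [∀ i, Field (Fb₁ i)] [∀ i, Algebra k (Fb₁ i)] {E₁ : Type*}
    [IsFF K F₁] [∀ i, IsFF k (Fb₁ i)] [Fintype ι₁] [Fintype E₁]

/-- **(E7) Functoriality.**
PROOF. As for (E6): `f₁` a representative of `κ` with `red f₁ = 1`, `y₁` a good section (for `h₁`); `φ f₁` represents the image (`KV.map_mk`), `red (φ f₁) = P (red f₁) = P (red 1) = red (φ 1) = 1`;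
`φ y₁` is a section of `φ f₁` with reduction `P (red y₁)`, glued by `δ ∘ ρ` and not vanishing at the branches (`ev₁`, `ev₂`); `secGlued_of_section` for `h`. -/
theorem IsDelta.map {T₁ : MultiRed K F₁ k Fb₁} {x₁ : F₁} {N₁ : NodeData k Fb₁ E₁} {a₁ : ℕ}
    (h₁ : IsPreNodal T₁ x₁ N₁ a₁)
    {T : MultiRed K F k Fb} {x : F} {N : NodeData k Fb E} {a₀ : ℕ} (h : IsPreNodal T x N a₀)
    {m : ℕ} (hm : (m : k) ≠ 0) {φ : F₁ →ₐ[K] F} {P : (∀ i, Fb₁ i) → (∀ i, Fb i)} {ρ : E → E₁}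
    (hφ : IsMorph T₁ x₁ N₁ T x N φ P ρ)
    (hK : ∀ u ∈ kummerUnits K F₁ m, Units.map (φ : F₁ →* F) u ∈ kummerUnits K F m)
    {κ : KV K F₁ m} {δ : E₁ → k} (hδ : IsDelta T₁ x₁ N₁ m κ δ) :
    IsDelta T x N m (KV.map (Units.map (φ : F₁ →* F)) hK κ) (δ ∘ ρ) := by
  obtain ⟨f, rfl, hr, hsec⟩ := hδ
  have hm0 : 0 < m := Nat.pos_of_ne_zero (by rintro rfl; simp at hm)
  have hfO : ((f : F₁ˣ) : F₁) ∈ T₁.O := fun i =>
    (T₁.R i).mem_of_red_ne_zero (by rw [← T₁.red_apply, hr]; exact one_ne_zero)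
  have hred1 : T₁.red (1 : F₁) = 1 := by
    funext i
    exact (T₁.R i).red_one
  have hred1' : T.red (1 : F) = 1 := by
    funext i
    exact (T.R i).red_one
  have hgr : T.red (φ ((f : F₁ˣ) : F₁)) = 1 := by
    rw [hφ.red_map _ hfO, hr, ← hred1, ← hφ.red_map _ T₁.O.one_mem, map_one, hred1']
  refine ⟨⟨Units.map (φ : F₁ →* F) f, hK f f.2⟩, (KV.map_mk _ hK f).symm, hgr, ?_⟩
  obtain ⟨y, hy, -, hy2⟩ := exists_section_ev_ne_zero h₁ hm (fun P => f.2 P) hr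
  have hgy : IsSection T x m (φ ((f : F₁ˣ) : F₁)) (φ y) := by
    refine ⟨hφ.map_O y hy.1, ?_⟩
    obtain ⟨a, ha⟩ := hy.2
    obtain ⟨a', ha'⟩ := hφ.map_reg _ a ha
    refine ⟨a', ?_⟩
    rwa [map_mul, map_pow] at ha'
  have hreg := fun e => IsSection.ord_nonneg h₁ hm0 hr hy e
  refine secGlued_of_section h hm (fun P => hK f f.2 P) hgr hgy ?_ ?_
  · intro e
    rw [hφ.red_map y hy.1, hφ.ev₂ e _ (hreg (ρ e)).2]
    exact hy2 (ρ e)
  · intro e
    rw [hφ.red_map y hy.1, hφ.ev₁ e _ (hreg (ρ e)).1, hφ.ev₂ e _ (hreg (ρ e)).2,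
      hsec y hy (ρ e)]
    rfl

end Fermat.Agent.S36.Abs
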